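/-
P-CFT, WP Local/LocalBrauer (helper59), part 1: the character attached to a class in `H²(G, ℤ)`.

For a finite group `G` and a 2-cocycle `c : G × G → ℤ` (trivial action) the row sums
`b g = ∑ k, c (g, k)` satisfy `b g + b h = b (g * h) + |G| * c (g, h)`, hence
`g ↦ b g / |G| mod ℤ` is a homomorphism `G → ℚ/ℤ`.  This is the inverse of the connecting map
`Hom(G, ℚ/ℤ) = H¹(G, ℚ/ℤ) → H²(G, ℤ)`, written explicitly; we prove that it gives an isomorphism
`H²(G, ℤ) ≃ Hom(G, ℚ/ℤ)` which is natural in `G`.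
-/
import Mathlib

set_option autoImplicit false

namespace Fermat.Agent.Lib.CFT.Local.LocalBrauer

open groupCohomology CategoryTheory

/-- `ℚ/ℤ`. -/
abbrev QZ : Type := AddCircle (1 : ℚ)

section lift

variable {G : Type} [Group G] (A : Rep ℤ G)

/-- the projection from 2-cocycles to `H²` as an additive map. -/
noncomputable def H2πAdd : cocycles₂ A →+ H2 A := (H2π A).hom.toAddMonoidHom

theorem H2πAdd_apply (c : cocycles₂ A) : H2πAdd A c = H2π A c := rfl

theorem H2πAdd_surjective : Function.Surjective (H2πAdd A) :=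
  (ModuleCat.epi_iff_surjective _).1 inferInstance

/-- descend an additive map on 2-cocycles which kills coboundaries to `H²`. -/
noncomputable def H2lift {X : Type} [AddCommGroup X] (f : cocycles₂ A →+ X)
    (hf : ∀ c : cocycles₂ A, ⇑c ∈ coboundaries₂ A → f c = 0) : H2 A →+ X :=
  (QuotientAddGroup.lift (H2πAdd A).ker f (fun c hc =>
      (AddMonoidHom.mem_ker).2 (hf c ((H2π_eq_zero_iff c).1 hc)))).comp
    (QuotientAddGroup.quotientKerEquivOfSurjective (H2πAdd A)
      (H2πAdd_surjective A)).symm.toAddMonoidHom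

theorem H2lift_H2π {X : Type} [AddCommGroup X] (f : cocycles₂ A →+ X)
    (hf : ∀ c : cocycles₂ A, ⇑c ∈ coboundaries₂ A → f c = 0) (c : cocycles₂ A) :
    H2lift A f hf (H2π A c) = f c := by
  have : (QuotientAddGroup.quotientKerEquivOfSurjective (H2πAdd A)
      (H2πAdd_surjective A)).symm (H2π A c) = QuotientAddGroup.mk c := by
    rw [AddEquiv.symm_apply_eq]
    rfl
  simp only [H2lift, AddMonoidHom.coe_comp, AddEquiv.coe_toAddMonoidHom, Function.comp_apply]
  rw [this]
  exact QuotientAddGroup.lift_mk _ _ _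

end lift

section QZ

theorem QZ.coe_intCast (n : ℤ) : (((n : ℚ)) : QZ) = 0 :=
  (AddCircle.coe_eq_zero_iff (1 : ℚ)).2 ⟨n, by simp⟩

theorem QZ.coe_eq_zero_iff (q : ℚ) : ((q : QZ) = 0) ↔ ∃ n : ℤ, (n : ℚ) = q := by
  rw [AddCircle.coe_eq_zero_iff]
  simp

end QZ

section rowSum

variable {G : Type} [Group G] [Fintype G] (A : Rep.{0} ℤ G)

/-- the row sums of the valuation of a 2-cochain. -/
def rowSum (v : A.V →+ ℤ) (c : G × G → A.V) (g : G) : ℤ := ∑ k, v (c (g, k))

variable {A}

theorem rowSum_mul (v : A.V →+ ℤ) (hv : ∀ g a, v (A.ρ g a) = v a) (c : cocycles₂ A) (g h : G) :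
    rowSum A v c g + rowSum A v c h = rowSum A v c (g * h) + Fintype.card G * v (c (g, h)) := by
  have hc := (mem_cocycles₂_iff (A := A) c).1 c.2 g h
  have h1 : ∀ j : G, v (c (g * h, j)) + v (c (g, h)) = v (c (h, j)) + v (c (g, h * j)) := by
    intro j
    have := congrArg v (hc j)
    rw [map_add, map_add, hv] at this
    exact this
  have h2 : ∑ j : G, (v (c (g * h, j)) + v (c (g, h))) =
      ∑ j : G, (v (c (h, j)) + v (c (g, h * j))) := Finset.sum_congr rfl fun j _ => h1 j
  rw [Finset.sum_add_distrib, Finset.sum_add_distrib, Finset.sum_const, Finset.card_univ,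
    nsmul_eq_mul] at h2
  have h3 : ∑ j : G, v (c (g, h * j)) = ∑ j : G, v (c (g, j)) :=
    Fintype.sum_equiv (Equiv.mulLeft h) _ _ fun j => rfl
  rw [h3] at h2
  unfold rowSum
  linarith

theorem rowSum_d₁₂ (v : A.V →+ ℤ) (hv : ∀ g a, v (A.ρ g a) = v a) (b : G → A.V) (g : G) :
    rowSum A v (d₁₂ A b) g = Fintype.card G * v (b g) := by
  unfold rowSum
  have h1 : ∀ k : G, v (d₁₂ A b (g, k)) = v (b k) - v (b (g * k)) + v (b g) := by
    intro k
    rw [d₁₂_hom_apply]
    simp only [map_add, map_sub, hv]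
  rw [Finset.sum_congr rfl fun k _ => h1 k, Finset.sum_add_distrib, Finset.sum_sub_distrib,
    Finset.sum_const, Finset.card_univ, nsmul_eq_mul]
  have h3 : ∑ j : G, v (b (g * j)) = ∑ j : G, v (b j) :=
    Fintype.sum_equiv (Equiv.mulLeft g) _ _ fun j => rfl
  rw [h3]
  ring

theorem rowSum_add_cochain (v : A.V →+ ℤ) (c c' : G × G → A.V) (g : G) :
    rowSum A v (c + c') g = rowSum A v c g + rowSum A v c' g := by
  unfold rowSum
  simp [Finset.sum_add_distrib]

theorem card_ne_zero_rat : (Fintype.card G : ℚ) ≠ 0 :=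
  Nat.cast_ne_zero.2 Fintype.card_ne_zero

/-- the character `G → ℚ/ℤ` attached to a 2-cocycle and an invariant valuation:
`g ↦ (∑ k, v (c (g, k))) / |G| mod ℤ`. -/
noncomputable def cocycleChar (v : A.V →+ ℤ) (hv : ∀ g a, v (A.ρ g a) = v a) (c : cocycles₂ A) :
    Additive G →+ QZ :=
  AddMonoidHom.mk' (fun g => (((rowSum A v c g.toMul : ℤ) : ℚ) / (Fintype.card G : ℚ) : ℚ))
    (by
      intro g h
      have h1 := rowSum_mul v hv c g.toMul h.toMul
      have hN : (Fintype.card G : ℚ) ≠ 0 := card_ne_zero_rat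
      have h2 : ((rowSum A v c (g.toMul * h.toMul) : ℤ) : ℚ) / (Fintype.card G : ℚ) =
          ((rowSum A v c g.toMul : ℤ) : ℚ) / (Fintype.card G : ℚ) +
          ((rowSum A v c h.toMul : ℤ) : ℚ) / (Fintype.card G : ℚ) -
          ((v (c (g.toMul, h.toMul)) : ℤ) : ℚ) := by
        have h1' : ((rowSum A v c g.toMul : ℤ) : ℚ) + ((rowSum A v c h.toMul : ℤ) : ℚ) =
            ((rowSum A v c (g.toMul * h.toMul) : ℤ) : ℚ) +
              (Fintype.card G : ℚ) * ((v (c (g.toMul, h.toMul)) : ℤ) : ℚ) := by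
          exact_mod_cast h1
        field_simp
        linarith
      change (((rowSum A v c (g.toMul * h.toMul) : ℤ) : ℚ) / (Fintype.card G : ℚ) : QZ) = _
      rw [h2, AddCircle.coe_sub, AddCircle.coe_add, QZ.coe_intCast, sub_zero])

theorem cocycleChar_apply (v : A.V →+ ℤ) (hv : ∀ g a, v (A.ρ g a) = v a) (c : cocycles₂ A)
    (g : Additive G) :
    cocycleChar v hv c g = (((rowSum A v c g.toMul : ℤ) : ℚ) / (Fintype.card G : ℚ) : ℚ) := rfl

/-- `cocycleChar` as an additive map in the cocycle. -/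
noncomputable def cocycleCharHom (v : A.V →+ ℤ) (hv : ∀ g a, v (A.ρ g a) = v a) :
    cocycles₂ A →+ (Additive G →+ QZ) :=
  AddMonoidHom.mk' (cocycleChar v hv) (by
    intro c c'
    refine AddMonoidHom.ext fun g => ?_
    rw [AddMonoidHom.add_apply, cocycleChar_apply, cocycleChar_apply, cocycleChar_apply]
    have : rowSum A v ((c + c' : cocycles₂ A) : G × G → A.V) g.toMul =
        rowSum A v c g.toMul + rowSum A v c' g.toMul := rowSum_add_cochain v c c' g.toMul
    rw [this]
    push_cast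
    rw [add_div, AddCircle.coe_add])

theorem cocycleCharHom_apply (v : A.V →+ ℤ) (hv : ∀ g a, v (A.ρ g a) = v a) (c : cocycles₂ A) :
    cocycleCharHom v hv c = cocycleChar v hv c := rfl

theorem cocycleChar_of_mem_coboundaries₂ (v : A.V →+ ℤ) (hv : ∀ g a, v (A.ρ g a) = v a)
    (c : cocycles₂ A) (hc : ⇑c ∈ coboundaries₂ A) : cocycleChar v hv c = 0 := by
  obtain ⟨b, hb⟩ := hc
  refine AddMonoidHom.ext fun g => ?_
  rw [cocycleChar_apply]
  have : rowSum A v c g.toMul = Fintype.card G * v (b g.toMul) := by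
    have := rowSum_d₁₂ v hv b g.toMul
    rw [← this]
    congr 1
    exact hb.symm
  rw [this]
  push_cast
  rw [mul_div_cancel_left₀ _ card_ne_zero_rat, QZ.coe_intCast]
  rfl

/-- **The character of a class in `H²(G, A)`** with respect to an invariant valuation `v`. -/
noncomputable def H2char (v : A.V →+ ℤ) (hv : ∀ g a, v (A.ρ g a) = v a) :
    H2 A →+ (Additive G →+ QZ) :=
  H2lift A (cocycleCharHom v hv) (fun c hc => cocycleChar_of_mem_coboundaries₂ v hv c hc)

theorem H2char_H2π (v : A.V →+ ℤ) (hv : ∀ g a, v (A.ρ g a) = v a) (c : cocycles₂ A) :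
    H2char v hv (H2π A c) = cocycleChar v hv c := H2lift_H2π A _ _ c

theorem H2char_H2π_apply (v : A.V →+ ℤ) (hv : ∀ g a, v (A.ρ g a) = v a) (c : cocycles₂ A)
    (g : G) :
    H2char v hv (H2π A c) (Additive.ofMul g) =
      (((∑ k, v (c (g, k)) : ℤ) : ℚ) / (Fintype.card G : ℚ) : ℚ) := by
  rw [H2char_H2π]
  rfl

end rowSum

section naturality

variable {G H : Type} [Group G] [Fintype G] [Group H] [Fintype H]
  {A : Rep.{0} ℤ H} {B : Rep.{0} ℤ G} (f : G →* H) (φ : Rep.res f A ⟶ B)

/-- the sum of `v ∘ c (f g, f ·)` over the source group is the row sum over the target group,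
up to the obvious factors. -/
theorem card_mul_sum_comp (v : A.V →+ ℤ) (hv : ∀ g a, v (A.ρ g a) = v a) (c : cocycles₂ A)
    (g : G) :
    (Fintype.card H : ℤ) * ∑ k : G, v (c (f g, f k)) =
      (Fintype.card G : ℤ) * rowSum A v c (f g) := by
  have h1 : ∀ k : G, (Fintype.card H : ℤ) * v (c (f g, f k)) =
      rowSum A v c (f g) + rowSum A v c (f k) - rowSum A v c (f (g * k)) := by
    intro k
    have := rowSum_mul v hv c (f g) (f k)
    rw [map_mul]
    linarith
  rw [Finset.mul_sum, Finset.sum_congr rfl fun k _ => h1 k, Finset.sum_sub_distrib,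
    Finset.sum_add_distrib, Finset.sum_const, Finset.card_univ, nsmul_eq_mul]
  have h3 : ∑ k : G, rowSum A v c (f (g * k)) = ∑ k : G, rowSum A v c (f k) :=
    Fintype.sum_equiv (Equiv.mulLeft g) _ _ fun j => rfl
  rw [h3]
  ring

/-- **Naturality of the character** under a change of groups `f : G →* H` and a morphism
`φ : res f A ⟶ B` multiplying valuations by `e`. -/
theorem H2char_map (vA : A.V →+ ℤ) (hvA : ∀ g a, vA (A.ρ g a) = vA a)
    (vB : B.V →+ ℤ) (hvB : ∀ g b, vB (B.ρ g b) = vB b) (e : ℤ)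
    (he : ∀ a : A.V, vB (φ.hom a) = e * vA a) (x : H2 A) (g : G) :
    H2char vB hvB (groupCohomology.map f φ 2 x) (Additive.ofMul g) =
      e • H2char vA hvA x (Additive.ofMul (f g)) := by
  induction x using H2_induction_on with
  | h c =>
    have hmap : groupCohomology.map f φ 2 (H2π A c) = H2π B (mapCocycles₂ f φ c) :=
      H2π_comp_map_apply f φ c
    rw [hmap, H2char_H2π_apply, H2char_H2π_apply]
    have h1 : ∀ k : G, vB ((mapCocycles₂ f φ c) (g, k)) = e * vA (c (f g, f k)) := by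
      intro k
      exact he _
    rw [Finset.sum_congr rfl fun k _ => h1 k, ← Finset.mul_sum]
    have h2 := card_mul_sum_comp f vA hvA c g
    have hG : (Fintype.card G : ℚ) ≠ 0 := card_ne_zero_rat
    have hH : (Fintype.card H : ℚ) ≠ 0 := card_ne_zero_rat
    have h3 : (((e * ∑ k : G, vA (c (f g, f k)) : ℤ) : ℚ) / (Fintype.card G : ℚ)) =
        (e : ℚ) * (((∑ k : H, vA (c (f g, k)) : ℤ) : ℚ) / (Fintype.card H : ℚ)) := by
      have h2' : (Fintype.card H : ℚ) * ((∑ k : G, vA (c (f g, f k)) : ℤ) : ℚ) =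
          (Fintype.card G : ℚ) * ((∑ k : H, vA (c (f g, k)) : ℤ) : ℚ) := by
        exact_mod_cast h2
      push_cast at h2' ⊢
      field_simp
      linear_combination (e : ℚ) * h2'
    rw [h3, ← zsmul_eq_mul, AddCircle.coe_zsmul]

end naturality

section trivialZ

variable (G : Type) [Group G] [Fintype G]

/-- the trivial representation of `G` on `ℤ`. -/
abbrev Ztriv : Rep.{0} ℤ G := Rep.trivial ℤ G ℤ

/-- the character of a class in `H²(G, ℤ)`. -/
noncomputable def H2charZ : H2 (Ztriv G) →+ (Additive G →+ QZ) :=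
  H2char (A := Ztriv G) (AddMonoidHom.id ℤ) (fun _ _ => rfl)

theorem H2charZ_H2π_apply (c : cocycles₂ (Ztriv G)) (g : G) :
    H2charZ G (H2π (Ztriv G) c) (Additive.ofMul g) =
      (((∑ k, c (g, k) : ℤ) : ℚ) / (Fintype.card G : ℚ) : ℚ) :=
  H2char_H2π_apply (A := Ztriv G) (AddMonoidHom.id ℤ) (fun _ _ => rfl) c g

theorem H2charZ_injective : Function.Injective (H2charZ G) := by
  rw [injective_iff_map_eq_zero]
  intro x hx
  induction x using H2_induction_on with
  | h c =>
    rw [H2π_eq_zero_iff]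
    have hN : (Fintype.card G : ℚ) ≠ 0 := card_ne_zero_rat
    have h1 : ∀ g : G, ∃ n : ℤ, (Fintype.card G : ℤ) * n = ∑ k, c (g, k) := by
      intro g
      have := DFunLike.congr_fun hx (Additive.ofMul g)
      rw [H2charZ_H2π_apply, AddMonoidHom.zero_apply, QZ.coe_eq_zero_iff] at this
      obtain ⟨n, hn⟩ := this
      refine ⟨n, ?_⟩
      rw [eq_div_iff hN] at hn
      have : ((n * (Fintype.card G : ℤ) : ℤ) : ℚ) = ((∑ k, c (g, k) : ℤ) : ℚ) := by
        push_cast at hn ⊢
        exact hn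
      have := Int.cast_injective this
      linarith
    choose β hβ using h1
    refine ⟨β, ?_⟩
    funext ⟨g, h⟩
    rw [d₁₂_hom_apply]
    have h2 := rowSum_mul (A := Ztriv G) (AddMonoidHom.id ℤ) (fun _ _ => rfl) c g h
    simp only [rowSum, AddMonoidHom.id_apply] at h2
    rw [← hβ g, ← hβ h, ← hβ (g * h)] at h2
    have hN' : (Fintype.card G : ℤ) ≠ 0 := Nat.cast_ne_zero.2 Fintype.card_ne_zero
    have h3 : (Fintype.card G : ℤ) * (β h - β (g * h) + β g) =
        (Fintype.card G : ℤ) * c (g, h) := by linarith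
    have h4 := mul_left_cancel₀ hN' h3
    simpa using h4

theorem H2charZ_surjective : Function.Surjective (H2charZ G) := by
  intro χ
  have h0 : ∀ g : G, ∃ q : ℚ, (q : QZ) = χ (Additive.ofMul g) := fun g =>
    QuotientAddGroup.mk_surjective _
  choose b hb using h0
  have h1 : ∀ g h : G, ∃ n : ℤ, (n : ℚ) = b g + b h - b (g * h) := by
    intro g h
    rw [← QZ.coe_eq_zero_iff, AddCircle.coe_sub, AddCircle.coe_add, hb, hb, hb, ofMul_mul,
      map_add, sub_self]
  choose n hn using h1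
  have hcoc : (fun p : G × G => n p.1 p.2) ∈ cocycles₂ (Ztriv G) := by
    rw [mem_cocycles₂_iff]
    intro g h j
    have : ((n (g * h) j + n g h : ℤ) : ℚ) = ((n h j + n g (h * j) : ℤ) : ℚ) := by
      push_cast
      rw [hn, hn, hn, hn, mul_assoc]
      ring
    exact Int.cast_injective this
  refine ⟨H2π (Ztriv G) ⟨_, hcoc⟩, ?_⟩
  refine AddMonoidHom.ext fun g => ?_
  have hg : g = Additive.ofMul g.toMul := rfl
  rw [hg, H2charZ_H2π_apply, ← hb]
  congr 1
  have hN : (Fintype.card G : ℚ) ≠ 0 := card_ne_zero_rat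
  rw [div_eq_iff hN]
  push_cast
  have h2 : ∀ k : G, ((n g.toMul k : ℤ) : ℚ) = b g.toMul + b k - b (g.toMul * k) := fun k => hn _ _
  change ∑ k : G, ((n g.toMul k : ℤ) : ℚ) = _
  rw [Finset.sum_congr rfl fun k _ => h2 k, Finset.sum_sub_distrib, Finset.sum_add_distrib,
    Finset.sum_const, Finset.card_univ, nsmul_eq_mul]
  have h3 : ∑ k : G, b (g.toMul * k) = ∑ k : G, b k :=
    Fintype.sum_equiv (Equiv.mulLeft g.toMul) _ _ fun j => rfl
  rw [h3]
  ring

/-- **`H²(G, ℤ) ≃ Hom(G, ℚ/ℤ)`** for a finite group `G`. -/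
noncomputable def H2charZEquiv : H2 (Ztriv G) ≃+ (Additive G →+ QZ) :=
  AddEquiv.ofBijective (H2charZ G) ⟨H2charZ_injective G, H2charZ_surjective G⟩

end trivialZ

end Fermat.Agent.Lib.CFT.Local.LocalBrauer
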