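/-
P-CFT, WP Local/LocalBrauer (helper59), part 2: valued modules.

`G` a finite group, `A : Rep ℤ G` with a `G`-invariant "valuation" `v : A →+ ℤ`.
-/
import Fermat.Agent.Lib.CFT.Local.LocalBrauer.H2Char
import Fermat.Agent.Lib.CFT.Coh.InfRes
import Fermat.Agent.Lib.CFT.HerbrandRep

set_option autoImplicit false
set_option linter.unusedSectionVars false

namespace Fermat.Agent.Lib.CFT.Local.LocalBrauer

open groupCohomology CategoryTheory

attribute [local instance 1100] Rep.hV2

section QZlemmas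

theorem QZ.coe_eq_coe_iff (p q : ℚ) : ((p : QZ) = (q : QZ)) ↔ ∃ n : ℤ, (n : ℚ) = p - q := by
  rw [← sub_eq_zero, ← AddCircle.coe_sub, QZ.coe_eq_zero_iff]

theorem QZ.nsmul_eq_zero_iff (n : ℕ) (hn : 0 < n) (y : QZ) :
    n • y = 0 ↔ ∃ m : ℤ, y = (((m : ℚ) / (n : ℚ) : ℚ) : QZ) := by
  have hn' : (n : ℚ) ≠ 0 := Nat.cast_ne_zero.2 hn.ne'
  constructor
  · intro h
    obtain ⟨q, rfl⟩ := QuotientAddGroup.mk_surjective y
    change n • ((q : ℚ) : QZ) = 0 at h
    rw [← AddCircle.coe_nsmul, QZ.coe_eq_zero_iff] at h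
    obtain ⟨m, hm⟩ := h
    refine ⟨m, ?_⟩
    change ((q : ℚ) : QZ) = _
    congr 1
    rw [hm, nsmul_eq_mul, mul_div_cancel_left₀ _ hn']
  · rintro ⟨m, rfl⟩
    rw [← AddCircle.coe_nsmul, nsmul_eq_mul, mul_div_cancel₀ _ hn', QZ.coe_intCast]

theorem QZ.addOrderOf_one_div (n : ℕ) (hn : 0 < n) :
    addOrderOf ((((1 : ℚ) / (n : ℚ) : ℚ)) : QZ) = n := by
  have := AddCircle.addOrderOf_div_of_gcd_eq_one (p := (1 : ℚ)) (m := 1) hn (by simp)
  simpa using this

end QZlemmas

section valued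

variable {G : Type} [Group G] [Fintype G] (A : Rep.{0} ℤ G) (v : A.V →+ ℤ)
  (hv : ∀ g a, v (A.ρ g a) = v a)

theorem hV2_smul_eq (n : ℤ) (a : A.V) :
    @HSMul.hSMul ℤ A.V A.V (@instHSMul ℤ A.V A.hV2.toSMul) n a = n • a :=
  int_smul_eq_zsmul A.hV2 n a

/-- `v` as a `ℤ`-linear map for the module structure carried by `A`. -/
def valLin : @LinearMap ℤ ℤ _ _ (RingHom.id ℤ) A.V ℤ _ _ A.hV2 _ :=
  @LinearMap.mk ℤ ℤ _ _ (RingHom.id ℤ) A.V ℤ _ _ A.hV2 _ ⟨v, v.map_add⟩ (fun n a => by
    change v (@HSMul.hSMul ℤ A.V A.V (@instHSMul ℤ A.V A.hV2.toSMul) n a) = n • v a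
    rw [hV2_smul_eq, map_zsmul])

@[simp] theorem valLin_apply (a : A.V) : valLin A v a = v a := rfl

/-- `v` as a morphism to the trivial representation on `ℤ`. -/
noncomputable def valHom : A ⟶ Ztriv G :=
  ConcreteCategory.ofHom (C := Rep.{0} ℤ G) (X := A) (Y := Ztriv G)
    (⟨valLin A v, fun g => LinearMap.ext fun a => hv g a⟩ :
      A.ρ.IntertwiningMap (Ztriv G).ρ)

@[simp] theorem valHom_apply (a : A.V) : (valHom A v hv).hom a = v a := rfl

/-- the character of a class is the character of its image in `H²(G, ℤ)`. -/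
theorem H2char_eq_H2charZ (x : H2 A) :
    H2char v hv x = H2charZ G (groupCohomology.map (MonoidHom.id G) (valHom A v hv) 2 x) := by
  refine AddMonoidHom.ext fun g => ?_
  have := H2char_map (A := A) (B := Ztriv G) (MonoidHom.id G) (valHom A v hv) v hv
    (AddMonoidHom.id ℤ) (fun _ _ => rfl) 1 (fun a => by rw [one_mul]; rfl) x g.toMul
  rw [one_smul] at this
  exact this.symm

/-- the kernel of `v` ("units") as a submodule. -/
def unitsSubmodule : Submodule ℤ A.V := LinearMap.ker (valLin A v)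

theorem mem_unitsSubmodule (a : A.V) : a ∈ unitsSubmodule A v ↔ v a = 0 := Iff.rfl

include hv in
theorem unitsSubmodule_le_comap (g : G) :
    unitsSubmodule A v ≤ (unitsSubmodule A v).comap (A.ρ g) := by
  intro a ha
  rw [Submodule.mem_comap, mem_unitsSubmodule, hv]
  exact ha

/-- the units `ker v` as a subrepresentation. -/
noncomputable def unitsRep : Rep.{0} ℤ G :=
  A.subrepresentation (unitsSubmodule A v) (unitsSubmodule_le_comap A v hv)

/-- the inclusion of the units. -/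
noncomputable def unitsι : unitsRep A v hv ⟶ A :=
  Rep.subtype A (unitsSubmodule A v) (unitsSubmodule_le_comap A v hv)

theorem unitsι_apply (u : (unitsRep A v hv).V) :
    (unitsι A v hv).hom u = (u : unitsSubmodule A v).1 := rfl

theorem unitsι_injective : Function.Injective (unitsι A v hv).hom :=
  fun _ _ h => Subtype.ext h

theorem val_unitsι (u : (unitsRep A v hv).V) : v ((unitsι A v hv).hom u) = 0 :=
  (u : unitsSubmodule A v).2

/-- the short complex `U ⟶ A ⟶ ℤ`. -/
noncomputable def valShortComplex : ShortComplex (Rep.{0} ℤ G) :=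
  ShortComplex.mk (unitsι A v hv) (valHom A v hv) (by
    apply Rep.hom_ext
    apply Representation.IntertwiningMap.ext
    apply LinearMap.ext
    intro u
    exact val_unitsι A v hv u)

theorem valShortComplex_shortExact (hsurj : Function.Surjective v) :
    (valShortComplex A v hv).ShortExact := by
  refine Coh.InfRes.shortExact_of (X := valShortComplex A v hv) (unitsι_injective A v hv) hsurj ?_
  intro a ha
  exact ⟨(⟨a, ha⟩ : unitsSubmodule A v), rfl⟩

/-- if `H²(G, U) = 0` then a class in `H²(G, A)` is determined by its character. -/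
theorem H2char_injective (hsurj : Function.Surjective v)
    (hU : Limits.IsZero (groupCohomology (unitsRep A v hv) 2)) :
    Function.Injective (H2char v hv) := by
  rw [injective_iff_map_eq_zero]
  intro x hx
  rw [H2char_eq_H2charZ] at hx
  have h1 : groupCohomology.map (MonoidHom.id G) (valHom A v hv) 2 x = 0 :=
    (injective_iff_map_eq_zero (H2charZ G)).1 (H2charZ_injective G) _ hx
  have hex := groupCohomology.mapShortComplex₂_exact (valShortComplex_shortExact A v hv hsurj) 2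
  rw [ShortComplex.moduleCat_exact_iff] at hex
  obtain ⟨y, hy⟩ := hex x h1
  have hy0 : y = 0 := (ModuleCat.isZero_iff_subsingleton.1 hU).elim _ _
  rw [← hy, hy0]
  exact map_zero _

/-- the morphism `ℤ ⟶ A`, `n ↦ n • π`, attached to an invariant element `π`. -/
noncomputable def unifHom (π : A.V) (hπ : ∀ g, A.ρ g π = π) : Ztriv G ⟶ A :=
  ConcreteCategory.ofHom (C := Rep.{0} ℤ G) (X := Ztriv G) (Y := A)
    (⟨LinearMap.toSpanSingleton ℤ A.V π, fun g => LinearMap.ext fun n => by
      rw [LinearMap.comp_apply, LinearMap.comp_apply, LinearMap.toSpanSingleton_apply,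
        LinearMap.toSpanSingleton_apply, (A.ρ g).map_smul, hπ]
      rfl⟩ : (Ztriv G).ρ.IntertwiningMap A.ρ)

theorem unifHom_apply (π : A.V) (hπ : ∀ g, A.ρ g π = π) (n : ℤ) :
    (unifHom A π hπ).hom n = n • π := by
  rw [← hV2_smul_eq]
  rfl

theorem val_unifHom (π : A.V) (hπ : ∀ g, A.ρ g π = π) (n : ℤ) :
    v ((unifHom A π hπ).hom n) = n * v π := by
  rw [unifHom_apply, map_zsmul, smul_eq_mul]

/-- if there is an invariant element of valuation `1`, every character of `G` is the character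
of a class in `H²(G, A)`. -/
theorem H2char_surjective (π : A.V) (hπ : ∀ g, A.ρ g π = π) (hπ1 : v π = 1) :
    Function.Surjective (H2char v hv) := by
  intro χ
  obtain ⟨y, hy⟩ := H2charZ_surjective G χ
  refine ⟨groupCohomology.map (MonoidHom.id G) (unifHom A π hπ) 2 y, ?_⟩
  refine AddMonoidHom.ext fun g => ?_
  have := H2char_map (A := Ztriv G) (B := A) (MonoidHom.id G) (unifHom A π hπ)
    (AddMonoidHom.id ℤ) (fun _ _ => rfl) v hv 1
    (fun n => by rw [val_unifHom, hπ1, mul_one, one_mul]; rfl) y g.toMul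
  rw [one_smul] at this
  rw [← hy]
  exact this

end valued

section cyclicVanishing

open Rep.FiniteCyclicGroup in
/-- for a finite cyclic group, `H²(G, A) = 0` as soon as every invariant is a norm. -/
theorem isZero_H2_of_forall_exists_norm {G : Type} [CommGroup G] [Fintype G] (A : Rep.{0} ℤ G)
    (g : G) (hg : ∀ x, x ∈ Subgroup.zpowers g)
    (h : ∀ a : A.V, A.ρ g a = a → ∃ b : A.V, ∑ x : G, A.ρ x b = a) :
    Limits.IsZero (groupCohomology A 2) := by
  have : NeZero 2 := ⟨by decide⟩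
  have hev : Even 2 := by decide
  rw [ModuleCat.isZero_iff_subsingleton]
  refine ⟨fun x y => ?_⟩
  suffices h0 : ∀ z : groupCohomology A 2, z = 0 by rw [h0 x, h0 y]
  intro z
  obtain ⟨a, rfl⟩ := Herbrand.groupCohomologyπEven_surjective A g hg 2 hev z
  rw [groupCohomologyπEven_eq_zero_iff]
  have ha : A.ρ g a.1 = a.1 := by
    have := (Herbrand.mem_ker_repSub_iff A g a.1).2 a.2
    rw [AddMonoidHom.mem_ker, Herbrand.repSub_apply, sub_eq_zero] at this
    exact this
  obtain ⟨b, hb⟩ := h a.1 ha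
  refine (Herbrand.mem_range_repNorm_iff A a.1).1 ⟨b, ?_⟩
  rw [Herbrand.repNorm_apply, hb]

end cyclicVanishing

section unramified

variable {G : Type} [Group G] [Fintype G] (A : Rep.{0} ℤ G) (v : A.V →+ ℤ)
  (hv : ∀ g a, v (A.ρ g a) = v a)

/-- the `F`-invariant of a class: the value of its character at `F`. -/
noncomputable def invAt (F : G) : H2 A →+ QZ :=
  (AddMonoidHom.eval (Additive.ofMul F)).comp (H2char v hv)

theorem invAt_apply (F : G) (x : H2 A) : invAt A v hv F x = H2char v hv x (Additive.ofMul F) := rfl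

theorem invAt_H2π (F : G) (c : cocycles₂ A) :
    invAt A v hv F (H2π A c) =
      (((∑ k, v (c (F, k)) : ℤ) : ℚ) / (Fintype.card G : ℚ) : ℚ) :=
  H2char_H2π_apply v hv c F

theorem card_nsmul_invAt (F : G) (x : H2 A) : Fintype.card G • invAt A v hv F x = 0 := by
  rw [invAt_apply, ← map_nsmul, ← ofMul_pow, pow_card_eq_one, ofMul_one, map_zero]

/-- units have trivial `H²` for a cyclic group if invariant units are norms of units. -/
theorem isZero_H2_unitsRep (F : G) (hF : ∀ x, x ∈ Subgroup.zpowers F)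
    (hU : ∀ u : A.V, v u = 0 → A.ρ F u = u → ∃ w : A.V, v w = 0 ∧ ∑ x : G, A.ρ x w = u) :
    Limits.IsZero (groupCohomology (unitsRep A v hv) 2) := by
  have : IsCyclic G := ⟨F, hF⟩
  let _ : CommGroup G := IsCyclic.commGroup
  refine isZero_H2_of_forall_exists_norm (unitsRep A v hv) F hF ?_
  intro u hu
  have hu' : A.ρ F (u : unitsSubmodule A v).1 = (u : unitsSubmodule A v).1 :=
    congrArg Subtype.val hu
  obtain ⟨w, hw0, hw⟩ := hU _ (u : unitsSubmodule A v).2 hu'
  have hw0' : w ∈ unitsSubmodule A v := hw0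
  let w' : (unitsRep A v hv).V := (⟨w, hw0'⟩ : unitsSubmodule A v)
  refine ⟨w', ?_⟩
  apply unitsι_injective A v hv
  rw [map_sum]
  have h1 : ∀ x : G, (unitsι A v hv).hom ((unitsRep A v hv).ρ x w') = A.ρ x w := fun x =>
    Rep.hom_comm_apply (unitsι A v hv) x w'
  rw [Finset.sum_congr rfl fun x _ => h1 x, hw]
  rfl

theorem zmultiples_ofMul_eq_top (F : G) (hF : ∀ x, x ∈ Subgroup.zpowers F) (x : Additive G) :
    x ∈ AddSubgroup.zmultiples (Additive.ofMul F) := by
  obtain ⟨k, hk⟩ := Subgroup.mem_zpowers_iff.1 (hF x.toMul)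
  exact AddSubgroup.mem_zmultiples_iff.2 ⟨k, by rw [← ofMul_zpow, hk]; rfl⟩

/-- **Unramified cyclic case, injectivity.** -/
theorem invAt_injective (F : G) (hF : ∀ x, x ∈ Subgroup.zpowers F) (hsurj : Function.Surjective v)
    (hU : ∀ u : A.V, v u = 0 → A.ρ F u = u → ∃ w : A.V, v w = 0 ∧ ∑ x : G, A.ρ x w = u) :
    Function.Injective (invAt A v hv F) := by
  rw [injective_iff_map_eq_zero]
  intro x hx
  apply H2char_injective A v hv hsurj (isZero_H2_unitsRep A v hv F hF hU)
  rw [map_zero]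
  rw [AddMonoidHom.eq_iff_eq_on_generator (zmultiples_ofMul_eq_top F hF)]
  exact hx

/-- **Unramified cyclic case, image.** -/
theorem exists_invAt_eq (F : G) (hF : ∀ x, x ∈ Subgroup.zpowers F)
    (π : A.V) (hπ : ∀ g, A.ρ g π = π) (hπ1 : v π = 1) (y : QZ) (hy : Fintype.card G • y = 0) :
    ∃ x : H2 A, invAt A v hv F x = y := by
  have hord : addOrderOf y ∣ addOrderOf (Additive.ofMul F) := by
    rw [addOrderOf_ofMul_eq_orderOf, orderOf_eq_card_of_forall_mem_zpowers hF, Nat.card_eq_fintype_card]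
    exact addOrderOf_dvd_of_nsmul_eq_zero hy
  let χ : Additive G →+ QZ :=
    addMonoidHomOfForallMemZMultiples (zmultiples_ofMul_eq_top F hF) hord
  obtain ⟨x, hx⟩ := H2char_surjective A v hv π hπ hπ1 χ
  refine ⟨x, ?_⟩
  rw [invAt_apply, hx]
  exact addMonoidHomOfForallMemZMultiples_apply_gen (zmultiples_ofMul_eq_top F hF) hord

/-- **Unramified cyclic case**: `H²(G, A)` is cyclic of order `|G|`, generated by the class of
invariant `1/|G|`. -/
theorem exists_fundamental_class (F : G) (hF : ∀ x, x ∈ Subgroup.zpowers F)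
    (π : A.V) (hπ : ∀ g, A.ρ g π = π) (hπ1 : v π = 1)
    (hU : ∀ u : A.V, v u = 0 → A.ρ F u = u → ∃ w : A.V, v w = 0 ∧ ∑ x : G, A.ρ x w = u) :
    ∃ u : H2 A, invAt A v hv F u = (((1 : ℚ) / (Fintype.card G : ℚ) : ℚ) : QZ) ∧
      (∀ x : H2 A, ∃ k : ℤ, x = k • u) ∧ addOrderOf u = Fintype.card G ∧
      Nat.card (H2 A) = Fintype.card G := by
  have hsurj : Function.Surjective v := fun n => ⟨n • π, by rw [map_zsmul, hπ1, smul_eq_mul, mul_one]⟩
  have hinj := invAt_injective A v hv F hF hsurj hU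
  have hn : 0 < Fintype.card G := Fintype.card_pos
  obtain ⟨u, hu⟩ := exists_invAt_eq A v hv F hF π hπ hπ1
    (((1 : ℚ) / (Fintype.card G : ℚ) : ℚ) : QZ)
    ((QZ.nsmul_eq_zero_iff _ hn _).2 ⟨1, by norm_num⟩)
  have hgen : ∀ x : H2 A, ∃ k : ℤ, x = k • u := by
    intro x
    obtain ⟨m, hm⟩ := (QZ.nsmul_eq_zero_iff _ hn _).1 (card_nsmul_invAt A v hv F x)
    refine ⟨m, hinj ?_⟩
    rw [hm, map_zsmul, hu, ← AddCircle.coe_zsmul]
    congr 1
    rw [zsmul_eq_mul, mul_one_div]
  have hord : addOrderOf u = Fintype.card G := by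
    rw [← addOrderOf_injective (invAt A v hv F) hinj u, hu]
    exact QZ.addOrderOf_one_div _ hn
  refine ⟨u, hu, hgen, hord, ?_⟩
  have htop : AddSubgroup.zmultiples u = ⊤ := by
    rw [eq_top_iff]
    intro x _
    obtain ⟨k, hk⟩ := hgen x
    exact AddSubgroup.mem_zmultiples_iff.2 ⟨k, hk.symm⟩
  rw [← hord, ← Nat.card_zmultiples, htop]
  exact (Nat.card_congr (AddSubgroup.topEquiv (G := H2 A)).toEquiv).symm

end unramified

section invAtNaturality

variable {G H : Type} [Group G] [Fintype G] [Group H] [Fintype H]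
  {A : Rep.{0} ℤ H} {B : Rep.{0} ℤ G} (f : G →* H) (φ : Rep.res f A ⟶ B)

/-- **Naturality of the invariant**: if `φ` multiplies valuations by `e` then
`inv_{F'} (map f φ x) = e • inv_{f F'} x`. -/
theorem invAt_map (vA : A.V →+ ℤ) (hvA : ∀ g a, vA (A.ρ g a) = vA a)
    (vB : B.V →+ ℤ) (hvB : ∀ g b, vB (B.ρ g b) = vB b) (e : ℤ)
    (he : ∀ a : A.V, vB (φ.hom a) = e * vA a) (x : H2 A) (F' : G) :
    invAt B vB hvB F' (groupCohomology.map f φ 2 x) = e • invAt A vA hvA (f F') x :=
  H2char_map f φ vA hvA vB hvB e he x F'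

/-- variant: if moreover `f F' = F ^ m` then `inv_{F'} (map f φ x) = (e * m) • inv_F x`. -/
theorem invAt_map_pow (vA : A.V →+ ℤ) (hvA : ∀ g a, vA (A.ρ g a) = vA a)
    (vB : B.V →+ ℤ) (hvB : ∀ g b, vB (B.ρ g b) = vB b) (e : ℤ)
    (he : ∀ a : A.V, vB (φ.hom a) = e * vA a) (x : H2 A) (F' : G) (F : H) (m : ℕ)
    (hF : f F' = F ^ m) :
    invAt B vB hvB F' (groupCohomology.map f φ 2 x) = (e * m) • invAt A vA hvA F x := by
  rw [invAt_map f φ vA hvA vB hvB e he, hF, invAt_apply, invAt_apply, ofMul_pow, map_nsmul,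
    mul_smul, natCast_zsmul]

end invAtNaturality

end Fermat.Agent.Lib.CFT.Local.LocalBrauer
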