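/-
P-CFT, WP Local/LocalBrauer (helper59), part 3: the invariant map of an unramified extension of
local fields (concrete `AKLB` form, on top of helper42's `Local/UnramifiedCore`, helper84's
`Local/UnramNorm` and helper44's `Local/UnitsFiltration`).
-/
import Fermat.Agent.Lib.CFT.Local.LocalBrauer.Valued
import Fermat.Agent.Lib.CFT.Local.UnramNorm
import Fermat.Agent.Lib.CFT.Local.UnitsFiltration

set_option autoImplicit false
set_option linter.unusedSectionVars false

namespace Fermat.Agent.Lib.CFT.Local.LocalBrauer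

open IsLocalRing groupCohomology
open Fermat.Agent.Lib.CFT.Local.UnitsFiltration Fermat.Agent.Lib.CFT.Local.Unramified

section ordAdd

variable (B L : Type) [CommRing B] [IsDomain B] [IsDiscreteValuationRing B]
  [Field L] [Algebra B L] [IsFractionRing B L]

/-- the normalized valuation as an additive map on `Additive Lˣ`. -/
noncomputable def ordAdd : Additive Lˣ →+ ℤ :=
  AddMonoidHom.mk' (fun x => ord B L x.toMul) (fun _ _ => ord_mul _ _)

@[simp] theorem ordAdd_apply (x : Additive Lˣ) : ordAdd B L x = ord B L x.toMul := rfl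

theorem ordAdd_ofMul (x : Lˣ) : ordAdd B L (Additive.ofMul x) = ord B L x := rfl

end ordAdd

section AKLB

variable (A K L B : Type) [CommRing A] [IsDomain A] [IsDiscreteValuationRing A]
  [Field K] [Algebra A K] [IsFractionRing A K]
  [Field L] [Algebra K L] [FiniteDimensional K L] [IsGalois K L]
  [Algebra A L] [IsScalarTower A K L]
  [CommRing B] [IsDomain B] [IsDiscreteValuationRing B] [Algebra A B] [Algebra B L]
  [IsScalarTower A B L] [IsIntegralClosure B A L] [IsFractionRing B L]

include A in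
/-- Galois invariance of the valuation. -/
theorem ord_smul (σ : L ≃ₐ[K] L) (x : Lˣ) : ord B L (σ • x) = ord B L x := by
  have := ord_map (B := B) (L := L) (B' := B) (L' := L)
    ((galRestrict A K L B σ : B ≃ₐ[A] B) : B ≃+* B) ((σ : L ≃ₐ[K] L) : L ≃+* L)
    (fun b => (algebraMap_galRestrict_apply A σ b).symm) x
  rw [← this]
  rfl

/-- the valuation on the `Gal(L/K)`-module `Lˣ`. -/
noncomputable def unitsVal : (Rep.ofAlgebraAutOnUnits K L).V →+ ℤ := ordAdd B L

theorem unitsVal_apply (x : Additive Lˣ) : unitsVal K L B x = ord B L x.toMul := rfl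

include A in
theorem unitsVal_invariant (σ : L ≃ₐ[K] L) (x : (Rep.ofAlgebraAutOnUnits K L).V) :
    unitsVal K L B ((Rep.ofAlgebraAutOnUnits K L).ρ σ x) = unitsVal K L B x :=
  ord_smul A K L B σ (Additive.toMul (α := Lˣ) x)

end AKLB

section Unram

variable (A K L B : Type) [CommRing A] [IsDomain A] [IsDiscreteValuationRing A]
  [IsAdicComplete (maximalIdeal A) A] [Finite (ResidueField A)]
  [Field K] [Algebra A K] [IsFractionRing A K]
  [Field L] [Algebra K L] [FiniteDimensional K L] [IsGalois K L]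
  [Algebra A L] [IsScalarTower A K L]
  [CommRing B] [IsDomain B] [IsDiscreteValuationRing B] [Algebra A B] [Algebra B L]
  [IsScalarTower A B L] [IsIntegralClosure B A L] [IsFractionRing B L]
  [HenselianLocalRing B] [IsLocalHom (algebraMap A B)]

include A in
/-- a uniformizer of `K` is a Galois invariant element of `Lˣ` of valuation `1`. -/
theorem exists_unif (h : IsUnram A B) :
    ∃ π : Lˣ, (∀ σ : L ≃ₐ[K] L, σ • π = π) ∧ ord B L π = 1 := by
  obtain ⟨ϖ, hϖ⟩ := IsDiscreteValuationRing.exists_irreducible A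
  have hb : Irreducible (algebraMap A B ϖ) := by
    rw [IsDiscreteValuationRing.irreducible_iff_uniformizer, ← h, hϖ.maximalIdeal_eq,
      Ideal.map_span, Set.image_singleton]
  have hne : algebraMap B L (algebraMap A B ϖ) ≠ 0 := by
    intro h0
    exact hb.ne_zero ((IsFractionRing.injective B L) (h0.trans (map_zero _).symm))
  refine ⟨Units.mk0 _ hne, fun σ => ?_, ord_of_irreducible _ hb rfl⟩
  apply Units.ext
  change σ (algebraMap B L (algebraMap A B ϖ)) = algebraMap B L (algebraMap A B ϖ)
  rw [← IsScalarTower.algebraMap_apply A B L, IsScalarTower.algebraMap_apply A K L, σ.commutes]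

include A in
/-- in an unramified extension, a unit fixed by the Frobenius is the norm of a unit. -/
theorem exists_unit_norm_eq (h : IsUnram A B) (u : Lˣ) (hu0 : ord B L u = 0)
    (hu : frob A K L B h • u = u) :
    ∃ w : Lˣ, ord B L w = 0 ∧ ∏ σ : L ≃ₐ[K] L, σ • w = u := by
  have hpow : ∀ i : ℕ, (frob A K L B h ^ i) • u = u := by
    intro i
    induction i with
    | zero => simp
    | succ i ih => rw [pow_succ, mul_smul, hu, ih]
  have hall : ∀ σ : L ≃ₐ[K] L, σ • u = u := by
    intro σ
    obtain ⟨i, -, rfl⟩ := exists_frob_pow_eq A K L B h σ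
    exact hpow i
  have hK : (u : L) ∈ Set.range (algebraMap K L) := by
    rw [IsGalois.mem_range_algebraMap_iff_fixed]
    intro σ
    exact congrArg Units.val (hall σ)
  obtain ⟨x, hx⟩ := hK
  obtain ⟨b, hb⟩ := (ord_eq_zero_iff u).1 hu0
  have hinjKL : Function.Injective (algebraMap K L) := (algebraMap K L).injective
  have hint : ∀ (y : K) (c : B), algebraMap K L y = algebraMap B L c →
      ∃ a : A, algebraMap A K a = y := by
    intro y c hyc
    have h1 : IsIntegral A (algebraMap K L y) := by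
      rw [hyc]
      exact (IsIntegralClosure.isIntegral_iff (A := B)).2 ⟨c, rfl⟩
    have h2 : IsIntegral A y := (isIntegral_algebraMap_iff hinjKL).1 h1
    exact IsIntegrallyClosed.isIntegral_iff.1 h2
  obtain ⟨a, ha⟩ := hint x (b : B) (by rw [hx]; exact hb.symm)
  have hxne : x ≠ 0 := by
    rintro rfl
    rw [map_zero] at hx
    exact u.ne_zero hx.symm
  have hbinv : algebraMap B L ((b⁻¹ : Bˣ) : B) = (u : L)⁻¹ := by
    apply eq_inv_of_mul_eq_one_left
    rw [← hb, ← map_mul, Units.inv_mul, map_one]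
  obtain ⟨a', ha'⟩ := hint x⁻¹ ((b⁻¹ : Bˣ) : B) (by rw [map_inv₀, hx, hbinv])
  have haa' : a * a' = 1 := by
    apply IsFractionRing.injective A K
    rw [map_mul, ha, ha', mul_inv_cancel₀ hxne, map_one]
  let au : Aˣ := ⟨a, a', haa', by rw [mul_comm]; exact haa'⟩
  obtain ⟨v, hv⟩ := LocalUnits.exists_norm_eq_of_isUnram A K L B h au
  refine ⟨unitsIncl B L v, ord_unitsIncl v, ?_⟩
  apply Units.ext
  rw [Units.coe_prod]
  have h3 : ∀ σ : L ≃ₐ[K] L, ((σ • unitsIncl B L v : Lˣ) : L) = σ (algebraMap B L (v : B)) :=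
    fun σ => rfl
  rw [Finset.prod_congr rfl fun σ _ => h3 σ, ← Algebra.norm_eq_prod_automorphisms, hv]
  change algebraMap K L (algebraMap A K a) = u
  rw [ha, hx]

/-- **The invariant map of an unramified extension of local fields**:
`inv [c] = (∑_σ ord (c (Frob, σ))) / [L:K] mod ℤ`. -/
noncomputable def invUnr (h : IsUnram A B) : H2 (Rep.ofAlgebraAutOnUnits K L) →+ QZ :=
  invAt (Rep.ofAlgebraAutOnUnits K L) (unitsVal K L B) (unitsVal_invariant A K L B)
    (frob A K L B h)

theorem invUnr_H2π (h : IsUnram A B) (c : cocycles₂ (Rep.ofAlgebraAutOnUnits K L)) :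
    invUnr A K L B h (H2π _ c) =
      (((∑ σ : L ≃ₐ[K] L, ord B L (Additive.toMul (α := Lˣ) (c (frob A K L B h, σ))) : ℤ) : ℚ) /
        (Module.finrank K L : ℚ) : ℚ) := by
  rw [invUnr, invAt_H2π, ← Nat.card_eq_fintype_card, IsGalois.card_aut_eq_finrank]
  rfl

theorem frob_generates (h : IsUnram A B) (σ : L ≃ₐ[K] L) :
    σ ∈ Subgroup.zpowers (frob A K L B h) := by
  obtain ⟨i, -, hi⟩ := exists_frob_pow_eq A K L B h σ
  exact ⟨i, by simpa using hi⟩

theorem sum_ρ_eq (w : Additive Lˣ) :
    ∑ σ : L ≃ₐ[K] L, (Rep.ofAlgebraAutOnUnits K L).ρ σ w =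
      Additive.ofMul (∏ σ : L ≃ₐ[K] L, σ • Additive.toMul (α := Lˣ) w) := by
  rw [ofMul_prod]
  rfl

theorem unitsCondition (h : IsUnram A B) (u : (Rep.ofAlgebraAutOnUnits K L).V)
    (hu0 : unitsVal K L B u = 0) (hu : (Rep.ofAlgebraAutOnUnits K L).ρ (frob A K L B h) u = u) :
    ∃ w : (Rep.ofAlgebraAutOnUnits K L).V, unitsVal K L B w = 0 ∧
      ∑ σ : L ≃ₐ[K] L, (Rep.ofAlgebraAutOnUnits K L).ρ σ w = u := by
  obtain ⟨w, hw0, hw⟩ := exists_unit_norm_eq A K L B h (Additive.toMul (α := Lˣ) u) hu0
    (congrArg (Additive.toMul (α := Lˣ)) hu)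
  exact ⟨Additive.ofMul w, hw0,
    (sum_ρ_eq K L (Additive.ofMul w)).trans (congrArg Additive.ofMul hw)⟩

theorem invUnr_injective (h : IsUnram A B) : Function.Injective (invUnr A K L B h) := by
  obtain ⟨π, hπ, hπ1⟩ := exists_unif A K L B h
  have hsurj : Function.Surjective (unitsVal K L B) := fun n =>
    ⟨(Additive.ofMul (π ^ n) : Additive Lˣ), by
      change ord B L (π ^ n) = n
      rw [ord_zpow, hπ1, mul_one]⟩
  exact invAt_injective _ _ _ _ (frob_generates A K L B h) hsurj (unitsCondition A K L B h)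

/-- **Unramified case**: `H²(Gal(L/K), Lˣ)` is cyclic of order `[L:K]`, generated by the
fundamental class of invariant `1/[L:K]`. -/
theorem exists_fundamental_class_unr (h : IsUnram A B) :
    ∃ u : H2 (Rep.ofAlgebraAutOnUnits K L),
      invUnr A K L B h u = (((1 : ℚ) / (Module.finrank K L : ℚ) : ℚ) : QZ) ∧
      (∀ x : H2 (Rep.ofAlgebraAutOnUnits K L), ∃ k : ℤ, x = k • u) ∧
      addOrderOf u = Module.finrank K L ∧
      Nat.card (H2 (Rep.ofAlgebraAutOnUnits K L)) = Module.finrank K L := by
  obtain ⟨π, hπ, hπ1⟩ := exists_unif A K L B h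
  have key := exists_fundamental_class (Rep.ofAlgebraAutOnUnits K L) (unitsVal K L B)
    (unitsVal_invariant A K L B) (frob A K L B h) (frob_generates A K L B h)
    (Additive.ofMul π : Additive Lˣ) (fun g => congrArg Additive.ofMul (hπ g)) hπ1
    (unitsCondition A K L B h)
  rw [← Nat.card_eq_fintype_card, IsGalois.card_aut_eq_finrank] at key
  exact key

theorem finrank_nsmul_invUnr (h : IsUnram A B) (x : H2 (Rep.ofAlgebraAutOnUnits K L)) :
    Module.finrank K L • invUnr A K L B h x = 0 := by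
  have := card_nsmul_invAt (Rep.ofAlgebraAutOnUnits K L) (unitsVal K L B)
    (unitsVal_invariant A K L B) (frob A K L B h) x
  rw [← Nat.card_eq_fintype_card, IsGalois.card_aut_eq_finrank] at this
  exact this

theorem exists_invUnr_eq (h : IsUnram A B) (y : QZ) (hy : Module.finrank K L • y = 0) :
    ∃ x : H2 (Rep.ofAlgebraAutOnUnits K L), invUnr A K L B h x = y := by
  obtain ⟨π, hπ, hπ1⟩ := exists_unif A K L B h
  refine exists_invAt_eq (Rep.ofAlgebraAutOnUnits K L) (unitsVal K L B)
    (unitsVal_invariant A K L B) (frob A K L B h) (frob_generates A K L B h)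
    (Additive.ofMul π : Additive Lˣ) (fun g => congrArg Additive.ofMul (hπ g)) hπ1 y ?_
  rw [← Nat.card_eq_fintype_card, IsGalois.card_aut_eq_finrank]
  exact hy

end Unram

end Fermat.Agent.Lib.CFT.Local.LocalBrauer
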