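/-
P-CFT, WP Local/LocalBrauer part 3 (helper43): the inflation datum of a tower of Galois extensions.

For a tower of fields `K ⊆ E ⊆ M` with `M/K` finite Galois and `E/K` normal, the restriction
`Gal(M/K) → Gal(E/K)` together with the inclusion `Eˣ → Mˣ` is an inflation datum in the sense of
helper50's `Global/ClassFormation/GenInfl.lean`; Hilbert 90 gives the vanishing of `H¹` of the
kernel, hence the generalized inflation `H²(Gal(E/K), Eˣ) → H²(Gal(M/K), Mˣ)` is injective with
image the kernel of the restriction to `Gal(M/E)`.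
-/
import Mathlib
import Fermat.Agent.Lib.CFT.Global.ClassFormation.CompareGen
import Fermat.Agent.Lib.CFT.Local.NormUnits.SolvableH2

set_option autoImplicit false
set_option linter.unusedSectionVars false

namespace Fermat.Agent.Lib.CFT.Local.LocalBrauer.Tower

open CategoryTheory Rep groupCohomology
open Fermat.Agent.Lib.CFT.Global.ClassFormation

variable (K E M : Type) [Field K] [Field E] [Field M] [Algebra K E] [Algebra K M] [Algebra E M]
  [IsScalarTower K E M] [Normal K E]

/-- The restriction homomorphism `Gal(M/K) → Gal(E/K)`. -/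
noncomputable def π : Gal(M/K) →* Gal(E/K) := AlgEquiv.restrictNormalHom E

theorem π_apply (σ : Gal(M/K)) (x : E) :
    algebraMap E M (π K E M σ x) = σ (algebraMap E M x) :=
  AlgEquiv.restrictNormal_commutes σ E x

/-- The inclusion `Eˣ → Mˣ`. -/
noncomputable def unitsMap : Eˣ →* Mˣ := Units.map (algebraMap E M : E →* M)

theorem coe_unitsMap (x : Eˣ) : ((unitsMap E M x : Mˣ) : M) = algebraMap E M (x : E) := rfl

theorem unitsMap_injective : Function.Injective (unitsMap E M) :=
  Units.map_injective (algebraMap E M).injective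

/-- The inclusion `Eˣ → Mˣ` as a `ℤ`-linear map on the additive versions. -/
noncomputable def unitsLin : Additive Eˣ →ₗ[ℤ] Additive Mˣ :=
  (MonoidHom.toAdditive (unitsMap E M)).toIntLinearMap

theorem unitsLin_apply (x : Additive Eˣ) :
    unitsLin E M x = Additive.ofMul (unitsMap E M x.toMul) := rfl

/-- The inclusion `Eˣ → Mˣ` as a morphism of `Gal(M/K)`-representations. -/
noncomputable def ι : res (π K E M) (Rep.ofAlgebraAutOnUnits K E) ⟶ Rep.ofAlgebraAutOnUnits K M :=
  ConcreteCategory.ofHom (C := Rep ℤ Gal(M/K))
    (X := res (π K E M) (Rep.ofAlgebraAutOnUnits K E)) (Y := Rep.ofAlgebraAutOnUnits K M)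
    (⟨unitsLin E M, fun σ => LinearMap.ext fun (x : Additive Eˣ) => by
      refine congrArg Additive.ofMul (Units.ext ?_)
      exact π_apply K E M σ ((x.toMul : Eˣ) : E)⟩ :
      (res (π K E M) (Rep.ofAlgebraAutOnUnits K E)).ρ.IntertwiningMap
        (Rep.ofAlgebraAutOnUnits K M).ρ)

theorem ι_apply (x : Additive Eˣ) :
    (ι K E M).hom x = Additive.ofMul (unitsMap E M x.toMul) := rfl

theorem mem_ker_π_iff (σ : Gal(M/K)) :
    σ ∈ (π K E M).ker ↔ ∀ x : E, σ (algebraMap E M x) = algebraMap E M x := by
  rw [MonoidHom.mem_ker]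
  constructor
  · intro h x
    rw [← π_apply, h]
    rfl
  · intro h
    ext x
    apply (algebraMap E M).injective
    rw [π_apply, h]
    rfl

section Galois

variable [FiniteDimensional K M] [IsGalois K M]

theorem π_surjective : Function.Surjective (π K E M) :=
  AlgEquiv.restrictNormalHom_surjective M

/-- `(π, ι)` is an inflation datum. -/
theorem isInflationDatum : IsInflationDatum (π K E M) (ι K E M) where
  surjective := π_surjective K E M
  injective := fun x y h => unitsMap_injective E M (congrArg Additive.toMul h)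
  exists_of_fixed := by
    intro (a : Additive Mˣ) ha
    have : IsGalois E M := IsGalois.tower_top_of_isGalois K E M
    have : FiniteDimensional E M := Module.Finite.of_restrictScalars_finite K E M
    have hfix : ∀ τ : Gal(M/E), τ ((a.toMul : Mˣ) : M) = ((a.toMul : Mˣ) : M) := by
      intro τ
      have hmem : τ.restrictScalars K ∈ (π K E M).ker := by
        rw [mem_ker_π_iff]
        intro x
        exact τ.commutes x
      have h1 := ha _ hmem
      have h2 : (τ.restrictScalars K) • a.toMul = a.toMul := congrArg Additive.toMul h1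
      exact congrArg Units.val h2
    obtain ⟨x, hx⟩ := (IsGalois.mem_range_algebraMap_iff_fixed (F := E) (E := M) _).2 hfix
    have hx0 : x ≠ 0 := by
      rintro rfl
      rw [map_zero] at hx
      exact (a.toMul : Mˣ).ne_zero hx.symm
    refine ⟨(Additive.ofMul (Units.mk0 x hx0) : Additive Eˣ), ?_⟩
    show Additive.ofMul (unitsMap E M (Units.mk0 x hx0)) = a
    have : unitsMap E M (Units.mk0 x hx0) = a.toMul := Units.ext hx
    rw [this]
    rfl

/-- Hilbert 90 for an arbitrary subgroup of `Gal(M/K)`. -/
theorem isZero_H1_res (H : Subgroup Gal(M/K)) :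
    Limits.IsZero (groupCohomology (res H.subtype (Rep.ofAlgebraAutOnUnits K M)) 1) := by
  refine Limits.IsZero.of_iso ?_ (NormUnits.resIso H 1)
  have : Subsingleton
      (groupCohomology (Rep.ofAlgebraAutOnUnits (IntermediateField.fixedField H) M) 1) :=
    (groupCohomology.H1ofAutOnUnitsUnique (IntermediateField.fixedField H) M).instSubsingleton
  exact ModuleCat.isZero_of_subsingleton _

/-- The generalized inflation `H²(Gal(E/K), Eˣ) → H²(Gal(M/K), Mˣ)`. -/
noncomputable abbrev inflH2 :
    H2 (Rep.ofAlgebraAutOnUnits K E) ⟶ H2 (Rep.ofAlgebraAutOnUnits K M) :=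
  map (π K E M) (ι K E M) 2

theorem inflH2_injective : Function.Injective (inflH2 K E M) :=
  (isInflationDatum K E M).map_injective (isZero_H1_res K M _)

end Galois

end Fermat.Agent.Lib.CFT.Local.LocalBrauer.Tower
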