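/-
P-CFT, WP Local/LocalBrauer part 3 (helper43): comparison of `H²(L/K)` with the unramified layer.

`K` a local field (residue cardinality `q`), `L/K` finite Galois of degree `n`,
`M ⊇ L` finite Galois over `K` with `M = L(μ_{q^n-1})`, `E = K(μ_{q^n-1}) ⊆ M` (unramified of degree
`n` over `K`).  Then the inflations of `H²(L/K)` and `H²(E/K)` to `M` have the same image; hence
`H²(Gal(L/K), Lˣ)` is cyclic of order `n`.
-/
import Mathlib
import Fermat.Agent.Lib.CFT.Local.LocalBrauer.TowerInfl
import Fermat.Agent.Lib.CFT.Local.LocalBrauer.CycloNorm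
import Fermat.Agent.Lib.CFT.Local.LocalBrauer.UnramInv
import Fermat.Agent.Lib.CFT.Local.NormUnits.GeneralH2
import Fermat.Agent.Lib.CFT.Coh.CyclicCarry

set_option autoImplicit false
set_option linter.unusedSectionVars false

namespace Fermat.Agent.Lib.CFT.Local.LocalBrauer.Compare

open CategoryTheory Rep groupCohomology IsLocalRing Module
open Fermat.Agent.Lib.CFT.Global.ClassFormation
open Fermat.Agent.Lib.CFT.Local Fermat.Agent.Lib.CFT.Local.Unramified

section NormProd

variable (K L M : Type) [Field K] [Field L] [Field M] [Algebra K L] [Algebra K M] [Algebra L M]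
  [IsScalarTower K L M] [Normal K L]

/-- `Gal(M/L)` is the kernel of the restriction `Gal(M/K) → Gal(L/K)`. -/
noncomputable def kerEquiv : Gal(M/L) ≃ (Tower.π K L M).ker where
  toFun τ := ⟨τ.restrictScalars K, (Tower.mem_ker_π_iff K L M _).2 fun x => τ.commutes x⟩
  invFun σ := AlgEquiv.ofRingEquiv (f := ((σ : Gal(M/K)) : M ≃+* M))
    (fun x => (Tower.mem_ker_π_iff K L M _).1 σ.2 x)
  left_inv τ := by
    ext x
    rfl
  right_inv σ := by
    apply Subtype.ext
    ext x
    rfl

theorem kerEquiv_apply (τ : Gal(M/L)) (t : M) : ((kerEquiv K L M τ : Gal(M/K))) t = τ t := rfl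

variable [FiniteDimensional K M] [IsGalois K M]

theorem prod_ker_eq_norm [Fintype (Tower.π K L M).ker] (t : M) :
    ∏ h : (Tower.π K L M).ker, (h : Gal(M/K)) t = algebraMap L M (Algebra.norm L t) := by
  have : IsGalois L M := IsGalois.tower_top_of_isGalois K L M
  have : FiniteDimensional L M := Module.Finite.of_restrictScalars_finite K L M
  rw [Algebra.norm_eq_prod_automorphisms]
  exact (Fintype.prod_equiv (kerEquiv K L M) _ _ (fun τ => (kerEquiv_apply K L M τ t).symm)).symm

/-- The norm of the restriction of `Mˣ` to `Gal(M/L) = ker(Gal(M/K) → Gal(L/K))` is the field norm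
`N_{M/L}`. -/
theorem coe_norm_res_ker [Fintype (Tower.π K L M).ker] (t : Mˣ) :
    ((Additive.toMul (α := Mˣ)
      ((res (Tower.π K L M).ker.subtype (Rep.ofAlgebraAutOnUnits K M)).ρ.norm
        (Additive.ofMul t : Additive Mˣ)) : Mˣ) : M) = algebraMap L M (Algebra.norm L (t : M)) := by
  rw [← prod_ker_eq_norm K L M (t : M)]
  have h0 : (res (Tower.π K L M).ker.subtype (Rep.ofAlgebraAutOnUnits K M)).ρ.norm
      (Additive.ofMul t : Additive Mˣ) =
      ∑ h : (Tower.π K L M).ker, (Additive.ofMul ((h : Gal(M/K)) • t) : Additive Mˣ) :=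
    LinearMap.sum_apply _ _ _
  rw [h0, ← ofMul_prod, toMul_ofMul, Units.coe_prod]
  rfl

end NormProd

section UnramLayer

variable (A K E : Type) [CommRing A] [IsDomain A] [IsDiscreteValuationRing A]
  [IsAdicComplete (maximalIdeal A) A] [Finite (ResidueField A)]
  [Field K] [Algebra A K] [IsFractionRing A K]
  [Field E] [Algebra K E] [Algebra A E] [IsScalarTower A K E]

include A in
/-- The layer `E = K(μ_{q^m-1})` is Galois of degree `m` with cyclic group, and `H²(Gal(E/K), Eˣ)`
is cyclic of order `m`. -/
theorem unramLayer (m : ℕ) (hm : m ≠ 0)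
    [IsCyclotomicExtension {Nat.card (ResidueField A) ^ m - 1} K E] :
    FiniteDimensional K E ∧ IsGalois K E ∧ finrank K E = m ∧ IsCyclic Gal(E/K) ∧
      Nat.card (H2 (Rep.ofAlgebraAutOnUnits K E)) = m ∧
      IsAddCyclic (H2 (Rep.ofAlgebraAutOnUnits K E)) := by
  have hfd : FiniteDimensional K E :=
    IsCyclotomicExtension.finiteDimensional {Nat.card (ResidueField A) ^ m - 1} K E
  have hgal : IsGalois K E :=
    IsCyclotomicExtension.isGalois {Nat.card (ResidueField A) ^ m - 1} K E
  have hdvr : IsDiscreteValuationRing (integralClosure A E) :=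
    ext_isDiscreteValuationRing A K E (integralClosure A E)
  have hcomp : IsAdicComplete (maximalIdeal (integralClosure A E)) (integralClosure A E) :=
    ext_isAdicComplete A K E (integralClosure A E)
  have hlh := ext_isLocalHom A K E (integralClosure A E)
  have hfr : IsFractionRing (integralClosure A E) E :=
    ext_isFractionRing A K E (integralClosure A E)
  have hens : HenselianLocalRing (integralClosure A E) :=
    LocalUnits.henselianLocalRing_of_isAdicComplete _
  obtain ⟨hun, hdeg⟩ := finrank_of_cyclotomic_of_complete A K E (integralClosure A E) m hm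
  obtain ⟨u, -, hgen, -, hcard⟩ := exists_fundamental_class_unr A K E (integralClosure A E) hun
  refine ⟨hfd, hgal, hdeg, isCyclic_of_isUnram A K E (integralClosure A E) hun, ?_, ?_⟩
  · rw [hcard, hdeg]
  · refine ⟨u, fun x => ?_⟩
    obtain ⟨k, hk⟩ := hgen x
    exact ⟨k, hk.symm⟩

end UnramLayer

section Main

variable (A K L E M : Type) [CommRing A] [IsDomain A] [IsDiscreteValuationRing A]
  [IsAdicComplete (maximalIdeal A) A] [Finite (ResidueField A)]
  [Field K] [Algebra A K] [IsFractionRing A K]
  [Field L] [Algebra K L] [FiniteDimensional K L] [IsGalois K L]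
  [Algebra A L] [IsScalarTower A K L]
  [Field E] [Algebra K E] [FiniteDimensional K E] [IsGalois K E]
  [Field M] [Algebra K M] [Algebra L M] [Algebra E M] [IsScalarTower K L M] [IsScalarTower K E M]
  [FiniteDimensional K M] [IsGalois K M]

open Fermat.Agent.Lib.CFT.Coh.CyclicCarry in
include A in
/-- Every class of `H²(E/K)` (`E/K` cyclic) is of the form `[carry • b]` with `b ∈ Kˣ` a norm from
`M = L(μ_{q^n-1})` to `L`. -/
theorem torsionIsNormClassGen [Fintype (Tower.π K L M).ker]
    [IsCyclotomicExtension {Nat.card (ResidueField A) ^ finrank K L - 1} L M]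
    (s : Gal(E/K)) (hs : ∀ x, x ∈ Subgroup.zpowers s) (n : ℕ) :
    TorsionIsNormClassGen (Tower.π K L M) (Tower.ι K E M)
      (carry_isScalarCocycle (k := ℤ) s hs) n := by
  intro x _
  obtain ⟨a, ha⟩ := exists_scalarClass_eq s hs (Rep.ofAlgebraAutOnUnits K E) x
  have hfix : ∀ σ : Gal(E/K), σ (((Additive.toMul (α := Eˣ) a.1 : Eˣ) : E)) =
      ((Additive.toMul (α := Eˣ) a.1 : Eˣ) : E) := by
    intro σ
    have h1 := a.2 σ
    have h2 : σ • (Additive.toMul (α := Eˣ) a.1) = Additive.toMul (α := Eˣ) a.1 :=
      congrArg (Additive.toMul (α := Eˣ)) h1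
    exact congrArg Units.val h2
  obtain ⟨b, hb⟩ := (IsGalois.mem_range_algebraMap_iff_fixed (F := K) (E := E) _).2 hfix
  have hb0 : b ≠ 0 := by
    rintro rfl
    rw [map_zero] at hb
    exact (Additive.toMul (α := Eˣ) a.1).ne_zero hb.symm
  obtain ⟨t, ht⟩ := CycloNorm.exists_norm_eq A K L M (finrank K L) rfl (Units.mk0 b hb0)
  refine ⟨a, (Additive.ofMul t : Additive Mˣ), ?_, ha.symm⟩
  apply Additive.toMul.injective
  apply Units.ext
  refine (coe_norm_res_ker K L M t).trans ?_
  rw [ht, Units.val_mk0, ← IsScalarTower.algebraMap_apply,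
    IsScalarTower.algebraMap_apply K E M, hb]
  rfl

include A in
/-- **Comparison theorem.**  `L/K` finite Galois of degree `n`, `M = L(μ_{q^n-1})` Galois over `K`,
`E = K(μ_{q^n-1}) ⊆ M`.  Then `H²(Gal(L/K), Lˣ)` is cyclic of order `n` and its inflation to `M`
is contained in (in fact equal to) the inflation of `H²(Gal(E/K), Eˣ)`. -/
theorem compare [Algebra A E] [IsScalarTower A K E]
    [IsCyclotomicExtension {Nat.card (ResidueField A) ^ finrank K L - 1} L M]
    [IsCyclotomicExtension {Nat.card (ResidueField A) ^ finrank K L - 1} K E] :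
    Nat.card (H2 (Rep.ofAlgebraAutOnUnits K L)) = finrank K L ∧
    IsAddCyclic (H2 (Rep.ofAlgebraAutOnUnits K L)) ∧
    ∀ x : H2 (Rep.ofAlgebraAutOnUnits K L), ∃ y : H2 (Rep.ofAlgebraAutOnUnits K E),
      Tower.inflH2 K E M y = Tower.inflH2 K L M x := by
  have hn0 : finrank K L ≠ 0 := (finrank_pos (R := K) (M := L)).ne'
  obtain ⟨-, -, -, hcycG, hcard, hcyc⟩ := unramLayer A K E (finrank K L) hn0
  obtain ⟨s, hs⟩ := hcycG.exists_generator
  have : Fintype (Tower.π K L M).ker := Fintype.ofFinite _
  have hT := torsionIsNormClassGen A K L E M s hs (finrank K L)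
  obtain ⟨hfinL, hdvd⟩ := NormUnits.IsLocalFld.card_H2_units_dvd (K := K) (L := L)
    (NormUnits.isLocalFld_of_isFractionRing A K)
  have hfinL' : Finite (H2 (Rep.ofAlgebraAutOnUnits K L)) := hfinL
  have hle : Nat.card (H2 (Rep.ofAlgebraAutOnUnits K L)) ≤ finrank K L :=
    Nat.le_of_dvd finrank_pos hdvd
  have hfinE : Finite (H2 (Rep.ofAlgebraAutOnUnits K E)) :=
    Nat.finite_of_card_ne_zero (by rw [hcard]; exact hn0)
  have h := Tower.isInflationDatum K E M
  have h' := Tower.isInflationDatum K L M
  have h1 := Tower.isZero_H1_res K M (Tower.π K E M).ker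
  have h1' := Tower.isZero_H1_res K M (Tower.π K L M).ker
  refine ⟨card_H2_of_inflationData h h' h1 h1' (dvd_refl _) hT hcyc hcard hle,
    isAddCyclic_H2_of_inflationData h h' h1 h1' (dvd_refl _) hT hcyc hcard hle, fun x => ?_⟩
  obtain ⟨y, rfl⟩ := (compareEquivGen h h' h1 h1' (dvd_refl _) hT hcyc hcard hle).surjective x
  exact ⟨y.1, (map_compareEquivGen h h' h1 h1' (dvd_refl _) hT hcyc hcard hle y).symm⟩

end Main

section GaloisTower

open Polynomial

theorem exists_ne_zero_isSplittingField (K L : Type) [Field K] [Field L] [Algebra K L]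
    [FiniteDimensional K L] [Normal K L] : ∃ g : K[X], g ≠ 0 ∧ IsSplittingField K L g := by
  obtain ⟨g, hg⟩ := Normal.exists_isSplittingField K L
  by_cases h0 : g = 0
  · subst h0
    refine ⟨1, one_ne_zero, ⟨by simp, ?_⟩⟩
    have := hg.adjoin_rootSet'
    simpa [rootSet] using this
  · exact ⟨g, h0, hg⟩

/-- A cyclotomic extension of a finite Galois extension of `K` is Galois over `K`. -/
theorem isGalois_of_cyclotomic_tower (K L M : Type) [Field K] [Field L] [Field M] [Algebra K L]
    [Algebra K M] [Algebra L M] [IsScalarTower K L M] [FiniteDimensional K L] [IsGalois K L]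
    (N : ℕ) [NeZero N] [IsCyclotomicExtension {N} L M] : IsGalois K M := by
  have hgalM : IsGalois L M := IsCyclotomicExtension.isGalois {N} L M
  have hsep : Algebra.IsSeparable K M := Algebra.IsSeparable.trans K L M
  obtain ⟨g, hg0, hg⟩ := exists_ne_zero_isSplittingField K L
  have hX : (X ^ N - 1 : K[X]) ≠ 0 := X_pow_sub_C_ne_zero (NeZero.pos N) (1 : K)
  have hsplit : IsSplittingField L M ((X ^ N - 1 : K[X]).map (algebraMap K L)) := by
    have := IsCyclotomicExtension.isSplittingField_X_pow_sub_one N L M
    simpa using this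
  have : IsSplittingField K M (g * (X ^ N - 1)) := IsSplittingField.mul (K := L) M g _ hg0 hX
  have hnorm : Normal K M := Normal.of_isSplittingField (g * (X ^ N - 1))
  exact ⟨⟩

end GaloisTower

section Canonical

variable (A K L : Type) [CommRing A] [IsDomain A] [IsDiscreteValuationRing A]
  [IsAdicComplete (maximalIdeal A) A] [Finite (ResidueField A)]
  [Field K] [Algebra A K] [IsFractionRing A K]
  [Field L] [Algebra K L] [FiniteDimensional K L] [IsGalois K L]

/-- The order `q^n - 1` of the roots of unity generating the unramified extension of degree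
`n = [L : K]` (`q` the cardinality of the residue field). -/
noncomputable abbrev cycOrder : ℕ := Nat.card (ResidueField A) ^ finrank K L - 1

theorem cycOrder_def : cycOrder A K L = Nat.card (ResidueField A) ^ finrank K L - 1 := rfl

theorem cycOrder_ne_zero : cycOrder A K L ≠ 0 := by
  have hq : 1 < Nat.card (ResidueField A) := Finite.one_lt_card
  have hn : 0 < finrank K L := finrank_pos
  have : Nat.card (ResidueField A) ^ 1 ≤ Nat.card (ResidueField A) ^ finrank K L :=
    Nat.pow_le_pow_right (by omega) hn
  rw [cycOrder_def]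
  rw [pow_one] at this
  omega

theorem neZero_cycOrder : NeZero (cycOrder A K L) := ⟨cycOrder_ne_zero A K L⟩

theorem natCast_cycOrder_ne_zero : ((cycOrder A K L : ℕ) : L) ≠ 0 := by
  have hres : ((cycOrder A K L : ℕ) : ResidueField A) ≠ 0 :=
    Teichmuller.natCast_natCard_pow_sub_one_ne_zero (ResidueField A) (finrank K L)
      (finrank_pos (R := K) (M := L)).ne'
  have hK := natCast_ne_zero_of_residue_ne_zero A K hres
  intro h0
  apply hK
  apply (algebraMap K L).injective
  rw [map_natCast, map_zero]
  exact h0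

theorem neZero_cycOrder_cast : NeZero ((cycOrder A K L : ℕ) : L) :=
  ⟨natCast_cycOrder_ne_zero A K L⟩

/-- The canonical field `M = L(μ_{q^n-1})`. -/
abbrev CanM : Type := CyclotomicField (cycOrder A K L) L

instance canM_isCyclotomicExtension :
    IsCyclotomicExtension {cycOrder A K L} L (CanM A K L) :=
  have := neZero_cycOrder_cast A K L
  have := neZero_cycOrder A K L
  CyclotomicField.isCyclotomicExtension _ L

instance canM_finiteDimensional_top : FiniteDimensional L (CanM A K L) :=
  IsCyclotomicExtension.finiteDimensional {cycOrder A K L} L _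

instance canM_finiteDimensional : FiniteDimensional K (CanM A K L) :=
  Module.Finite.trans L _

instance canM_isGalois : IsGalois K (CanM A K L) :=
  have := neZero_cycOrder A K L
  isGalois_of_cyclotomic_tower K L (CanM A K L) (cycOrder A K L)

/-- The canonical unramified layer `E = K(μ_{q^n-1}) ⊆ M`. -/
noncomputable def canE : IntermediateField K (CanM A K L) :=
  IntermediateField.adjoin K
    {x : CanM A K L | ∃ n ∈ ({cycOrder A K L} : Set ℕ), n ≠ 0 ∧ x ^ n = 1}

instance canE_isCyclotomicExtension :
    IsCyclotomicExtension {cycOrder A K L} K (canE A K L) := by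
  refine IntermediateField.isCyclotomicExtension_adjoin_of_exists_isPrimitiveRoot
    {cycOrder A K L} K (CanM A K L) ?_
  intro n hn hn0
  exact IsCyclotomicExtension.exists_isPrimitiveRoot L (CanM A K L) hn hn0

instance canE_finiteDimensional : FiniteDimensional K (canE A K L) :=
  IsCyclotomicExtension.finiteDimensional {cycOrder A K L} K _

instance canE_isGalois : IsGalois K (canE A K L) :=
  IsCyclotomicExtension.isGalois {cycOrder A K L} K _

/-- The comparison theorem for the canonical pair `(CanM, canE)`. -/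
theorem compare_canonical [Algebra A L] [IsScalarTower A K L] :
    Nat.card (H2 (Rep.ofAlgebraAutOnUnits K L)) = finrank K L ∧
    IsAddCyclic (H2 (Rep.ofAlgebraAutOnUnits K L)) ∧
    ∀ x : H2 (Rep.ofAlgebraAutOnUnits K L),
      ∃ y : H2 (Rep.ofAlgebraAutOnUnits K (canE A K L)),
        Tower.inflH2 K (canE A K L) (CanM A K L) y = Tower.inflH2 K L (CanM A K L) x := by
  let _ : Algebra A (canE A K L) := ((algebraMap K (canE A K L)).comp (algebraMap A K)).toAlgebra
  have : IsScalarTower A K (canE A K L) := IsScalarTower.of_algebraMap_eq (fun _ => rfl)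
  exact compare A K L (canE A K L) (CanM A K L)

/-- **`H²(Gal(L/K), Lˣ)` has order `[L : K]`** for every finite Galois extension of local
fields. -/
theorem card_H2_units (A K L : Type) [CommRing A] [IsDomain A] [IsDiscreteValuationRing A]
    [IsAdicComplete (maximalIdeal A) A] [Finite (ResidueField A)]
    [Field K] [Algebra A K] [IsFractionRing A K]
    [Field L] [Algebra K L] [FiniteDimensional K L] [IsGalois K L] :
    Nat.card (H2 (Rep.ofAlgebraAutOnUnits K L)) = finrank K L := by
  let _ : Algebra A L := ((algebraMap K L).comp (algebraMap A K)).toAlgebra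
  have : IsScalarTower A K L := IsScalarTower.of_algebraMap_eq (fun _ => rfl)
  exact (compare_canonical A K L).1

/-- **`H²(Gal(L/K), Lˣ)` is cyclic** for every finite Galois extension of local fields. -/
theorem isAddCyclic_H2_units (A K L : Type) [CommRing A] [IsDomain A]
    [IsDiscreteValuationRing A]
    [IsAdicComplete (maximalIdeal A) A] [Finite (ResidueField A)]
    [Field K] [Algebra A K] [IsFractionRing A K]
    [Field L] [Algebra K L] [FiniteDimensional K L] [IsGalois K L] :
    IsAddCyclic (H2 (Rep.ofAlgebraAutOnUnits K L)) := by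
  let _ : Algebra A L := ((algebraMap K L).comp (algebraMap A K)).toAlgebra
  have : IsScalarTower A K L := IsScalarTower.of_algebraMap_eq (fun _ => rfl)
  exact (compare_canonical A K L).2.1

end Canonical

section IsLocalFld

open NormUnits

variable {K L : Type} [Field K] [Field L] [Algebra K L] [FiniteDimensional K L] [IsGalois K L]

/-- `|H²(Gal(L/K), Lˣ)| = [L : K]` for every finite Galois extension of local fields. -/
theorem _root_.Fermat.Agent.Lib.CFT.NormUnits.IsLocalFld.card_H2_units (hK : IsLocalFld K) :
    Nat.card (H2 (Rep.ofAlgebraAutOnUnits K L)) = finrank K L := by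
  obtain ⟨A, _, _, _, _, _, _, _⟩ := hK
  exact Compare.card_H2_units A K L

/-- `H²(Gal(L/K), Lˣ)` is cyclic for every finite Galois extension of local fields. -/
theorem _root_.Fermat.Agent.Lib.CFT.NormUnits.IsLocalFld.isAddCyclic_H2_units
    (hK : IsLocalFld K) : IsAddCyclic (H2 (Rep.ofAlgebraAutOnUnits K L)) := by
  obtain ⟨A, _, _, _, _, _, _, _⟩ := hK
  exact Compare.isAddCyclic_H2_units A K L

end IsLocalFld

end Fermat.Agent.Lib.CFT.Local.LocalBrauer.Compare
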