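/-
P-CFT, WP Local/LocalBrauer (helper59), part 5: behaviour of the unramified invariant under
base change / inflation between unramified layers.
-/
import Fermat.Agent.Lib.CFT.Local.LocalBrauer.UnramInv
import Fermat.Agent.Lib.CFT.Local.DVRVal
import Fermat.Agent.Lib.CFT.Local.Basic

set_option autoImplicit false
set_option linter.unusedSectionVars false

namespace Fermat.Agent.Lib.CFT.Local.LocalBrauer

open IsLocalRing groupCohomology CategoryTheory
open Fermat.Agent.Lib.CFT.Local.UnitsFiltration Fermat.Agent.Lib.CFT.Local.Unramified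

section unitsResHom

variable {K L K' L' : Type} [Field K] [Field L] [Algebra K L] [Field K'] [Field L'] [Algebra K' L']
  (φ : (L' ≃ₐ[K'] L') →* (L ≃ₐ[K] L)) (ι : L →+* L')
  (hφι : ∀ (σ' : L' ≃ₐ[K'] L') (x : L), ι (φ σ' x) = σ' (ι x))

/-- the map `Lˣ → L'ˣ` induced by a ring hom `ι : L → L'` equivariant along
`φ : Gal(L'/K') → Gal(L/K)`, as a morphism of `Gal(L'/K')`-modules. -/
noncomputable def unitsResHom :
    Rep.res φ (Rep.ofAlgebraAutOnUnits K L) ⟶ Rep.ofAlgebraAutOnUnits K' L' :=
  ConcreteCategory.ofHom (C := Rep.{0} ℤ (L' ≃ₐ[K'] L'))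
    (X := Rep.res φ (Rep.ofAlgebraAutOnUnits K L)) (Y := Rep.ofAlgebraAutOnUnits K' L')
    (⟨(MonoidHom.toAdditive (Units.map (ι : L →* L'))).toIntLinearMap, fun σ' =>
      LinearMap.ext fun (x : Additive Lˣ) => by
        refine congrArg Additive.ofMul (Units.ext ?_)
        exact hφι σ' ((Additive.toMul (α := Lˣ) x : Lˣ) : L)⟩ :
      (Rep.res φ (Rep.ofAlgebraAutOnUnits K L)).ρ.IntertwiningMap
        (Rep.ofAlgebraAutOnUnits K' L').ρ)

theorem unitsResHom_apply (x : Additive Lˣ) :
    (unitsResHom φ ι hφι).hom x =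
      (Additive.ofMul (Units.map (ι : L →* L') (Additive.toMul (α := Lˣ) x)) : Additive L'ˣ) := rfl

end unitsResHom

section FrobPow

variable (A K L B : Type) [CommRing A] [IsDomain A] [IsDiscreteValuationRing A]
  [Finite (ResidueField A)]
  [Field K] [Algebra A K] [IsFractionRing A K]
  [Field L] [Algebra K L] [FiniteDimensional K L] [Algebra.IsSeparable K L]
  [Algebra A L] [IsScalarTower A K L]
  [CommRing B] [Algebra A B] [Algebra B L]
  [IsScalarTower A B L] [IsIntegralClosure B A L]
  [HenselianLocalRing B] [IsLocalHom (algebraMap A B)]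

variable (A' K' L' B' : Type) [CommRing A'] [IsDomain A'] [IsDiscreteValuationRing A']
  [Finite (ResidueField A')]
  [Field K'] [Algebra A' K'] [IsFractionRing A' K']
  [Field L'] [Algebra K' L'] [FiniteDimensional K' L'] [Algebra.IsSeparable K' L']
  [Algebra A' L'] [IsScalarTower A' K' L']
  [CommRing B'] [Algebra A' B'] [Algebra B' L']
  [IsScalarTower A' B' L'] [IsIntegralClosure B' A' L']
  [HenselianLocalRing B'] [IsLocalHom (algebraMap A' B')]

/-- **Frobenius under base change**: if `φ : Gal(L'/K') → Gal(L/K)` is compatible with a ring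
hom `ι : L → L'` mapping `B` to `B'`, and the residue field of `K'` has `q ^ f` elements, then
`φ Frob' = Frob ^ f`. -/
theorem map_frob_eq_frob_pow (h : IsUnram A B) (h' : IsUnram A' B')
    (φ : (L' ≃ₐ[K'] L') →* (L ≃ₐ[K] L)) (ι : L →+* L')
    (hφι : ∀ (σ' : L' ≃ₐ[K'] L') (x : L), ι (φ σ' x) = σ' (ι x))
    (ιB : B →+* B') (hιB : ∀ b : B, ι (algebraMap B L b) = algebraMap B' L' (ιB b))
    (f : ℕ) (hf : Nat.card (ResidueField A') = Nat.card (ResidueField A) ^ f) :
    φ (frob A' K' L' B' h') = frob A K L B h ^ f := by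
  rw [eq_frob_pow_iff]
  intro b
  set σ := φ (frob A' K' L' B' h') with hσ
  have hinj : Function.Injective (algebraMap B' L') := IsIntegralClosure.algebraMap_injective B' A' L'
  have h1 : ιB (galRestrict A K L B σ b) =
      galRestrict A' K' L' B' (frob A' K' L' B' h') (ιB b) := by
    apply hinj
    rw [← hιB, algebraMap_galRestrict_apply, algebraMap_galRestrict_apply, hσ, hφι, hιB]
  have h2 : residue B' (ιB (galRestrict A K L B σ b - b ^ (Nat.card (ResidueField A) ^ f))) = 0 := by
    rw [map_sub, map_sub, h1, residue_frob, map_pow, map_pow, hf, sub_self]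
  rw [← sub_eq_zero, ← map_pow, ← map_sub, residue_eq_zero_iff]
  by_contra hx
  have hu : IsUnit (galRestrict A K L B σ b - b ^ (Nat.card (ResidueField A) ^ f)) := by
    by_contra hnu
    exact hx ((mem_maximalIdeal _).2 hnu)
  have hu' := hu.map ιB
  rw [residue_eq_zero_iff] at h2
  exact (mem_maximalIdeal _).1 h2 hu'

end FrobPow

section OrdMap

variable {B L B' L' : Type} [CommRing B] [IsDomain B] [IsDiscreteValuationRing B]
  [Field L] [Algebra B L] [IsFractionRing B L]
  [CommRing B'] [IsDomain B'] [IsDiscreteValuationRing B']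
  [Field L'] [Algebra B' L'] [IsFractionRing B' L']

/-- a ring hom `ι : L → L'` mapping `B` into `B'` multiplies valuations by `e`, where `e` is the
valuation of the image of a uniformizer. -/
theorem ord_map_of_unif (ι : L →+* L') (ιB : B →+* B')
    (hιB : ∀ b : B, ι (algebraMap B L b) = algebraMap B' L' (ιB b))
    {ϖ : B} (hϖ : Irreducible ϖ) (e : ℤ)
    (he : ord B' L' (Units.map (ι : L →* L') (unifUnit (L := L) hϖ)) = e) (x : Lˣ) :
    ord B' L' (Units.map (ι : L →* L') x) = e * ord B L x := by
  obtain ⟨u, hu⟩ := exists_eq_unitsIncl_mul_zpow (L := L) hϖ x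
  have h1 : Units.map (ι : L →* L') (unitsIncl B L u) = unitsIncl B' L' (Units.map (ιB : B →* B') u) := by
    apply Units.ext
    exact hιB u
  conv_lhs => rw [hu]
  rw [map_mul, map_zpow, ord_mul, ord_zpow, h1, ord_unitsIncl, he, zero_add, mul_comm]

end OrdMap

section IntClosureMap

variable {A L B A' L' B' : Type} [CommRing A] [CommRing L] [Algebra A L]
  [CommRing B] [Algebra A B] [Algebra B L] [IsScalarTower A B L] [IsIntegralClosure B A L]
  [CommRing A'] [CommRing L'] [Algebra A' L']
  [CommRing B'] [Algebra A' B'] [Algebra B' L'] [IsScalarTower A' B' L'] [IsIntegralClosure B' A' L']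

/-- a commutative square `A → A'`, `L → L'` induces a ring hom between the integral closures. -/
theorem exists_intClosure_map (ιA : A →+* A') (ι : L →+* L')
    (hsq : (algebraMap A' L').comp ιA = ι.comp (algebraMap A L)) :
    ∃ ιB : B →+* B', ∀ b : B, ι (algebraMap B L b) = algebraMap B' L' (ιB b) := by
  have hint : ∀ b : B, IsIntegral A' (ι (algebraMap B L b)) := fun b =>
    IsIntegral.map_of_comp_eq ιA ι hsq ((IsIntegralClosure.isIntegral_iff (A := B)).2 ⟨b, rfl⟩)
  have hinj : Function.Injective (algebraMap B' L') := IsIntegralClosure.algebraMap_injective B' A' L'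
  have hmk : ∀ b : B, algebraMap B' L' (IsIntegralClosure.mk' B' (ι (algebraMap B L b)) (hint b)) =
      ι (algebraMap B L b) := fun b => IsIntegralClosure.algebraMap_mk' B' _ _
  refine ⟨{ toFun := fun b => IsIntegralClosure.mk' B' (ι (algebraMap B L b)) (hint b)
            map_one' := ?_, map_mul' := ?_, map_zero' := ?_, map_add' := ?_ }, fun b => (hmk b).symm⟩
  · apply hinj; rw [hmk]; simp
  · intro x y; apply hinj; rw [hmk, map_mul (algebraMap B' L'), hmk, hmk]; simp
  · apply hinj; rw [hmk]; simp
  · intro x y; apply hinj; rw [hmk, map_add (algebraMap B' L'), hmk, hmk]; simp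

end IntClosureMap

section OrdUnram

variable (A K L B : Type) [CommRing A] [IsDomain A] [IsDiscreteValuationRing A]
  [Field K] [Algebra A K] [IsFractionRing A K]
  [Field L] [Algebra K L]
  [Algebra A L] [IsScalarTower A K L]
  [CommRing B] [IsDomain B] [IsDiscreteValuationRing B] [Algebra A B] [Algebra B L]
  [IsScalarTower A B L] [IsFractionRing B L]

/-- in an unramified extension a uniformizer stays a uniformizer. -/
theorem irreducible_algebraMap_of_isUnram (h : IsUnram A B) {ϖ : A} (hϖ : Irreducible ϖ) :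
    Irreducible (algebraMap A B ϖ) := by
  rw [IsDiscreteValuationRing.irreducible_iff_uniformizer, ← h, hϖ.maximalIdeal_eq,
    Ideal.map_span, Set.image_singleton]

/-- in an unramified extension the valuation of `L` restricts to the valuation of `K`. -/
theorem ord_algebraMap_of_isUnram (h : IsUnram A B) (x : Kˣ) :
    ord B L (Units.map (algebraMap K L : K →* L) x) = ord A K x := by
  obtain ⟨ϖ, hϖ⟩ := IsDiscreteValuationRing.exists_irreducible A
  have key := ord_map_of_unif (B := A) (L := K) (B' := B) (L' := L) (algebraMap K L)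
    (algebraMap A B) (fun a => by
      rw [← IsScalarTower.algebraMap_apply A K L, ← IsScalarTower.algebraMap_apply A B L]) hϖ 1
    (ord_of_irreducible _ (irreducible_algebraMap_of_isUnram A B h hϖ) (by
      change algebraMap K L (algebraMap A K ϖ) = _
      rw [← IsScalarTower.algebraMap_apply A K L, ← IsScalarTower.algebraMap_apply A B L])) x
  rw [key, one_mul]

end OrdUnram

section InvUnrMap

variable (A K L B : Type) [CommRing A] [IsDomain A] [IsDiscreteValuationRing A]
  [IsAdicComplete (maximalIdeal A) A] [Finite (ResidueField A)]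
  [Field K] [Algebra A K] [IsFractionRing A K]
  [Field L] [Algebra K L] [FiniteDimensional K L] [IsGalois K L]
  [Algebra A L] [IsScalarTower A K L]
  [CommRing B] [IsDomain B] [IsDiscreteValuationRing B] [Algebra A B] [Algebra B L]
  [IsScalarTower A B L] [IsIntegralClosure B A L] [IsFractionRing B L]
  [HenselianLocalRing B] [IsLocalHom (algebraMap A B)]
  (A' K' L' B' : Type) [CommRing A'] [IsDomain A'] [IsDiscreteValuationRing A']
  [IsAdicComplete (maximalIdeal A') A'] [Finite (ResidueField A')]
  [Field K'] [Algebra A' K'] [IsFractionRing A' K']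
  [Field L'] [Algebra K' L'] [FiniteDimensional K' L'] [IsGalois K' L']
  [Algebra A' L'] [IsScalarTower A' K' L']
  [CommRing B'] [IsDomain B'] [IsDiscreteValuationRing B'] [Algebra A' B'] [Algebra B' L']
  [IsScalarTower A' B' L'] [IsIntegralClosure B' A' L'] [IsFractionRing B' L']
  [HenselianLocalRing B'] [IsLocalHom (algebraMap A' B')]

/-- **The unramified invariant under a morphism of unramified layers** (general form): let
`(L/K, B/A)` and `(L'/K', B'/A')` be unramified, `φ : Gal(L'/K') → Gal(L/K)` compatible with a ring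
hom `ι : L → L'` mapping `B` into `B'`, multiplying valuations by `e`, the residue field of `A'`
having `q ^ f` elements; then for every morphism `j` inducing `ι` on units,
`inv_{L'/K'} (map φ j x) = (e * f) • inv_{L/K} x`. -/
theorem invUnr_map_of_hom (h : IsUnram A B) (h' : IsUnram A' B')
    (φ : (L' ≃ₐ[K'] L') →* (L ≃ₐ[K] L)) (ι : L →+* L')
    (hφι : ∀ (σ' : L' ≃ₐ[K'] L') (x : L), ι (φ σ' x) = σ' (ι x))
    (ιB : B →+* B') (hιB : ∀ b : B, ι (algebraMap B L b) = algebraMap B' L' (ιB b))
    (f : ℕ) (hf : Nat.card (ResidueField A') = Nat.card (ResidueField A) ^ f)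
    (e : ℤ) (he : ∀ x : Lˣ, ord B' L' (Units.map (ι : L →* L') x) = e * ord B L x)
    (j : Rep.res φ (Rep.ofAlgebraAutOnUnits K L) ⟶ Rep.ofAlgebraAutOnUnits K' L')
    (hj : ∀ x : Additive Lˣ, j.hom x =
      (Additive.ofMul (Units.map (ι : L →* L') (Additive.toMul (α := Lˣ) x)) : Additive L'ˣ))
    (x : H2 (Rep.ofAlgebraAutOnUnits K L)) :
    invUnr A' K' L' B' h' (groupCohomology.map φ j 2 x) = (e * (f : ℤ)) • invUnr A K L B h x := by
  have hF := map_frob_eq_frob_pow A K L B A' K' L' B' h h' φ ι hφι ιB hιB f hf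
  exact invAt_map_pow φ j (unitsVal K L B) (unitsVal_invariant A K L B) (unitsVal K' L' B')
    (unitsVal_invariant A' K' L' B') e
    (fun a => by
      rw [hj a]
      exact he (Additive.toMul (α := Lˣ) a)) x (frob A' K' L' B' h') (frob A K L B h) f hF

/-- the same for the canonical morphism `unitsResHom`. -/
theorem invUnr_map (h : IsUnram A B) (h' : IsUnram A' B')
    (φ : (L' ≃ₐ[K'] L') →* (L ≃ₐ[K] L)) (ι : L →+* L')
    (hφι : ∀ (σ' : L' ≃ₐ[K'] L') (x : L), ι (φ σ' x) = σ' (ι x))
    (ιB : B →+* B') (hιB : ∀ b : B, ι (algebraMap B L b) = algebraMap B' L' (ιB b))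
    (f : ℕ) (hf : Nat.card (ResidueField A') = Nat.card (ResidueField A) ^ f)
    (e : ℤ) (he : ∀ x : Lˣ, ord B' L' (Units.map (ι : L →* L') x) = e * ord B L x)
    (x : H2 (Rep.ofAlgebraAutOnUnits K L)) :
    invUnr A' K' L' B' h' (groupCohomology.map φ (unitsResHom φ ι hφι) 2 x) =
      (e * (f : ℤ)) • invUnr A K L B h x :=
  invUnr_map_of_hom A K L B A' K' L' B' h h' φ ι hφι ιB hιB f hf e he _ (fun _ => rfl) x

end InvUnrMap

section TowerHom

variable (K L K' L' : Type) [Field K] [Field L] [Algebra K L] [Normal K L]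
  [Field K'] [Field L'] [Algebra K' L']
  [Algebra K K'] [Algebra L L'] [Algebra K L'] [IsScalarTower K L L'] [IsScalarTower K K' L']

/-- the restriction map `Gal(L'/K') → Gal(L/K)` of a square of fields `K ⊆ L, K' ⊆ L'`,
`K ⊆ K'`, `L ⊆ L'` (with `L/K` normal). -/
noncomputable def towerHom : (L' ≃ₐ[K'] L') →* (L ≃ₐ[K] L) :=
  (AlgEquiv.restrictNormalHom L).comp (AlgEquiv.restrictScalarsHom K)

theorem towerHom_commutes (σ' : L' ≃ₐ[K'] L') (x : L) :
    algebraMap L L' (towerHom K L K' L' σ' x) = σ' (algebraMap L L' x) :=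
  AlgEquiv.restrictNormal_commutes (σ'.restrictScalars K) L x

/-- `Lˣ → L'ˣ` as a morphism of `Gal(L'/K')`-modules. -/
noncomputable def towerUnitsHom :
    Rep.res (towerHom K L K' L') (Rep.ofAlgebraAutOnUnits K L) ⟶ Rep.ofAlgebraAutOnUnits K' L' :=
  unitsResHom (towerHom K L K' L') (algebraMap L L') (towerHom_commutes K L K' L')

theorem towerUnitsHom_apply (x : Additive Lˣ) :
    (towerUnitsHom K L K' L').hom x =
      (Additive.ofMul (Units.map (algebraMap L L' : L →* L') (Additive.toMul (α := Lˣ) x)) :
        Additive L'ˣ) := rfl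

end TowerHom

section BaseChange

variable (A K L B : Type) [CommRing A] [IsDomain A] [IsDiscreteValuationRing A]
  [IsAdicComplete (maximalIdeal A) A] [Finite (ResidueField A)]
  [Field K] [Algebra A K] [IsFractionRing A K]
  [Field L] [Algebra K L] [FiniteDimensional K L] [IsGalois K L]
  [Algebra A L] [IsScalarTower A K L]
  [CommRing B] [IsDomain B] [IsDiscreteValuationRing B] [Algebra A B] [Algebra B L]
  [IsScalarTower A B L] [IsIntegralClosure B A L] [IsFractionRing B L]
  [HenselianLocalRing B] [IsLocalHom (algebraMap A B)]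
  (A' K' L' B' : Type) [CommRing A'] [IsDomain A'] [IsDiscreteValuationRing A']
  [IsAdicComplete (maximalIdeal A') A'] [Finite (ResidueField A')]
  [Field K'] [Algebra A' K'] [IsFractionRing A' K']
  [Field L'] [Algebra K' L'] [FiniteDimensional K' L'] [IsGalois K' L']
  [Algebra A' L'] [IsScalarTower A' K' L']
  [CommRing B'] [IsDomain B'] [IsDiscreteValuationRing B'] [Algebra A' B'] [Algebra B' L']
  [IsScalarTower A' B' L'] [IsIntegralClosure B' A' L'] [IsFractionRing B' L']
  [HenselianLocalRing B'] [IsLocalHom (algebraMap A' B')]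
  [Algebra K K'] [Algebra L L'] [Algebra K L'] [IsScalarTower K L L'] [IsScalarTower K K' L']

/-- **Base change of the unramified invariant** (abstract ramification data): `K ⊆ K'`, `L/K` and
`L'/K'` unramified Galois with `L ⊆ L'`; if `A` maps into `A'`, the valuation of `K'` restricts to
`e` times the valuation of `K` and the residue field of `K'` has `q ^ f` elements, then
`inv_{L'/K'} (res x) = (e * f) • inv_{L/K} x`. -/
theorem invUnr_baseChange_of_hom (h : IsUnram A B) (h' : IsUnram A' B')
    (ιA : A →+* A') (hιA : ∀ a : A, algebraMap A' K' (ιA a) = algebraMap K K' (algebraMap A K a))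
    (f : ℕ) (hf : Nat.card (ResidueField A') = Nat.card (ResidueField A) ^ f)
    (e : ℤ) (he : ∀ x : Kˣ, ord A' K' (Units.map (algebraMap K K' : K →* K') x) = e * ord A K x)
    (j : Rep.res (towerHom K L K' L') (Rep.ofAlgebraAutOnUnits K L) ⟶
      Rep.ofAlgebraAutOnUnits K' L')
    (hj : ∀ x : Additive Lˣ, j.hom x =
      (Additive.ofMul (Units.map (algebraMap L L' : L →* L') (Additive.toMul (α := Lˣ) x)) :
        Additive L'ˣ))
    (x : H2 (Rep.ofAlgebraAutOnUnits K L)) :
    invUnr A' K' L' B' h' (groupCohomology.map (towerHom K L K' L') j 2 x) =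
      (e * (f : ℤ)) • invUnr A K L B h x := by
  have hAL : ∀ a : A, algebraMap A' L' (ιA a) = algebraMap L L' (algebraMap A L a) := by
    intro a
    rw [IsScalarTower.algebraMap_apply A' K' L', hιA, ← IsScalarTower.algebraMap_apply K K' L',
      IsScalarTower.algebraMap_apply A K L, ← IsScalarTower.algebraMap_apply K L L']
  have hsq : (algebraMap A' L').comp ιA = (algebraMap L L').comp (algebraMap A L) :=
    RingHom.ext hAL
  obtain ⟨ιB, hιB⟩ := exists_intClosure_map (B := B) (B' := B') ιA (algebraMap L L') hsq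
  obtain ⟨ϖ, hϖ⟩ := IsDiscreteValuationRing.exists_irreducible A
  have hϖB := irreducible_algebraMap_of_isUnram A B h hϖ
  have he' : ∀ x : Lˣ, ord B' L' (Units.map (algebraMap L L' : L →* L') x) = e * ord B L x := by
    refine ord_map_of_unif (algebraMap L L') ιB hιB hϖB e ?_
    have h1 : Units.map (algebraMap L L' : L →* L') (unifUnit (L := L) hϖB) =
        Units.map (algebraMap K' L' : K' →* L')
          (Units.map (algebraMap K K' : K →* K') (unifUnit (L := K) hϖ)) := by
      apply Units.ext
      change algebraMap L L' (algebraMap B L (algebraMap A B ϖ)) =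
        algebraMap K' L' (algebraMap K K' (algebraMap A K ϖ))
      rw [← IsScalarTower.algebraMap_apply A B L, ← hAL, IsScalarTower.algebraMap_apply A' K' L',
        hιA]
    rw [h1, ord_algebraMap_of_isUnram A' K' L' B' h', he, ord_unifUnit, mul_one]
  exact invUnr_map_of_hom A K L B A' K' L' B' h h' (towerHom K L K' L') (algebraMap L L')
    (towerHom_commutes K L K' L') ιB hιB f hf e he' j hj x

end BaseChange

section EF

variable (A K K' A' : Type) [CommRing A] [IsDomain A] [IsDiscreteValuationRing A]
  [Field K] [Algebra A K] [IsFractionRing A K]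
  [Field K'] [Algebra K K'] [FiniteDimensional K K'] [Algebra A K'] [IsScalarTower A K K']
  [CommRing A'] [IsDomain A'] [IsDiscreteValuationRing A'] [Algebra A A']
  [Algebra A' K'] [IsScalarTower A A' K'] [IsIntegralClosure A' A K'] [IsFractionRing A' K']
  [Module.Finite A A'] [Module.IsTorsionFree A A']

theorem filtDvrVal_eq : UnitsFiltration.dvrVal A K = Local.dvrVal A K := by
  unfold Local.dvrVal
  rw [← Local.heightOneSpectrum_eq A (IsDiscreteValuationRing.maximalIdeal A)]

/-- the valuation of `K'` restricts to `e` times the valuation of `K`. -/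
theorem ord_algebraMap (x : Kˣ) :
    ord A' K' (Units.map (algebraMap K K' : K →* K') x) = (Local.ramIdx A A' : ℤ) * ord A K x := by
  rw [ord_eq_iff, filtDvrVal_eq]
  have h := Local.dvrVal_algebraMap A K K' A' (x : K)
  have h2 := (ord_eq_iff (B := A) x (ord A K x)).1 rfl
  rw [filtDvrVal_eq] at h2
  rw [h2] at h
  rw [Units.coe_map]
  change Local.dvrVal A' K' (algebraMap K K' (x : K)) = _
  rw [h, ← WithZero.exp_nsmul]
  congr 1
  simp

/-- `# k' = (# k) ^ f`. -/
theorem natCard_residueField_eq_pow_resDeg [IsLocalHom (algebraMap A A')]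
    [Finite (ResidueField A)] :
    Nat.card (ResidueField A') = Nat.card (ResidueField A) ^ Local.resDeg A A' := by
  rw [natCard_residueField (R := A) (S := A')]
  congr 1
  unfold Local.resDeg resDegree
  rw [Ideal.inertiaDeg_eq_of_isMaximal (maximalIdeal A) (maximalIdeal A')]
  symm
  refine Algebra.finrank_eq_of_equiv_equiv (RingEquiv.refl _) (RingEquiv.refl _) ?_
  ext x
  rfl

end EF

section BaseChangeFull

variable (A K L B : Type) [CommRing A] [IsDomain A] [IsDiscreteValuationRing A]
  [IsAdicComplete (maximalIdeal A) A] [Finite (ResidueField A)]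
  [Field K] [Algebra A K] [IsFractionRing A K]
  [Field L] [Algebra K L] [FiniteDimensional K L] [IsGalois K L]
  [Algebra A L] [IsScalarTower A K L]
  [CommRing B] [IsDomain B] [IsDiscreteValuationRing B] [Algebra A B] [Algebra B L]
  [IsScalarTower A B L] [IsIntegralClosure B A L] [IsFractionRing B L]
  [HenselianLocalRing B] [IsLocalHom (algebraMap A B)]
  (A' K' L' B' : Type) [CommRing A'] [IsDomain A'] [IsDiscreteValuationRing A']
  [IsAdicComplete (maximalIdeal A') A'] [Finite (ResidueField A')]
  [Field K'] [Algebra A' K'] [IsFractionRing A' K']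
  [Field L'] [Algebra K' L'] [FiniteDimensional K' L'] [IsGalois K' L']
  [Algebra A' L'] [IsScalarTower A' K' L']
  [CommRing B'] [IsDomain B'] [IsDiscreteValuationRing B'] [Algebra A' B'] [Algebra B' L']
  [IsScalarTower A' B' L'] [IsIntegralClosure B' A' L'] [IsFractionRing B' L']
  [HenselianLocalRing B'] [IsLocalHom (algebraMap A' B')]
  [Algebra K K'] [Algebra L L'] [Algebra K L'] [IsScalarTower K L L'] [IsScalarTower K K' L']
  [FiniteDimensional K K'] [Algebra.IsSeparable K K']
  [Algebra A A'] [Algebra A K'] [IsScalarTower A K K'] [IsScalarTower A A' K']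
  [IsIntegralClosure A' A K']

/-- **Restriction multiplies the unramified invariant by the degree**: `K'/K` finite separable
(`A'` the integral closure of `A` in `K'`), `L/K` and `L'/K'` unramified Galois with `L ⊆ L'`:
`inv_{L'/K'} (res x) = [K' : K] • inv_{L/K} x`. -/
theorem invUnr_baseChange_hom (h : IsUnram A B) (h' : IsUnram A' B')
    (j : Rep.res (towerHom K L K' L') (Rep.ofAlgebraAutOnUnits K L) ⟶
      Rep.ofAlgebraAutOnUnits K' L')
    (hj : ∀ x : Additive Lˣ, j.hom x =
      (Additive.ofMul (Units.map (algebraMap L L' : L →* L') (Additive.toMul (α := Lˣ) x)) :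
        Additive L'ˣ))
    (x : H2 (Rep.ofAlgebraAutOnUnits K L)) :
    invUnr A' K' L' B' h' (groupCohomology.map (towerHom K L K' L') j 2 x) =
      Module.finrank K K' • invUnr A K L B h x := by
  have hfin := Local.ext_finite A K K' A'
  have htf := Local.ext_isTorsionFree A K K' A'
  have hloc := Local.ext_isLocalHom A K K' A'
  have key := invUnr_baseChange_of_hom A K L B A' K' L' B' h h' (algebraMap A A')
    (fun a => by
      rw [← IsScalarTower.algebraMap_apply A A' K', ← IsScalarTower.algebraMap_apply A K K'])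
    (Local.resDeg A A') (natCard_residueField_eq_pow_resDeg A A')
    (Local.ramIdx A A') (ord_algebraMap A K K' A') j hj x
  rw [key, ← Nat.cast_mul, natCast_zsmul, Local.ramIdx_mul_resDeg, Local.ext_finrank A K K' A']

/-- the same for the canonical morphism `towerUnitsHom`. -/
theorem invUnr_baseChange (h : IsUnram A B) (h' : IsUnram A' B')
    (x : H2 (Rep.ofAlgebraAutOnUnits K L)) :
    invUnr A' K' L' B' h' (groupCohomology.map (towerHom K L K' L') (towerUnitsHom K L K' L') 2 x) =
      Module.finrank K K' • invUnr A K L B h x :=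
  invUnr_baseChange_hom A K L B A' K' L' B' h h' _ (fun _ => rfl) x

end BaseChangeFull

section Inflation

variable (A K L B : Type) [CommRing A] [IsDomain A] [IsDiscreteValuationRing A]
  [IsAdicComplete (maximalIdeal A) A] [Finite (ResidueField A)]
  [Field K] [Algebra A K] [IsFractionRing A K]
  [Field L] [Algebra K L] [FiniteDimensional K L] [IsGalois K L]
  [Algebra A L] [IsScalarTower A K L]
  [CommRing B] [IsDomain B] [IsDiscreteValuationRing B] [Algebra A B] [Algebra B L]
  [IsScalarTower A B L] [IsIntegralClosure B A L] [IsFractionRing B L]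
  [HenselianLocalRing B] [IsLocalHom (algebraMap A B)]
  (L' B' : Type)
  [Field L'] [Algebra K L'] [FiniteDimensional K L'] [IsGalois K L']
  [Algebra A L'] [IsScalarTower A K L']
  [CommRing B'] [IsDomain B'] [IsDiscreteValuationRing B'] [Algebra A B'] [Algebra B' L']
  [IsScalarTower A B' L'] [IsIntegralClosure B' A L'] [IsFractionRing B' L']
  [HenselianLocalRing B'] [IsLocalHom (algebraMap A B')]
  [Algebra L L'] [IsScalarTower K L L']

/-- `Lˣ → L'ˣ` as a morphism of `Gal(L'/K)`-modules (inflation). -/
noncomputable def inflUnitsHom :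
    Rep.res (AlgEquiv.restrictNormalHom (F := K) (K₁ := L') L) (Rep.ofAlgebraAutOnUnits K L) ⟶
      Rep.ofAlgebraAutOnUnits K L' :=
  unitsResHom (AlgEquiv.restrictNormalHom (F := K) (K₁ := L') L) (algebraMap L L')
    (fun σ' x => AlgEquiv.restrictNormal_commutes σ' L x)

/-- **Inflation preserves the unramified invariant**: `K ⊆ L ⊆ L'` both unramified Galois over
`K`: `inv_{L'/K} (infl x) = inv_{L/K} x`, for every morphism `j` inducing the inclusion
`Lˣ → L'ˣ`. -/
theorem invUnr_infl_of_hom (h : IsUnram A B) (h' : IsUnram A B')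
    (j : Rep.res (AlgEquiv.restrictNormalHom (F := K) (K₁ := L') L)
      (Rep.ofAlgebraAutOnUnits K L) ⟶ Rep.ofAlgebraAutOnUnits K L')
    (hj : ∀ x : Additive Lˣ, j.hom x =
      (Additive.ofMul (Units.map (algebraMap L L' : L →* L') (Additive.toMul (α := Lˣ) x)) :
        Additive L'ˣ))
    (x : H2 (Rep.ofAlgebraAutOnUnits K L)) :
    invUnr A K L' B' h' (groupCohomology.map (AlgEquiv.restrictNormalHom (F := K) (K₁ := L') L)
      j 2 x) = invUnr A K L B h x := by
  have hAL : ∀ a : A, algebraMap A L' a = algebraMap L L' (algebraMap A L a) := by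
    intro a
    rw [IsScalarTower.algebraMap_apply A K L', IsScalarTower.algebraMap_apply A K L,
      ← IsScalarTower.algebraMap_apply K L L']
  obtain ⟨ιB, hιB⟩ := exists_intClosure_map (B := B) (B' := B') (RingHom.id A) (algebraMap L L')
    (RingHom.ext hAL)
  obtain ⟨ϖ, hϖ⟩ := IsDiscreteValuationRing.exists_irreducible A
  have hϖB := irreducible_algebraMap_of_isUnram A B h hϖ
  have he' : ∀ x : Lˣ, ord B' L' (Units.map (algebraMap L L' : L →* L') x) = 1 * ord B L x := by
    refine ord_map_of_unif (algebraMap L L') ιB hιB hϖB 1 ?_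
    have h1 : Units.map (algebraMap L L' : L →* L') (unifUnit (L := L) hϖB) =
        Units.map (algebraMap K L' : K →* L') (unifUnit (L := K) hϖ) := by
      apply Units.ext
      change algebraMap L L' (algebraMap B L (algebraMap A B ϖ)) =
        algebraMap K L' (algebraMap A K ϖ)
      rw [← IsScalarTower.algebraMap_apply A B L, ← hAL, IsScalarTower.algebraMap_apply A K L']
    rw [h1, ord_algebraMap_of_isUnram A K L' B' h', ord_unifUnit]
  have key := invUnr_map_of_hom A K L B A K L' B' h h'
    (AlgEquiv.restrictNormalHom (F := K) (K₁ := L') L) (algebraMap L L')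
    (fun σ' x => AlgEquiv.restrictNormal_commutes σ' L x) ιB hιB 1 (pow_one _).symm 1 he' j hj x
  rw [key]
  simp

theorem invUnr_infl (h : IsUnram A B) (h' : IsUnram A B')
    (x : H2 (Rep.ofAlgebraAutOnUnits K L)) :
    invUnr A K L' B' h' (groupCohomology.map (AlgEquiv.restrictNormalHom (F := K) (K₁ := L') L)
      (inflUnitsHom K L L') 2 x) = invUnr A K L B h x :=
  invUnr_infl_of_hom A K L B L' B' h h' _ (fun _ => rfl) x

end Inflation

end Fermat.Agent.Lib.CFT.Local.LocalBrauer
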