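/-
P-CFT, WP Local/LocalBrauer part 4 (helper43): the canonical invariant of a finite Galois extension
of local fields.

Block `(A, K)`: `A` a complete discrete valuation ring with finite residue field, `K = Frac A`.
For `L/K` finite Galois of degree `n`, `invLocal A K L : H²(Gal(L/K), Lˣ) →+ ℚ/ℤ` is defined by
comparing (inside `M = L(μ_{q^n-1})`) with the unramified layer `E = K(μ_{q^n-1})` of degree `n` and
taking helper59's unramified invariant `invUnr` there.
-/
import Mathlib
import Fermat.Agent.Lib.CFT.Local.LocalBrauer.Compare
import Fermat.Agent.Lib.CFT.Local.LocalBrauer.Square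
import Fermat.Agent.Lib.CFT.Local.LocalBrauer.UnramBaseChange

set_option autoImplicit false
set_option linter.unusedSectionVars false
set_option linter.style.haveILetI false

namespace Fermat.Agent.Lib.CFT.Local.LocalBrauer.Inv

open CategoryTheory Rep groupCohomology IsLocalRing Module
open Fermat.Agent.Lib.CFT.Local Fermat.Agent.Lib.CFT.Local.Unramified
open Fermat.Agent.Lib.CFT.Local.LocalBrauer.Compare

section Canonical

variable (A K L : Type) [CommRing A] [IsDomain A] [IsDiscreteValuationRing A]
  [IsAdicComplete (maximalIdeal A) A] [Finite (ResidueField A)]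
  [Field K] [Algebra A K] [IsFractionRing A K]
  [Field L] [Algebra K L] [FiniteDimensional K L] [IsGalois K L]

/-- The `A`-algebra structure on the canonical unramified layer. -/
noncomputable instance canE_algebra : Algebra A (canE A K L) :=
  ((algebraMap K (canE A K L)).comp (algebraMap A K)).toAlgebra

instance canE_isScalarTower : IsScalarTower A K (canE A K L) :=
  IsScalarTower.of_algebraMap_eq (fun _ => rfl)

theorem canE_isLocalRing : IsLocalRing (integralClosure A (canE A K L)) :=
  ext_isLocalRing A K (canE A K L) _

theorem canE_isUnram_and_finrank :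
    haveI := canE_isLocalRing A K L
    IsUnram A (integralClosure A (canE A K L)) ∧ finrank K (canE A K L) = finrank K L :=
  haveI := canE_isLocalRing A K L
  finrank_of_cyclotomic_of_complete A K (canE A K L) _ (finrank K L)
    (finrank_pos (R := K) (M := L)).ne'

/-- The invariant of the canonical unramified layer `canE = K(μ_{q^n-1})`. -/
noncomputable def invCan : H2 (Rep.ofAlgebraAutOnUnits K (canE A K L)) →+ QZ :=
  haveI := canE_isLocalRing A K L
  haveI := ext_isDiscreteValuationRing A K (canE A K L) (integralClosure A (canE A K L))
  haveI := ext_isFractionRing A K (canE A K L) (integralClosure A (canE A K L))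
  haveI := ext_isAdicComplete A K (canE A K L) (integralClosure A (canE A K L))
  haveI := ext_isLocalHom A K (canE A K L) (integralClosure A (canE A K L))
  haveI : HenselianLocalRing (integralClosure A (canE A K L)) :=
    LocalUnits.henselianLocalRing_of_isAdicComplete _
  invUnr A K (canE A K L) (integralClosure A (canE A K L)) (canE_isUnram_and_finrank A K L).1

theorem invCan_injective : Function.Injective (invCan A K L) := by
  haveI := canE_isLocalRing A K L
  haveI := ext_isDiscreteValuationRing A K (canE A K L) (integralClosure A (canE A K L))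
  haveI := ext_isFractionRing A K (canE A K L) (integralClosure A (canE A K L))
  haveI := ext_isAdicComplete A K (canE A K L) (integralClosure A (canE A K L))
  haveI := ext_isLocalHom A K (canE A K L) (integralClosure A (canE A K L))
  haveI : HenselianLocalRing (integralClosure A (canE A K L)) :=
    LocalUnits.henselianLocalRing_of_isAdicComplete _
  exact invUnr_injective A K (canE A K L) (integralClosure A (canE A K L))
    (canE_isUnram_and_finrank A K L).1

theorem finrank_nsmul_invCan (y : H2 (Rep.ofAlgebraAutOnUnits K (canE A K L))) :
    finrank K L • invCan A K L y = 0 := by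
  haveI := canE_isLocalRing A K L
  haveI := ext_isDiscreteValuationRing A K (canE A K L) (integralClosure A (canE A K L))
  haveI := ext_isFractionRing A K (canE A K L) (integralClosure A (canE A K L))
  haveI := ext_isAdicComplete A K (canE A K L) (integralClosure A (canE A K L))
  haveI := ext_isLocalHom A K (canE A K L) (integralClosure A (canE A K L))
  haveI : HenselianLocalRing (integralClosure A (canE A K L)) :=
    LocalUnits.henselianLocalRing_of_isAdicComplete _
  rw [← (canE_isUnram_and_finrank A K L).2]
  exact finrank_nsmul_invUnr A K (canE A K L) (integralClosure A (canE A K L))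
    (canE_isUnram_and_finrank A K L).1 y

theorem exists_invCan_eq (z : QZ) (hz : finrank K L • z = 0) :
    ∃ y : H2 (Rep.ofAlgebraAutOnUnits K (canE A K L)), invCan A K L y = z := by
  haveI := canE_isLocalRing A K L
  haveI := ext_isDiscreteValuationRing A K (canE A K L) (integralClosure A (canE A K L))
  haveI := ext_isFractionRing A K (canE A K L) (integralClosure A (canE A K L))
  haveI := ext_isAdicComplete A K (canE A K L) (integralClosure A (canE A K L))
  haveI := ext_isLocalHom A K (canE A K L) (integralClosure A (canE A K L))
  haveI : HenselianLocalRing (integralClosure A (canE A K L)) :=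
    LocalUnits.henselianLocalRing_of_isAdicComplete _
  rw [← (canE_isUnram_and_finrank A K L).2] at hz
  exact exists_invUnr_eq A K (canE A K L) (integralClosure A (canE A K L))
    (canE_isUnram_and_finrank A K L).1 z hz

section Cmp

variable [Algebra A L] [IsScalarTower A K L]

/-- The underlying function of the comparison map. -/
noncomputable def cmpFun (x : H2 (Rep.ofAlgebraAutOnUnits K L)) :
    H2 (Rep.ofAlgebraAutOnUnits K (canE A K L)) :=
  Classical.choose ((compare_canonical A K L).2.2 x)

theorem inflH2_cmpFun (x : H2 (Rep.ofAlgebraAutOnUnits K L)) :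
    Tower.inflH2 K (canE A K L) (CanM A K L) (cmpFun A K L x) =
      Tower.inflH2 K L (CanM A K L) x :=
  Classical.choose_spec ((compare_canonical A K L).2.2 x)

/-- The comparison map `H²(L/K) → H²(E/K)`, `E = K(μ_{q^n-1})`, characterised by
`infl (cmp x) = infl x` in `H²(M/K)`, `M = L(μ_{q^n-1})`. -/
noncomputable def cmp : H2 (Rep.ofAlgebraAutOnUnits K L) →+
    H2 (Rep.ofAlgebraAutOnUnits K (canE A K L)) where
  toFun := cmpFun A K L
  map_zero' := by
    apply Tower.inflH2_injective K (canE A K L) (CanM A K L)
    rw [inflH2_cmpFun, map_zero, map_zero]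
  map_add' x x' := by
    apply Tower.inflH2_injective K (canE A K L) (CanM A K L)
    rw [inflH2_cmpFun, map_add, map_add, inflH2_cmpFun, inflH2_cmpFun]

theorem inflH2_cmp (x : H2 (Rep.ofAlgebraAutOnUnits K L)) :
    Tower.inflH2 K (canE A K L) (CanM A K L) (cmp A K L x) =
      Tower.inflH2 K L (CanM A K L) x :=
  inflH2_cmpFun A K L x

theorem cmp_injective : Function.Injective (cmp A K L) := by
  intro x x' h
  apply Tower.inflH2_injective K L (CanM A K L)
  rw [← inflH2_cmp, ← inflH2_cmp, h]

/-- **The canonical invariant** of a finite Galois extension of local fields. -/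
noncomputable def invLocal : H2 (Rep.ofAlgebraAutOnUnits K L) →+ QZ :=
  (invCan A K L).comp (cmp A K L)

theorem invLocal_apply (x : H2 (Rep.ofAlgebraAutOnUnits K L)) :
    invLocal A K L x = invCan A K L (cmp A K L x) := rfl

theorem invLocal_injective : Function.Injective (invLocal A K L) :=
  (invCan_injective A K L).comp (cmp_injective A K L)

theorem finrank_nsmul_invLocal (x : H2 (Rep.ofAlgebraAutOnUnits K L)) :
    finrank K L • invLocal A K L x = 0 :=
  finrank_nsmul_invCan A K L _

include A in
theorem card_H2_canE :
    Nat.card (H2 (Rep.ofAlgebraAutOnUnits K (canE A K L))) = finrank K L :=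
  (unramLayer A K (canE A K L) (finrank K L) (finrank_pos (R := K) (M := L)).ne').2.2.2.2.1

theorem cmp_bijective : Function.Bijective (cmp A K L) := by
  have hfin : Finite (H2 (Rep.ofAlgebraAutOnUnits K (canE A K L))) :=
    Nat.finite_of_card_ne_zero (by
      rw [card_H2_canE A K L]
      exact (finrank_pos (R := K) (M := L)).ne')
  refine (cmp_injective A K L).bijective_of_nat_card_le ?_
  rw [card_H2_canE A K L, Compare.card_H2_units A K L]

/-- The image of the invariant is the `[L : K]`-torsion of `ℚ/ℤ`. -/
theorem exists_invLocal_eq (z : QZ) (hz : finrank K L • z = 0) :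
    ∃ x : H2 (Rep.ofAlgebraAutOnUnits K L), invLocal A K L x = z := by
  obtain ⟨y, hy⟩ := exists_invCan_eq A K L z hz
  obtain ⟨x, rfl⟩ := (cmp_bijective A K L).2 y
  exact ⟨x, hy⟩

end Cmp

end Canonical

end Fermat.Agent.Lib.CFT.Local.LocalBrauer.Inv
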