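/-
P-CFT, WP Local/LocalBrauer part 4 (helper43): field-theoretic helpers for the common overfield
construction (cyclotomic extensions and scalar towers).
-/
import Mathlib

set_option autoImplicit false
set_option linter.unusedSectionVars false

namespace Fermat.Agent.Lib.CFT.Local.LocalBrauer.Overfield

open Polynomial

section Towers

variable (K L M M' : Type*) [CommSemiring K] [CommSemiring L] [CommSemiring M] [CommSemiring M']
  [Algebra K L] [Algebra K M] [Algebra K M'] [Algebra L M] [Algebra L M'] [Algebra M M']

/-- `K → L → M → M'`: if `K-L-M`, `K-M-M'`, `L-M-M'` are towers then so is `K-L-M'`. -/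
theorem isScalarTower_bot [IsScalarTower K L M] [IsScalarTower K M M'] [IsScalarTower L M M'] :
    IsScalarTower K L M' :=
  IsScalarTower.of_algebraMap_eq fun x => by
    rw [IsScalarTower.algebraMap_apply K M M', IsScalarTower.algebraMap_apply K L M,
      ← IsScalarTower.algebraMap_apply L M M']

/-- `K → L → M → M'`: if `K-L-M`, `K-L-M'`, `L-M-M'` are towers then so is `K-M-M'`. -/
theorem isScalarTower_top [IsScalarTower K L M] [IsScalarTower K L M'] [IsScalarTower L M M'] :
    IsScalarTower K M M' :=
  IsScalarTower.of_algebraMap_eq fun x => by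
    rw [IsScalarTower.algebraMap_apply K L M', IsScalarTower.algebraMap_apply K L M,
      ← IsScalarTower.algebraMap_apply L M M']

end Towers

section OfMem

variable {K E M' : Type*} [Field K] [Field E] [Field M'] [Algebra K E] [Algebra K M']
  [Algebra E M'] [IsScalarTower K E M'] (F : IntermediateField K M')
  (hmem : ∀ x : E, algebraMap E M' x ∈ F)

/-- The `E`-algebra structure on an intermediate field `F` of `M'/K` containing the image of
`E`. -/
@[instance_reducible]
noncomputable def algebraOfMem : Algebra E F :=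
  ((IsScalarTower.toAlgHom K E M').codRestrict F.toSubalgebra hmem).toRingHom.toAlgebra

theorem algebraOfMem_coe (x : E) :
    ((@algebraMap E F _ _ (algebraOfMem F hmem) x : F) : M') = algebraMap E M' x := rfl

theorem isScalarTower_ofMem_left :
    @IsScalarTower K E F _ (algebraOfMem F hmem).toSMul _ :=
  letI := algebraOfMem F hmem
  IsScalarTower.of_algebraMap_eq fun x => by
    apply Subtype.ext
    rw [algebraOfMem_coe, ← IsScalarTower.algebraMap_apply]
    rfl

theorem isScalarTower_ofMem_right :
    @IsScalarTower E F M' (algebraOfMem F hmem).toSMul _ _ :=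
  letI := algebraOfMem F hmem
  IsScalarTower.of_algebraMap_eq fun _ => rfl

end OfMem

section Cyclo

variable (K E M' : Type*) [Field K] [Field E] [Field M'] [Algebra K E] [Algebra K M']
  [Algebra E M'] [IsScalarTower K E M']

/-- The roots of unity of order `N₃` generate an intermediate field containing the image of every
cyclotomic extension of order `N₁ ∣ N₃`. -/
theorem algebraMap_mem_adjoin_of_dvd (N₁ N₃ : ℕ) (hdvd : N₁ ∣ N₃) (hN₃ : N₃ ≠ 0)
    [IsCyclotomicExtension {N₁} K E] (x : E) :
    algebraMap E M' x ∈ IntermediateField.adjoin K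
      {z : M' | ∃ n ∈ ({N₃} : Set ℕ), n ≠ 0 ∧ z ^ n = 1} := by
  have hx := IsCyclotomicExtension.adjoin_roots (S := {N₁}) (A := K) (B := E) x
  induction hx using Algebra.adjoin_induction with
  | mem b hb =>
    obtain ⟨n, hn, -, hb1⟩ := hb
    rw [Set.mem_singleton_iff] at hn
    subst hn
    obtain ⟨c, rfl⟩ := hdvd
    refine IntermediateField.subset_adjoin K _ ⟨n * c, rfl, hN₃, ?_⟩
    rw [← map_pow, pow_mul, hb1, one_pow, map_one]
  | algebraMap r =>
    rw [← IsScalarTower.algebraMap_apply]
    exact IntermediateField.algebraMap_mem _ r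
  | add a b _ _ ha hb =>
    rw [map_add]
    exact add_mem ha hb
  | mul a b _ _ ha hb =>
    rw [map_mul]
    exact mul_mem ha hb

end Cyclo

section Lift

variable (L Mc M' : Type*) [Field L] [Field Mc] [Field M'] [Algebra L Mc] [Algebra L M']

/-- A cyclotomic extension of order `N` embeds into every extension containing a primitive root of
unity of order a multiple of `N`. -/
theorem exists_algHom_of_isPrimitiveRoot (N N₃ : ℕ) (hdvd : N ∣ N₃) (hN₃ : N₃ ≠ 0)
    [IsCyclotomicExtension {N} L Mc] {ζ : M'} (hζ : IsPrimitiveRoot ζ N₃) :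
    Nonempty (Mc →ₐ[L] M') := by
  obtain ⟨c, rfl⟩ := hdvd
  have hN : N ≠ 0 := fun h => hN₃ (by rw [h, zero_mul])
  have : NeZero N := ⟨hN⟩
  have hζN : IsPrimitiveRoot (ζ ^ c) N :=
    hζ.pow (Nat.pos_of_ne_zero hN₃) (mul_comm N c)
  have hsplit : ((X ^ N - 1 : L[X]).map (algebraMap L M')).Splits := by
    have := X_pow_sub_one_splits hζN
    simpa using this
  have := IsCyclotomicExtension.isSplittingField_X_pow_sub_one N L Mc
  exact ⟨IsSplittingField.lift Mc (X ^ N - 1 : L[X]) hsplit⟩

end Lift

section Nat

theorem pow_sub_one_dvd (q a b : ℕ) : q ^ a - 1 ∣ q ^ (a * b) - 1 := by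
  rw [pow_mul]
  simpa only [one_pow] using Nat.sub_dvd_pow_sub_pow (q ^ a) 1 b

end Nat

end Fermat.Agent.Lib.CFT.Local.LocalBrauer.Overfield
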