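/-
P-CFT, WP Local/LocalBrauer part 4 (helper43): characterization of the canonical local invariant
by arbitrary unramified test layers.
-/
import Mathlib
import Fermat.Agent.Lib.CFT.Local.LocalBrauer.Inv
import Fermat.Agent.Lib.CFT.Local.LocalBrauer.Overfield

set_option autoImplicit false
set_option linter.unusedSectionVars false
set_option linter.style.haveILetI false

namespace Fermat.Agent.Lib.CFT.Local.LocalBrauer.Inv

open CategoryTheory Rep groupCohomology IsLocalRing Module
open Fermat.Agent.Lib.CFT.Local Fermat.Agent.Lib.CFT.Local.Unramified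
open Fermat.Agent.Lib.CFT.Local.LocalBrauer.Compare
open Fermat.Agent.Lib.CFT.Local.LocalBrauer.Square

section Formal

variable (K L E Ec E₃ M Mc M' : Type) [Field K] [Field L] [Field E] [Field Ec] [Field E₃]
  [Field M] [Field Mc] [Field M']
  [Algebra K L] [Algebra K E] [Algebra K Ec] [Algebra K E₃] [Algebra K M] [Algebra K Mc]
  [Algebra K M']
  [Algebra L M] [IsScalarTower K L M] [Algebra E M] [IsScalarTower K E M]
  [Algebra L Mc] [IsScalarTower K L Mc] [Algebra Ec Mc] [IsScalarTower K Ec Mc]
  [Algebra M M'] [IsScalarTower K M M'] [Algebra Mc M'] [IsScalarTower K Mc M']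
  [Algebra E₃ M'] [IsScalarTower K E₃ M']
  [Algebra L M'] [IsScalarTower K L M'] [IsScalarTower L M M'] [IsScalarTower L Mc M']
  [Algebra E M'] [IsScalarTower K E M'] [IsScalarTower E M M']
  [Algebra Ec M'] [IsScalarTower K Ec M'] [IsScalarTower Ec Mc M']
  [Algebra E E₃] [IsScalarTower K E E₃] [IsScalarTower E E₃ M']
  [Algebra Ec E₃] [IsScalarTower K Ec E₃] [IsScalarTower Ec E₃ M']
  [Normal K L] [Normal K E] [Normal K Ec] [Normal K E₃] [Normal K M] [Normal K Mc]
  [FiniteDimensional K M'] [IsGalois K M']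

include M' in
/-- **Formal core of the characterization lemma**: two test data `(M, E, y)`, `(Mc, Ec, yc)` for the
same class `x ∈ H²(L/K)` which embed compatibly into `(M', E₃)` have the same inflation to
`H²(E₃/K)`. -/
theorem sqMap_eq_of_common (x : H2 (Rep.ofAlgebraAutOnUnits K L))
    (y : H2 (Rep.ofAlgebraAutOnUnits K E)) (yc : H2 (Rep.ofAlgebraAutOnUnits K Ec))
    (hy : sqMap K K E M 2 y = sqMap K K L M 2 x)
    (hyc : sqMap K K Ec Mc 2 yc = sqMap K K L Mc 2 x) :
    sqMap K K E E₃ 2 y = sqMap K K Ec E₃ 2 yc := by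
  have hinj : Function.Injective (sqMap K K E₃ M' 2) := by
    rw [sqMap_eq_infl]
    exact Tower.inflH2_injective K E₃ M'
  apply hinj
  rw [sqMap_comp_apply K K K E E₃ M', sqMap_comp_apply K K K Ec E₃ M',
    ← sqMap_comp_apply K K K E M M', ← sqMap_comp_apply K K K Ec Mc M', hy, hyc,
    sqMap_comp_apply K K K L M M', sqMap_comp_apply K K K L Mc M']

end Formal

section CL

variable (A K L : Type) [CommRing A] [IsDomain A] [IsDiscreteValuationRing A]
  [IsAdicComplete (maximalIdeal A) A] [Finite (ResidueField A)]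
  [Field K] [Algebra A K] [IsFractionRing A K]
  [Field L] [Algebra K L] [FiniteDimensional K L] [IsGalois K L]
  [Algebra A L] [IsScalarTower A K L]
  (E B M : Type)
  [Field E] [Algebra K E] [FiniteDimensional K E] [IsGalois K E]
  [Algebra A E] [IsScalarTower A K E]
  [CommRing B] [IsDomain B] [IsDiscreteValuationRing B] [Algebra A B] [Algebra B E]
  [IsScalarTower A B E] [IsIntegralClosure B A E] [IsFractionRing B E]
  [HenselianLocalRing B] [IsLocalHom (algebraMap A B)]
  [Field M] [Algebra K M] [Algebra L M] [IsScalarTower K L M] [Algebra E M] [IsScalarTower K E M]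
  [FiniteDimensional K M] [IsGalois K M]

theorem natCast_pow_sub_one_ne_zero (F : Type) [Field F] [Algebra K F] (k : ℕ) (hk : k ≠ 0) :
    ((Nat.card (ResidueField A) ^ k - 1 : ℕ) : F) ≠ 0 := by
  have hres : ((Nat.card (ResidueField A) ^ k - 1 : ℕ) : ResidueField A) ≠ 0 :=
    Teichmuller.natCast_natCard_pow_sub_one_ne_zero (ResidueField A) k hk
  have hK := natCast_ne_zero_of_residue_ne_zero A K hres
  intro h0
  apply hK
  apply (algebraMap K F).injective
  rw [map_natCast, map_zero]
  exact h0

section Aux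

variable (Ec Bc Mc : Type)
  [Field Ec] [Algebra K Ec] [FiniteDimensional K Ec] [IsGalois K Ec]
  [Algebra A Ec] [IsScalarTower A K Ec]
  [CommRing Bc] [IsDomain Bc] [IsDiscreteValuationRing Bc] [Algebra A Bc] [Algebra Bc Ec]
  [IsScalarTower A Bc Ec] [IsIntegralClosure Bc A Ec] [IsFractionRing Bc Ec]
  [HenselianLocalRing Bc] [IsLocalHom (algebraMap A Bc)]
  [Field Mc] [Algebra K Mc] [Algebra L Mc] [IsScalarTower K L Mc] [Algebra Ec Mc]
  [IsScalarTower K Ec Mc] [FiniteDimensional K Mc] [IsGalois K Mc]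
  (E₃ M' : Type) [Field E₃] [Field M'] [Algebra K E₃] [Algebra K M']
  [Algebra M M'] [IsScalarTower K M M'] [Algebra Mc M'] [IsScalarTower K Mc M']
  [Algebra E₃ M'] [IsScalarTower K E₃ M']
  [Algebra L M'] [IsScalarTower K L M'] [IsScalarTower L M M'] [IsScalarTower L Mc M']
  [Algebra E M'] [IsScalarTower K E M'] [IsScalarTower E M M']
  [Algebra Ec M'] [IsScalarTower K Ec M'] [IsScalarTower Ec Mc M']
  [Algebra E E₃] [IsScalarTower K E E₃] [IsScalarTower E E₃ M']
  [Algebra Ec E₃] [IsScalarTower K Ec E₃] [IsScalarTower Ec E₃ M']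
  [FiniteDimensional K M'] [IsGalois K M']
  [Algebra A E₃] [IsScalarTower A K E₃]

include M' in
/-- Two unramified test data for the same class, with a common overfield `M'` and a common
unramified layer `E₃ = K(μ_{q^k-1})`, have the same invariant. -/
theorem invUnr_eq_of_common (k : ℕ) (hk : k ≠ 0)
    [IsCyclotomicExtension {Nat.card (ResidueField A) ^ k - 1} K E₃]
    (h : IsUnram A B) (hc : IsUnram A Bc) (x : H2 (Rep.ofAlgebraAutOnUnits K L))
    (y : H2 (Rep.ofAlgebraAutOnUnits K E)) (yc : H2 (Rep.ofAlgebraAutOnUnits K Ec))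
    (hxy : Tower.inflH2 K E M y = Tower.inflH2 K L M x)
    (hxyc : Tower.inflH2 K Ec Mc yc = Tower.inflH2 K L Mc x) :
    invUnr A K E B h y = invUnr A K Ec Bc hc yc := by
  haveI : FiniteDimensional K E₃ :=
    IsCyclotomicExtension.finiteDimensional {Nat.card (ResidueField A) ^ k - 1} K E₃
  haveI : IsGalois K E₃ :=
    IsCyclotomicExtension.isGalois {Nat.card (ResidueField A) ^ k - 1} K E₃
  have hy : sqMap K K E M 2 y = sqMap K K L M 2 x := by
    rw [sqMap_eq_infl, sqMap_eq_infl]
    exact hxy
  have hyc : sqMap K K Ec Mc 2 yc = sqMap K K L Mc 2 x := by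
    rw [sqMap_eq_infl, sqMap_eq_infl]
    exact hxyc
  have key := sqMap_eq_of_common K L E Ec E₃ M Mc M' x y yc hy hyc
  rw [sqMap_eq_infl, sqMap_eq_infl] at key
  -- the block of `E₃`
  haveI := ext_isLocalRing A K E₃ (integralClosure A E₃)
  haveI := ext_isDiscreteValuationRing A K E₃ (integralClosure A E₃)
  haveI := ext_isFractionRing A K E₃ (integralClosure A E₃)
  haveI := ext_isAdicComplete A K E₃ (integralClosure A E₃)
  haveI := ext_isLocalHom A K E₃ (integralClosure A E₃)
  haveI : HenselianLocalRing (integralClosure A E₃) :=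
    LocalUnits.henselianLocalRing_of_isAdicComplete _
  obtain ⟨h₃, -⟩ := finrank_of_cyclotomic_of_complete A K E₃ (integralClosure A E₃) k hk
  have h1 := invUnr_infl_of_hom A K E B E₃ (integralClosure A E₃) h h₃ (Tower.ι K E E₃)
    (fun _ => rfl) y
  have h2 := invUnr_infl_of_hom A K Ec Bc E₃ (integralClosure A E₃) hc h₃ (Tower.ι K Ec E₃)
    (fun _ => rfl) yc
  rw [← h1, ← h2]
  exact congrArg (invUnr A K E₃ (integralClosure A E₃) h₃) key

end Aux


/-- **Characterization of the canonical invariant**: it is computed by any unramified test layer.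
`M/K` finite Galois containing `L` and an unramified extension `E/K` (block `(A, K, E, B)`);
if `y ∈ H²(E/K)` and `x ∈ H²(L/K)` have the same inflation to `M` then
`invLocal x = invUnr y`. -/
theorem invLocal_eq_of_test (h : IsUnram A B) (x : H2 (Rep.ofAlgebraAutOnUnits K L))
    (y : H2 (Rep.ofAlgebraAutOnUnits K E))
    (hxy : Tower.inflH2 K E M y = Tower.inflH2 K L M x) :
    invLocal A K L x = invUnr A K E B h y := by
  -- the orders
  have hn0 : finrank K L ≠ 0 := (finrank_pos (R := K) (M := L)).ne'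
  have hm0 : finrank K E ≠ 0 := (finrank_pos (R := K) (M := E)).ne'
  have hk0 : finrank K L * finrank K E ≠ 0 := mul_ne_zero hn0 hm0
  set N₃ : ℕ := Nat.card (ResidueField A) ^ (finrank K L * finrank K E) - 1 with hN₃def
  have hN₃M : (N₃ : M) ≠ 0 := natCast_pow_sub_one_ne_zero A K M _ hk0
  have hN₃ : N₃ ≠ 0 := by
    rintro h0
    rw [h0] at hN₃M
    exact hN₃M Nat.cast_zero
  have hdvdc : cycOrder A K L ∣ N₃ := Overfield.pow_sub_one_dvd _ _ _
  have hdvdE : Nat.card (ResidueField A) ^ finrank K E - 1 ∣ N₃ := by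
    rw [hN₃def, mul_comm]
    exact Overfield.pow_sub_one_dvd _ _ _
  have hcycE : IsCyclotomicExtension {Nat.card (ResidueField A) ^ finrank K E - 1} K E :=
    isCyclotomicExtension_of_isUnram A K E B h
  -- the big field
  haveI : NeZero (N₃ : M) := ⟨hN₃M⟩
  haveI : NeZero N₃ := ⟨hN₃⟩
  haveI hcycM' : IsCyclotomicExtension {N₃} M (CyclotomicField N₃ M) :=
    CyclotomicField.isCyclotomicExtension N₃ M
  haveI : FiniteDimensional M (CyclotomicField N₃ M) :=
    IsCyclotomicExtension.finiteDimensional {N₃} M _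
  haveI : FiniteDimensional K (CyclotomicField N₃ M) := Module.Finite.trans M _
  haveI : IsGalois K (CyclotomicField N₃ M) :=
    isGalois_of_cyclotomic_tower K M (CyclotomicField N₃ M) N₃
  haveI : IsScalarTower K L (CyclotomicField N₃ M) :=
    Overfield.isScalarTower_bot K L M (CyclotomicField N₃ M)
  haveI : IsScalarTower K E (CyclotomicField N₃ M) :=
    Overfield.isScalarTower_bot K E M (CyclotomicField N₃ M)
  obtain ⟨ζ₃, hζ₃⟩ := IsCyclotomicExtension.exists_isPrimitiveRoot M (CyclotomicField N₃ M)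
    (Set.mem_singleton N₃) hN₃
  -- the canonical field embeds
  obtain ⟨j⟩ := Overfield.exists_algHom_of_isPrimitiveRoot L (CanM A K L) (CyclotomicField N₃ M)
    (cycOrder A K L) N₃ hdvdc hN₃ hζ₃
  letI : Algebra (CanM A K L) (CyclotomicField N₃ M) := j.toRingHom.toAlgebra
  haveI : IsScalarTower L (CanM A K L) (CyclotomicField N₃ M) :=
    IsScalarTower.of_algebraMap_eq fun x => (j.commutes x).symm
  haveI : IsScalarTower K (CanM A K L) (CyclotomicField N₃ M) :=
    Overfield.isScalarTower_top K L (CanM A K L) (CyclotomicField N₃ M)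
  letI : Algebra (canE A K L) (CyclotomicField N₃ M) :=
    ((algebraMap (CanM A K L) (CyclotomicField N₃ M)).comp
      (algebraMap (canE A K L) (CanM A K L))).toAlgebra
  haveI := IsScalarTower.of_algebraMap_eq (R := canE A K L) (S := CanM A K L)
    (A := CyclotomicField N₃ M) fun _ => rfl
  haveI := Overfield.isScalarTower_bot K (canE A K L) (CanM A K L) (CyclotomicField N₃ M)
  -- the common unramified layer
  haveI hcycE₃ : IsCyclotomicExtension {N₃} K
      (IntermediateField.adjoin K
        {z : CyclotomicField N₃ M | ∃ n ∈ ({N₃} : Set ℕ), n ≠ 0 ∧ z ^ n = 1}) :=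
    IntermediateField.isCyclotomicExtension_adjoin_of_exists_isPrimitiveRoot {N₃} K _
      (fun n hn _ => by
        rw [Set.mem_singleton_iff] at hn
        subst hn
        exact ⟨ζ₃, hζ₃⟩)
  have hmemE := Overfield.algebraMap_mem_adjoin_of_dvd K E (CyclotomicField N₃ M) _ N₃ hdvdE hN₃
  have hmemc := Overfield.algebraMap_mem_adjoin_of_dvd K (canE A K L) (CyclotomicField N₃ M)
    (cycOrder A K L) N₃ hdvdc hN₃
  letI : Algebra E (IntermediateField.adjoin K
      {z : CyclotomicField N₃ M | ∃ n ∈ ({N₃} : Set ℕ), n ≠ 0 ∧ z ^ n = 1}) :=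
    Overfield.algebraOfMem _ hmemE
  haveI := Overfield.isScalarTower_ofMem_left _ hmemE
  haveI := Overfield.isScalarTower_ofMem_right _ hmemE
  letI : Algebra (canE A K L) (IntermediateField.adjoin K
      {z : CyclotomicField N₃ M | ∃ n ∈ ({N₃} : Set ℕ), n ≠ 0 ∧ z ^ n = 1}) :=
    Overfield.algebraOfMem _ hmemc
  haveI := Overfield.isScalarTower_ofMem_left _ hmemc
  haveI := Overfield.isScalarTower_ofMem_right _ hmemc
  letI : Algebra A (IntermediateField.adjoin K
      {z : CyclotomicField N₃ M | ∃ n ∈ ({N₃} : Set ℕ), n ≠ 0 ∧ z ^ n = 1}) :=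
    ((algebraMap K _).comp (algebraMap A K)).toAlgebra
  haveI := IsScalarTower.of_algebraMap_eq (R := A) (S := K)
    (A := IntermediateField.adjoin K
      {z : CyclotomicField N₃ M | ∃ n ∈ ({N₃} : Set ℕ), n ≠ 0 ∧ z ^ n = 1}) fun _ => rfl
  -- the block of `canE`
  haveI := canE_isLocalRing A K L
  haveI := ext_isDiscreteValuationRing A K (canE A K L) (integralClosure A (canE A K L))
  haveI := ext_isFractionRing A K (canE A K L) (integralClosure A (canE A K L))
  haveI := ext_isAdicComplete A K (canE A K L) (integralClosure A (canE A K L))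
  haveI := ext_isLocalHom A K (canE A K L) (integralClosure A (canE A K L))
  haveI : HenselianLocalRing (integralClosure A (canE A K L)) :=
    LocalUnits.henselianLocalRing_of_isAdicComplete _
  have key := invUnr_eq_of_common A K L E B M (canE A K L) (integralClosure A (canE A K L))
    (CanM A K L)
    (IntermediateField.adjoin K
      {z : CyclotomicField N₃ M | ∃ n ∈ ({N₃} : Set ℕ), n ≠ 0 ∧ z ^ n = 1})
    (CyclotomicField N₃ M) (finrank K L * finrank K E) hk0 h
    (canE_isUnram_and_finrank A K L).1 x y (cmp A K L x) hxy (inflH2_cmp A K L x)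
  rw [key]
  rfl

end CL

end Fermat.Agent.Lib.CFT.Local.LocalBrauer.Inv
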