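/-
P-CFT, WP Local/LocalBrauer part 4 (helper43): functorial properties of the canonical local
invariant: unramified formula, compatibility with inflation, behaviour under restriction.
-/
import Mathlib
import Fermat.Agent.Lib.CFT.Local.LocalBrauer.InvChar

set_option autoImplicit false
set_option linter.unusedSectionVars false
set_option linter.style.haveILetI false

namespace Fermat.Agent.Lib.CFT.Local.LocalBrauer.Inv

open CategoryTheory Rep groupCohomology IsLocalRing Module
open Fermat.Agent.Lib.CFT.Local Fermat.Agent.Lib.CFT.Local.Unramified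
open Fermat.Agent.Lib.CFT.Local.LocalBrauer.Compare
open Fermat.Agent.Lib.CFT.Local.LocalBrauer.Square

section Unramified

variable (A K L B : Type) [CommRing A] [IsDomain A] [IsDiscreteValuationRing A]
  [IsAdicComplete (maximalIdeal A) A] [Finite (ResidueField A)]
  [Field K] [Algebra A K] [IsFractionRing A K]
  [Field L] [Algebra K L] [FiniteDimensional K L] [IsGalois K L]
  [Algebra A L] [IsScalarTower A K L]
  [CommRing B] [IsDomain B] [IsDiscreteValuationRing B] [Algebra A B] [Algebra B L]
  [IsScalarTower A B L] [IsIntegralClosure B A L] [IsFractionRing B L]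
  [HenselianLocalRing B] [IsLocalHom (algebraMap A B)]

/-- **Unramified formula**: for an unramified extension the canonical invariant is helper59's
`invUnr` (value of the character of the class at the Frobenius). -/
theorem invLocal_eq_invUnr (h : IsUnram A B) (x : H2 (Rep.ofAlgebraAutOnUnits K L)) :
    invLocal A K L x = invUnr A K L B h x :=
  invLocal_eq_of_test A K L L B L h x x rfl

end Unramified

section Inflation

variable (A K L L' : Type) [CommRing A] [IsDomain A] [IsDiscreteValuationRing A]
  [IsAdicComplete (maximalIdeal A) A] [Finite (ResidueField A)]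
  [Field K] [Algebra A K] [IsFractionRing A K]
  [Field L] [Algebra K L] [FiniteDimensional K L] [IsGalois K L]
  [Algebra A L] [IsScalarTower A K L]
  [Field L'] [Algebra K L'] [FiniteDimensional K L'] [IsGalois K L']
  [Algebra A L'] [IsScalarTower A K L']
  [Algebra L L'] [IsScalarTower K L L']

/-- **Compatibility with inflation**: for `K ⊆ L ⊆ L'` (both Galois over `K`),
`inv_{L'/K} (infl x) = inv_{L/K} x`. -/
theorem invLocal_infl (x : H2 (Rep.ofAlgebraAutOnUnits K L)) :
    invLocal A K L' (Tower.inflH2 K L L' x) = invLocal A K L x := by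
  haveI := Overfield.isScalarTower_bot K L L' (CanM A K L')
  haveI := canE_isLocalRing A K L'
  haveI := ext_isDiscreteValuationRing A K (canE A K L') (integralClosure A (canE A K L'))
  haveI := ext_isFractionRing A K (canE A K L') (integralClosure A (canE A K L'))
  haveI := ext_isAdicComplete A K (canE A K L') (integralClosure A (canE A K L'))
  haveI := ext_isLocalHom A K (canE A K L') (integralClosure A (canE A K L'))
  haveI : HenselianLocalRing (integralClosure A (canE A K L')) :=
    LocalUnits.henselianLocalRing_of_isAdicComplete _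
  have hxy : Tower.inflH2 K (canE A K L') (CanM A K L')
      (cmp A K L' (Tower.inflH2 K L L' x)) = Tower.inflH2 K L (CanM A K L') x := by
    rw [inflH2_cmp]
    have := sqMap_comp_apply K K K L L' (CanM A K L') 2 x
    rw [sqMap_eq_infl, sqMap_eq_infl, sqMap_eq_infl] at this
    exact this
  have key := invLocal_eq_of_test A K L (canE A K L') (integralClosure A (canE A K L'))
    (CanM A K L') (canE_isUnram_and_finrank A K L').1 x
    (cmp A K L' (Tower.inflH2 K L L' x)) hxy
  rw [key]
  rfl

/-- The same for any morphism of coefficients inducing `Lˣ → L'ˣ` (shape of helper59's contract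
`LocalInvTheoryGal.inv_infl`). -/
theorem invLocal_infl_of_hom
    (j : Rep.res (AlgEquiv.restrictNormalHom (F := K) (K₁ := L') L)
      (Rep.ofAlgebraAutOnUnits K L) ⟶ Rep.ofAlgebraAutOnUnits K L')
    (hj : ∀ x : Additive Lˣ, j.hom x =
      (Additive.ofMul (Units.map (algebraMap L L' : L →* L') (Additive.toMul (α := Lˣ) x)) :
        Additive L'ˣ))
    (x : H2 (Rep.ofAlgebraAutOnUnits K L)) :
    invLocal A K L' (groupCohomology.map (AlgEquiv.restrictNormalHom (F := K) (K₁ := L') L) j 2 x) =
      invLocal A K L x := by
  have hjι : j = Tower.ι K L L' :=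
    Rep.hom_ext (Representation.IntertwiningMap.ext (LinearMap.ext fun a => hj a))
  subst hjι
  exact invLocal_infl A K L L' x

end Inflation

section Restriction

variable (A K L : Type) [CommRing A] [IsDomain A] [IsDiscreteValuationRing A]
  [IsAdicComplete (maximalIdeal A) A] [Finite (ResidueField A)]
  [Field K] [Algebra A K] [IsFractionRing A K]
  [Field L] [Algebra K L] [FiniteDimensional K L] [IsGalois K L]
  [Algebra A L] [IsScalarTower A K L]
  (A' K' : Type) [CommRing A'] [IsDomain A'] [IsDiscreteValuationRing A']
  [IsAdicComplete (maximalIdeal A') A'] [Finite (ResidueField A')]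
  [Field K'] [Algebra A' K'] [IsFractionRing A' K']
  [Algebra K K'] [FiniteDimensional K K'] [Algebra.IsSeparable K K']
  [Algebra A A'] [Algebra A K'] [IsScalarTower A K K'] [IsScalarTower A A' K']
  [IsIntegralClosure A' A K']
  [Algebra K' L] [IsScalarTower K K' L] [FiniteDimensional K' L] [IsGalois K' L]
  [Algebra A' L] [IsScalarTower A' K' L]

section OfTest

variable (E B M : Type)
  [Field E] [Algebra K E] [FiniteDimensional K E] [IsGalois K E]
  [Algebra A E] [IsScalarTower A K E]
  [CommRing B] [IsDomain B] [IsDiscreteValuationRing B] [Algebra A B] [Algebra B E]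
  [IsScalarTower A B E] [IsIntegralClosure B A E] [IsFractionRing B E]
  [HenselianLocalRing B] [IsLocalHom (algebraMap A B)]
  [Field M] [Algebra K M] [Algebra L M] [IsScalarTower K L M] [Algebra E M] [IsScalarTower K E M]
  [FiniteDimensional K M] [IsGalois K M]
  (E' B' : Type)
  [Field E'] [Algebra K' E'] [FiniteDimensional K' E'] [IsGalois K' E']
  [Algebra A' E'] [IsScalarTower A' K' E']
  [CommRing B'] [IsDomain B'] [IsDiscreteValuationRing B'] [Algebra A' B'] [Algebra B' E']
  [IsScalarTower A' B' E'] [IsIntegralClosure B' A' E'] [IsFractionRing B' E']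
  [HenselianLocalRing B'] [IsLocalHom (algebraMap A' B')]
  [Algebra K' M] [IsScalarTower K K' M] [IsScalarTower K' L M] [Algebra E' M]
  [IsScalarTower K' E' M] [FiniteDimensional K' M] [IsGalois K' M]
  [Algebra E E'] [Algebra K E'] [IsScalarTower K E E'] [IsScalarTower K K' E']
  [IsScalarTower E E' M]

include E' in
set_option maxHeartbeats 1600000 in
/-- Restriction of a test datum: if `(M, E, y)` is an unramified test datum for `x ∈ H²(L/K)` and
`E' ⊇ E` is unramified over `K'` inside `M`, then `inv_{L/K'} (res x) = [K' : K] • inv_{E/K} y`. -/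
theorem invLocal_rest_of_test (h : IsUnram A B) (h' : IsUnram A' B')
    (x : H2 (Rep.ofAlgebraAutOnUnits K L)) (y : H2 (Rep.ofAlgebraAutOnUnits K E))
    (hxy : Tower.inflH2 K E M y = Tower.inflH2 K L M x) :
    invLocal A' K' L (sqMap K K' L L 2 x) = finrank K K' • invUnr A K E B h y := by
  have hy : sqMap K K E M 2 y = sqMap K K L M 2 x := by
    rw [sqMap_eq_infl, sqMap_eq_infl]
    exact hxy
  have hxy' : Tower.inflH2 K' E' M (sqMap K K' E E' 2 y) =
      Tower.inflH2 K' L M (sqMap K K' L L 2 x) := by
    have h1 := sqMap_comp_apply K K' K' E E' M 2 y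
    have h2 := sqMap_comp_apply K K K' E M M 2 y
    have h3 := sqMap_comp_apply K K K' L M M 2 x
    have h4 := sqMap_comp_apply K K' K' L L M 2 x
    rw [sqMap_eq_infl] at h1 h4
    rw [h1, h4, ← h2, ← h3, hy]
  have key := invLocal_eq_of_test A' K' L E' B' M h' (sqMap K K' L L 2 x)
    (sqMap K K' E E' 2 y) hxy'
  rw [key]
  exact invUnr_baseChange_hom A K E B A' K' E' B' h h' (sqι K K' E E') (fun _ => rfl) y

end OfTest

section InclOfMem

variable {K K' M : Type*} [Field K] [Field K'] [Field M] [Algebra K K'] [Algebra K M]
  [Algebra K' M] [IsScalarTower K K' M]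
  (E : IntermediateField K M) (E' : IntermediateField K' M) (hmem : ∀ x : E, (x : M) ∈ E')

/-- The inclusion `E → E'` of an intermediate field of `M/K` into an intermediate field of
`M/K'` containing it. -/
def inclOfMem : E →+* E' where
  toFun x := ⟨(x : M), hmem x⟩
  map_one' := rfl
  map_mul' _ _ := rfl
  map_zero' := rfl
  map_add' _ _ := rfl

/-- The `E`-algebra structure of `E'`. -/
@[instance_reducible]
def algebraIncl : Algebra E E' := (inclOfMem E E' hmem).toAlgebra

/-- The `K`-algebra structure of `E'`. -/
@[instance_reducible]
def algebraBase : Algebra K E' := ((algebraMap K' E').comp (algebraMap K K')).toAlgebra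

theorem isScalarTower_incl_top :
    @IsScalarTower E E' M (algebraIncl E E' hmem).toSMul _ _ :=
  letI := algebraIncl E E' hmem
  IsScalarTower.of_algebraMap_eq fun _ => rfl

theorem isScalarTower_base :
    @IsScalarTower K K' E' _ _ (algebraBase (K := K) E').toSMul :=
  letI := algebraBase (K := K) E'
  IsScalarTower.of_algebraMap_eq fun _ => rfl

theorem isScalarTower_incl_bot :
    @IsScalarTower K E E' _ (algebraIncl E E' hmem).toSMul (algebraBase (K := K) E').toSMul :=
  letI := algebraIncl E E' hmem
  letI := algebraBase (K := K) E'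
  IsScalarTower.of_algebraMap_eq fun k => by
    apply Subtype.ext
    change algebraMap K' M (algebraMap K K' k) = algebraMap K M k
    rw [← IsScalarTower.algebraMap_apply K K' M]

end InclOfMem

/-- The unramified layer `K'(μ_{q^n-1})` over `K'` inside `CanM = L(μ_{q^n-1})`. -/
noncomputable abbrev resE : IntermediateField K' (CanM A K L) :=
  IntermediateField.adjoin K'
    {z : CanM A K L | ∃ n ∈ ({cycOrder A K L} : Set ℕ), n ≠ 0 ∧ z ^ n = 1}

theorem canE_le_resE (x : canE A K L) : (x : CanM A K L) ∈ resE A K L K' := by
  haveI : IsScalarTower K K' (CanM A K L) := Overfield.isScalarTower_bot K K' L (CanM A K L)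
  have hle : canE A K L ≤ (resE A K L K').restrictScalars K := by
    unfold canE
    rw [IntermediateField.adjoin_le_iff]
    intro z hz
    exact IntermediateField.subset_adjoin K' _ hz
  exact hle x.2

set_option maxHeartbeats 1600000 in
/-- **Restriction multiplies the canonical invariant by the degree**: for `K ⊆ K' ⊆ L` with `L/K`
finite Galois, `inv_{L/K'} (res x) = [K' : K] • inv_{L/K} x`. -/
theorem invLocal_rest (x : H2 (Rep.ofAlgebraAutOnUnits K L)) :
    invLocal A' K' L (sqMap K K' L L 2 x) = finrank K K' • invLocal A K L x := by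
  have hn0 : finrank K L ≠ 0 := (finrank_pos (R := K) (M := L)).ne'
  -- the big field as a `K'`-algebra
  haveI : IsScalarTower K K' (CanM A K L) := Overfield.isScalarTower_bot K K' L (CanM A K L)
  haveI : FiniteDimensional K' (CanM A K L) := Module.Finite.trans L _
  haveI : IsGalois K' (CanM A K L) := IsGalois.tower_top_of_isGalois K K' (CanM A K L)
  -- the unramified layer over `K'`
  have hN0 : cycOrder A K L ≠ 0 := cycOrder_ne_zero A K L
  obtain ⟨ζ, hζ⟩ := IsCyclotomicExtension.exists_isPrimitiveRoot L (CanM A K L)
    (Set.mem_singleton (cycOrder A K L)) hN0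
  haveI hcycE' : IsCyclotomicExtension {cycOrder A K L} K' (resE A K L K') :=
    IntermediateField.isCyclotomicExtension_adjoin_of_exists_isPrimitiveRoot {cycOrder A K L} K' _
      (fun n hn _ => by
        rw [Set.mem_singleton_iff] at hn
        subst hn
        exact ⟨ζ, hζ⟩)
  haveI : FiniteDimensional K' (resE A K L K') :=
    IsCyclotomicExtension.finiteDimensional {cycOrder A K L} K' _
  haveI : IsGalois K' (resE A K L K') :=
    IsCyclotomicExtension.isGalois {cycOrder A K L} K' _
  letI : Algebra A' (resE A K L K') :=
    ((algebraMap K' (resE A K L K')).comp (algebraMap A' K')).toAlgebra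
  haveI := IsScalarTower.of_algebraMap_eq (R := A') (S := K')
    (A := resE A K L K') fun _ => rfl
  -- `canE ⊆ E'`
  have hmem := canE_le_resE A K L K'
  letI := algebraIncl (canE A K L) (resE A K L K') hmem
  letI := algebraBase (K := K) (resE A K L K')
  haveI := isScalarTower_incl_top (canE A K L) (resE A K L K') hmem
  haveI := isScalarTower_base (K := K) (resE A K L K')
  haveI := isScalarTower_incl_bot (canE A K L) (resE A K L K') hmem
  -- the block of `E'`
  haveI := ext_isLocalRing A' K' (resE A K L K') (integralClosure A' (resE A K L K'))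
  haveI := ext_isDiscreteValuationRing A' K' (resE A K L K')
    (integralClosure A' (resE A K L K'))
  haveI := ext_isFractionRing A' K' (resE A K L K') (integralClosure A' (resE A K L K'))
  haveI := ext_isAdicComplete A' K' (resE A K L K') (integralClosure A' (resE A K L K'))
  haveI := ext_isLocalHom A' K' (resE A K L K') (integralClosure A' (resE A K L K'))
  haveI : HenselianLocalRing (integralClosure A' (resE A K L K')) :=
    LocalUnits.henselianLocalRing_of_isAdicComplete _
  have hNres : ((cycOrder A K L : ℕ) : ResidueField A') ≠ 0 :=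
    natCast_residueField_ne_zero_of_base A K K' A'
      (Teichmuller.natCast_natCard_pow_sub_one_ne_zero (ResidueField A) (finrank K L) hn0)
  have h' : IsUnram A' (integralClosure A' (resE A K L K')) :=
    isUnram_of_cyclotomic_of_complete A' K' (resE A K L K') _ (cycOrder A K L) hNres
  -- the block of `canE`
  haveI := canE_isLocalRing A K L
  haveI := ext_isDiscreteValuationRing A K (canE A K L) (integralClosure A (canE A K L))
  haveI := ext_isFractionRing A K (canE A K L) (integralClosure A (canE A K L))
  haveI := ext_isAdicComplete A K (canE A K L) (integralClosure A (canE A K L))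
  haveI := ext_isLocalHom A K (canE A K L) (integralClosure A (canE A K L))
  haveI : HenselianLocalRing (integralClosure A (canE A K L)) :=
    LocalUnits.henselianLocalRing_of_isAdicComplete _
  have key := invLocal_rest_of_test A K L A' K' (canE A K L) (integralClosure A (canE A K L))
    (CanM A K L) (resE A K L K') (integralClosure A' (resE A K L K'))
    (canE_isUnram_and_finrank A K L).1 h' x (cmp A K L x) (inflH2_cmp A K L x)
  rw [key]
  rfl

/-- The same for any morphism of coefficients inducing the identity of `Lˣ` (shape of helper59's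
contract `LocalInvTheoryGal.inv_res`; `towerHom K L K' L = sqπ K K' L L` by definition). -/
theorem invLocal_rest_of_hom
    (j : Rep.res (towerHom K L K' L) (Rep.ofAlgebraAutOnUnits K L) ⟶
      Rep.ofAlgebraAutOnUnits K' L)
    (hj : ∀ x : Additive Lˣ, j.hom x = x)
    (x : H2 (Rep.ofAlgebraAutOnUnits K L)) :
    invLocal A' K' L (groupCohomology.map (towerHom K L K' L) j 2 x) =
      finrank K K' • invLocal A K L x := by
  have hjι : j = sqι K K' L L :=
    Rep.hom_ext (Representation.IntertwiningMap.ext (LinearMap.ext fun a =>
      (hj a).trans (congrArg Additive.ofMul (Units.ext rfl))))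
  subst hjι
  exact invLocal_rest A K L A' K' x

end Restriction

end Fermat.Agent.Lib.CFT.Local.LocalBrauer.Inv
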