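/-
P-CFT, WP Local/LocalBrauer (helper59), part 6: the canonical block of a finite extension of `ℚ_p`.

For a field `E` finite over `ℚ_[p]`, `intRing p E : Subring E` is the ring of integers (elements
integral over `ℤ_[p]`), a complete discrete valuation ring with finite residue field and fraction
field `E`; for a tower `E ⊆ F` (with `[IsScalarTower ℚ_[p] E F]`) the pair
`(intRing p E, intRing p F)` is an `AKLB` block (`IsIntegralClosure`, `IsScalarTower`, local hom).
All instances needed by `invUnr` and helper43's block-parametrized `invLocal` are provided, so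
the local invariants of `p`-adic fields need no ring arguments.
-/
import Mathlib
import Fermat.Agent.Lib.CFT.Local.Basic
import Fermat.Agent.Lib.CFT.Local.Unramified
import Fermat.Agent.Lib.CFT.Local.LocalBrauer.UnramBaseChange

set_option autoImplicit false
set_option linter.unusedSectionVars false

namespace Fermat.Agent.Lib.CFT.Local.LocalBrauer.PadicBlock

open IsLocalRing

variable (p : ℕ) [Fact p.Prime]

section Single

variable (E : Type) [Field E] [Algebra ℚ_[p] E]

/-- the structure map `ℤ_p → E` of a `ℚ_p`-algebra. -/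
noncomputable def zpHom : ℤ_[p] →+* E := (algebraMap ℚ_[p] E).comp (algebraMap ℤ_[p] ℚ_[p])

/-- the `ℤ_p`-algebra structure of a `ℚ_p`-algebra (deliberately not an instance). -/
@[reducible] noncomputable def zpAlgebra : Algebra ℤ_[p] E := (zpHom p E).toAlgebra

/-- **The ring of integers** of a `ℚ_p`-algebra `E` (for us: a finite extension of `ℚ_p`): the
elements integral over `ℤ_p`, as a subring of `E`. -/
noncomputable def intRing : Subring E where
  carrier := {x | (zpHom p E).IsIntegralElem x}
  mul_mem' hx hy := hx.mul _ hy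
  one_mem' := (zpHom p E).isIntegralElem_one
  add_mem' hx hy := hx.add _ hy
  zero_mem' := (zpHom p E).isIntegralElem_zero
  neg_mem' hx := hx.neg _

theorem mem_intRing_iff (x : E) : x ∈ intRing p E ↔ (zpHom p E).IsIntegralElem x := Iff.rfl

/-- the structure map `ℤ_p → 𝒪_E`. -/
noncomputable def zpIntHom : ℤ_[p] →+* intRing p E :=
  (zpHom p E).codRestrict (intRing p E) (fun _ => (zpHom p E).isIntegralElem_map)

/-- the `ℤ_p`-algebra structure of `𝒪_E` (not an instance). -/
@[reducible] noncomputable def zpIntAlgebra : Algebra ℤ_[p] (intRing p E) := (zpIntHom p E).toAlgebra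

theorem zp_isScalarTower :
    @IsScalarTower ℤ_[p] ℚ_[p] E _ _ (zpAlgebra p E).toSMul :=
  letI := zpAlgebra p E
  IsScalarTower.of_algebraMap_eq (fun _ => rfl)

theorem zpInt_isScalarTower :
    @IsScalarTower ℤ_[p] (intRing p E) E (zpIntAlgebra p E).toSMul _ (zpAlgebra p E).toSMul :=
  letI := zpAlgebra p E
  letI := zpIntAlgebra p E
  IsScalarTower.of_algebraMap_eq (fun _ => rfl)

theorem zpInt_isIntegralClosure :
    @IsIntegralClosure (intRing p E) ℤ_[p] E _ _ _ (zpAlgebra p E) _ :=
  letI := zpAlgebra p E
  ⟨Subtype.val_injective, fun {x} => ⟨fun hx => ⟨⟨x, hx⟩, rfl⟩, by rintro ⟨y, rfl⟩; exact y.2⟩⟩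

end Single

section Finite

variable (E : Type) [Field E] [Algebra ℚ_[p] E] [FiniteDimensional ℚ_[p] E]

theorem finite_residueField_zp : Finite (ResidueField ℤ_[p]) :=
  Finite.of_equiv (ZMod p) PadicInt.residueField.symm.toEquiv

instance intRing_isDiscreteValuationRing : IsDiscreteValuationRing (intRing p E) :=
  letI := zpAlgebra p E
  letI := zpIntAlgebra p E
  haveI := zp_isScalarTower p E
  haveI := zpInt_isScalarTower p E
  haveI := zpInt_isIntegralClosure p E
  Local.ext_isDiscreteValuationRing ℤ_[p] ℚ_[p] E (intRing p E)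

instance intRing_isFractionRing : IsFractionRing (intRing p E) E :=
  letI := zpAlgebra p E
  letI := zpIntAlgebra p E
  haveI := zp_isScalarTower p E
  haveI := zpInt_isScalarTower p E
  haveI := zpInt_isIntegralClosure p E
  Local.ext_isFractionRing ℤ_[p] ℚ_[p] E (intRing p E)

instance intRing_isAdicComplete : IsAdicComplete (maximalIdeal (intRing p E)) (intRing p E) :=
  letI := zpAlgebra p E
  letI := zpIntAlgebra p E
  haveI := zp_isScalarTower p E
  haveI := zpInt_isScalarTower p E
  haveI := zpInt_isIntegralClosure p E
  Local.ext_isAdicComplete ℤ_[p] ℚ_[p] E (intRing p E)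

instance intRing_henselianLocalRing : HenselianLocalRing (intRing p E) :=
  Unramified.henselianLocalRing_of_isAdicComplete (intRing p E)

instance intRing_finite_residueField : Finite (ResidueField (intRing p E)) :=
  letI := zpAlgebra p E
  letI := zpIntAlgebra p E
  haveI := zp_isScalarTower p E
  haveI := zpInt_isScalarTower p E
  haveI := zpInt_isIntegralClosure p E
  haveI := finite_residueField_zp p
  haveI := Local.ext_finite ℤ_[p] ℚ_[p] E (intRing p E)
  haveI := Local.ext_isLocalHom ℤ_[p] ℚ_[p] E (intRing p E)
  IsLocalRing.ResidueField.finite_of_finite (R := ℤ_[p]) (S := intRing p E) ‹_›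

end Finite

section Pair

variable (E F : Type) [Field E] [Algebra ℚ_[p] E] [Field F] [Algebra ℚ_[p] F]
  [Algebra E F] [IsScalarTower ℚ_[p] E F]

theorem algebraMap_zpHom (a : ℤ_[p]) : algebraMap E F (zpHom p E a) = zpHom p F a :=
  (IsScalarTower.algebraMap_apply ℚ_[p] E F _).symm

theorem algebraMap_mem_intRing {x : E} (hx : x ∈ intRing p E) : algebraMap E F x ∈ intRing p F := by
  obtain ⟨P, hP, hx0⟩ := hx
  refine ⟨P, hP, ?_⟩
  have h := Polynomial.hom_eval₂ P (zpHom p E) (algebraMap E F) x
  rw [hx0, map_zero] at h
  rw [h]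
  congr 1
  exact RingHom.ext fun a => (algebraMap_zpHom p E F a).symm

/-- the ring hom `𝒪_E → 𝒪_F`. -/
noncomputable def intRingHom : intRing p E →+* intRing p F :=
  ((algebraMap E F).comp (intRing p E).subtype).codRestrict (intRing p F)
    (fun x => algebraMap_mem_intRing p E F x.2)

noncomputable instance (priority := 900) intRingAlgebra : Algebra (intRing p E) (intRing p F) :=
  (intRingHom p E F).toAlgebra

theorem coe_algebraMap_intRing (x : intRing p E) :
    ((algebraMap (intRing p E) (intRing p F) x : intRing p F) : F) = algebraMap E F (x : E) := rfl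

instance intRing_isScalarTower : IsScalarTower (intRing p E) (intRing p F) F :=
  IsScalarTower.of_algebraMap_eq (fun _ => rfl)

instance intRing_isScalarTower' : IsScalarTower (intRing p E) E F :=
  IsScalarTower.of_algebraMap_eq (fun _ => rfl)

instance intRing_isIntegralClosure : IsIntegralClosure (intRing p F) (intRing p E) F :=
  letI := zpAlgebra p F
  letI := zpIntAlgebra p E
  letI := zpAlgebra p E
  haveI : IsScalarTower ℤ_[p] (intRing p E) F :=
    IsScalarTower.of_algebraMap_eq (fun a => (algebraMap_zpHom p E F a).symm)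
  haveI := zpInt_isScalarTower p E
  haveI := zpInt_isIntegralClosure p E
  haveI := zpInt_isIntegralClosure p F
  haveI : Algebra.IsIntegral ℤ_[p] (intRing p E) := IsIntegralClosure.isIntegral_algebra ℤ_[p] E
  IsIntegralClosure.tower_top (R := ℤ_[p]) (A := intRing p E) (B := F) (C := intRing p F)

end Pair

section PairFinite

variable (E F : Type) [Field E] [Algebra ℚ_[p] E] [FiniteDimensional ℚ_[p] E]
  [Field F] [Algebra ℚ_[p] F] [FiniteDimensional ℚ_[p] F]
  [Algebra E F] [IsScalarTower ℚ_[p] E F]

include p in
theorem finiteDimensional_pair : FiniteDimensional E F := FiniteDimensional.right ℚ_[p] E F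

include p in
theorem charZero_of_padic : CharZero E :=
  charZero_of_injective_algebraMap (algebraMap ℚ_[p] E).injective

include p in
theorem isSeparable_pair : Algebra.IsSeparable E F :=
  haveI := finiteDimensional_pair p E F
  haveI := charZero_of_padic p E
  inferInstance

instance intRing_isLocalHom : IsLocalHom (algebraMap (intRing p E) (intRing p F)) :=
  haveI := finiteDimensional_pair p E F
  haveI := isSeparable_pair p E F
  Local.ext_isLocalHom (intRing p E) E F (intRing p F)

theorem intRing_module_finite : Module.Finite (intRing p E) (intRing p F) :=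
  haveI := finiteDimensional_pair p E F
  haveI := isSeparable_pair p E F
  Local.ext_finite (intRing p E) E F (intRing p F)

/-- `F/E` is unramified. -/
def IsUnramP : Prop := Unramified.IsUnram (intRing p E) (intRing p F)

variable [FiniteDimensional E F] [IsGalois E F]

/-- the invariant map of an unramified Galois extension of finite extensions of `ℚ_p`. -/
noncomputable def invUnrP (h : IsUnramP p E F) : groupCohomology.H2 (Rep.ofAlgebraAutOnUnits E F) →+ QZ :=
  invUnr (intRing p E) E F (intRing p F) h

theorem invUnrP_def (h : IsUnramP p E F) :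
    invUnrP p E F h = invUnr (intRing p E) E F (intRing p F) h := rfl

theorem invUnrP_injective (h : IsUnramP p E F) : Function.Injective (invUnrP p E F h) :=
  invUnr_injective (intRing p E) E F (intRing p F) h

theorem finrank_nsmul_invUnrP (h : IsUnramP p E F)
    (x : groupCohomology.H2 (Rep.ofAlgebraAutOnUnits E F)) :
    Module.finrank E F • invUnrP p E F h x = 0 :=
  finrank_nsmul_invUnr (intRing p E) E F (intRing p F) h x

theorem exists_invUnrP_eq (h : IsUnramP p E F) (y : QZ) (hy : Module.finrank E F • y = 0) :
    ∃ x : groupCohomology.H2 (Rep.ofAlgebraAutOnUnits E F), invUnrP p E F h x = y :=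
  exists_invUnr_eq (intRing p E) E F (intRing p F) h y hy

end PairFinite

section Towers

open groupCohomology

variable (E F : Type) [Field E] [Algebra ℚ_[p] E] [FiniteDimensional ℚ_[p] E]
  [Field F] [Algebra ℚ_[p] F] [FiniteDimensional ℚ_[p] F]
  [Algebra E F] [IsScalarTower ℚ_[p] E F] [FiniteDimensional E F] [IsGalois E F]

/-- **Inflation** between unramified layers `E ⊆ F ⊆ F'` preserves the invariant. -/
theorem invUnrP_infl (F' : Type) [Field F'] [Algebra ℚ_[p] F'] [FiniteDimensional ℚ_[p] F']
    [Algebra E F'] [IsScalarTower ℚ_[p] E F'] [FiniteDimensional E F'] [IsGalois E F']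
    [Algebra F F'] [IsScalarTower E F F']
    (h : IsUnramP p E F) (h' : IsUnramP p E F')
    (j : Rep.res (AlgEquiv.restrictNormalHom (F := E) (K₁ := F') F)
      (Rep.ofAlgebraAutOnUnits E F) ⟶ Rep.ofAlgebraAutOnUnits E F')
    (hj : ∀ x : Additive Fˣ, j.hom x =
      (Additive.ofMul (Units.map (algebraMap F F' : F →* F') (Additive.toMul (α := Fˣ) x)) :
        Additive F'ˣ))
    (x : H2 (Rep.ofAlgebraAutOnUnits E F)) :
    invUnrP p E F' h' (groupCohomology.map (AlgEquiv.restrictNormalHom (F := E) (K₁ := F') F)
      j 2 x) = invUnrP p E F h x :=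
  invUnr_infl_of_hom (intRing p E) E F (intRing p F) F' (intRing p F') h h' j hj x

/-- **Restriction** (base change) multiplies the unramified invariant by the degree: square of
fields `E ⊆ E'`, `F ⊆ F'` with `F/E` and `F'/E'` unramified Galois. -/
theorem invUnrP_baseChange (E' F' : Type) [Field E'] [Algebra ℚ_[p] E']
    [FiniteDimensional ℚ_[p] E'] [Field F'] [Algebra ℚ_[p] F'] [FiniteDimensional ℚ_[p] F']
    [Algebra E' F'] [IsScalarTower ℚ_[p] E' F'] [FiniteDimensional E' F'] [IsGalois E' F']
    [Algebra E E'] [IsScalarTower ℚ_[p] E E'] [Algebra F F'] [Algebra E F']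
    [IsScalarTower E F F'] [IsScalarTower E E' F']
    (h : IsUnramP p E F) (h' : IsUnramP p E' F')
    (j : Rep.res (towerHom E F E' F') (Rep.ofAlgebraAutOnUnits E F) ⟶
      Rep.ofAlgebraAutOnUnits E' F')
    (hj : ∀ x : Additive Fˣ, j.hom x =
      (Additive.ofMul (Units.map (algebraMap F F' : F →* F') (Additive.toMul (α := Fˣ) x)) :
        Additive F'ˣ))
    (x : H2 (Rep.ofAlgebraAutOnUnits E F)) :
    invUnrP p E' F' h' (groupCohomology.map (towerHom E F E' F') j 2 x) =
      Module.finrank E E' • invUnrP p E F h x :=
  haveI := finiteDimensional_pair p E E'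
  haveI := isSeparable_pair p E E'
  invUnr_baseChange_hom (intRing p E) E F (intRing p F) (intRing p E') E' F' (intRing p F')
    h h' j hj x

end Towers

end Fermat.Agent.Lib.CFT.Local.LocalBrauer.PadicBlock
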