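import Fermat.Agent.Lib.CFT.Local.LocalBrauer.UnramBaseChange
import Fermat.Agent.Lib.CFT.Global.GaloisTransport

/-!
# Independence of the unramified invariant of the presentation (helper42, P-CFT, (GI-3))

The unramified invariant `invUnr A K F B h` of `Local/LocalBrauer/UnramInv.lean` is defined for a
presentation `Frac A = K ⊆ F = Frac B` of an unramified layer by discrete valuation rings.  We show
that it only depends on `F` and on the image of `B` in `F` (which, for `F` finite over `ℚ_[p]` and
`B` integral over `ℤ_[p]`, is the integral closure of `ℤ_[p]`).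
-/

set_option autoImplicit false
set_option linter.unusedSectionVars false

open IsLocalRing

namespace Fermat.Agent.Lib.CFT.Local.LocalBrauer.PresIndep

section maximalSubring

variable {B F : Type*} [CommRing B] [IsDomain B] [IsDiscreteValuationRing B]
  [Field F] [Algebra B F] [IsFractionRing B F]

/-- **A discrete valuation ring is a maximal proper subring of its fraction field.** -/
theorem range_algebraMap_eq_of_le (S : Subring F) (hle : (algebraMap B F).range ≤ S)
    (hS : S ≠ ⊤) : (algebraMap B F).range = S := by
  refine le_antisymm hle fun s hs => ?_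
  by_contra hsB
  apply hS
  have hs0 : s ≠ 0 := by
    rintro rfl
    exact hsB (Subring.zero_mem _)
  -- `s⁻¹` is a non-unit of `B`
  obtain ⟨b, hb⟩ : ∃ b : B, algebraMap B F b = s⁻¹ := by
    rcases ValuationRing.isInteger_or_isInteger B s with ⟨b, hb⟩ | ⟨b, hb⟩
    · exact absurd ⟨b, hb⟩ hsB
    · exact ⟨b, hb⟩
  have hb0 : b ≠ 0 := by
    rintro rfl
    rw [map_zero] at hb
    exact inv_ne_zero hs0 hb.symm
  have hbu : ¬ IsUnit b := by
    intro hu
    obtain ⟨u, rfl⟩ := hu
    apply hsB
    refine ⟨((u⁻¹ : Bˣ) : B), ?_⟩
    have h1 : algebraMap B F ((u⁻¹ : Bˣ) : B) * algebraMap B F (u : B) = 1 := by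
      rw [← map_mul, Units.inv_mul, map_one]
    rw [hb] at h1
    exact (eq_of_mul_inv_eq_one (by simpa using h1))
  obtain ⟨ϖ, hϖ⟩ := IsDiscreteValuationRing.exists_irreducible B
  have hϖb : ϖ ∣ b := by
    have : b ∈ maximalIdeal B := (mem_maximalIdeal b).2 hbu
    rw [hϖ.maximalIdeal_eq, Ideal.mem_span_singleton] at this
    exact this
  rw [eq_top_iff]
  intro x _
  obtain ⟨c, d, hd, rfl⟩ := IsFractionRing.div_surjective (A := B) x
  have hd0 : d ≠ 0 := nonZeroDivisors.ne_zero hd
  obtain ⟨n, hn⟩ := IsDiscreteValuationRing.associated_pow_irreducible hd0 hϖ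
  obtain ⟨e, he⟩ : d ∣ b ^ n := hn.dvd.trans (pow_dvd_pow_of_dvd hϖb n)
  have hdF : algebraMap B F d ≠ 0 := by
    simpa using hd0
  have key : algebraMap B F c / algebraMap B F d = algebraMap B F (c * e) * s ^ n := by
    have h1 : algebraMap B F b ^ n = algebraMap B F d * algebraMap B F e := by
      rw [← map_pow, he, map_mul]
    rw [hb, inv_pow] at h1
    have hsn : s ^ n ≠ 0 := pow_ne_zero n hs0
    have h2 : algebraMap B F d * algebraMap B F e * s ^ n = 1 := by
      rw [← h1, inv_mul_cancel₀ hsn]
    rw [div_eq_iff hdF, map_mul]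
    calc algebraMap B F c = algebraMap B F c * (algebraMap B F d * algebraMap B F e * s ^ n) := by
          rw [h2, mul_one]
      _ = algebraMap B F c * algebraMap B F e * s ^ n * algebraMap B F d := by ring
  rw [key]
  exact Subring.mul_mem _ (hle ⟨c * e, rfl⟩) (Subring.pow_mem _ hs n)

end maximalSubring

section integralClosure

variable (A₀ K₀ : Type*) [CommRing A₀] [IsDomain A₀] [IsDiscreteValuationRing A₀]
  [Field K₀] [Algebra A₀ K₀] [IsFractionRing A₀ K₀]
  (F : Type*) [Field F] [Algebra K₀ F] [Algebra A₀ F] [IsScalarTower A₀ K₀ F]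

include K₀

/-- The integral closure of a discrete valuation ring in an extension of its fraction field is a
proper subring. -/
theorem integralClosure_toSubring_ne_top : (integralClosure A₀ F).toSubring ≠ ⊤ := by
  obtain ⟨ϖ, hϖ⟩ := IsDiscreteValuationRing.exists_irreducible A₀
  intro htop
  have hϖK : algebraMap A₀ K₀ ϖ ≠ 0 := by
    simpa using hϖ.ne_zero
  have hmem : (algebraMap K₀ F (algebraMap A₀ K₀ ϖ))⁻¹ ∈ (integralClosure A₀ F).toSubring := by
    rw [htop]; exact Subring.mem_top _
  have h1 : IsIntegral A₀ (algebraMap K₀ F (algebraMap A₀ K₀ ϖ)⁻¹) := by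
    rw [map_inv₀]; exact hmem
  have h2 : IsIntegral A₀ ((algebraMap A₀ K₀ ϖ)⁻¹) :=
    (isIntegral_algebraMap_iff (algebraMap K₀ F).injective).1 h1
  obtain ⟨a, ha⟩ := IsIntegrallyClosed.isIntegral_iff.1 h2
  have h3 : ϖ * a = 1 := by
    apply IsFractionRing.injective A₀ K₀
    rw [map_mul, ha, map_one, mul_inv_cancel₀ hϖK]
  exact hϖ.not_isUnit (IsUnit.of_mul_eq_one _ h3)

variable {F} {B : Type*} [CommRing B] [IsDomain B] [IsDiscreteValuationRing B]
  [Algebra B F] [IsFractionRing B F]

/-- A discrete valuation ring with fraction field `F` all of whose elements are integral over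
`A₀` is the integral closure of `A₀` in `F`. -/
theorem range_algebraMap_eq_integralClosure
    (hint : ∀ b : B, IsIntegral A₀ (algebraMap B F b)) :
    (algebraMap B F).range = (integralClosure A₀ F).toSubring := by
  apply range_algebraMap_eq_of_le
  · rintro _ ⟨b, rfl⟩
    exact hint b
  · exact integralClosure_toSubring_ne_top A₀ K₀ F

end integralClosure

section padic

variable (p : ℕ) [Fact p.Prime] (F : Type*) [Field F] [Algebra ℚ_[p] F]
  (B B' : Type*) [CommRing B] [IsDomain B] [IsDiscreteValuationRing B]
  [Algebra B F] [IsFractionRing B F]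
  [CommRing B'] [IsDomain B'] [IsDiscreteValuationRing B']
  [Algebra B' F] [IsFractionRing B' F]

/-- Two discrete valuation rings with fraction field `F ⊇ ℚ_[p]` which are integral over `ℤ_[p]`
have the same image in `F` (hypotheses in the form of `LocalInvTheory.inv_unram`). -/
theorem range_algebraMap_eq_of_isIntegralElem_padic
    (hB : ∀ b : B, ((algebraMap ℚ_[p] F).comp (algebraMap ℤ_[p] ℚ_[p])).IsIntegralElem
      (algebraMap B F b))
    (hB' : ∀ b : B', ((algebraMap ℚ_[p] F).comp (algebraMap ℤ_[p] ℚ_[p])).IsIntegralElem
      (algebraMap B' F b)) :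
    (algebraMap B F).range = (algebraMap B' F).range := by
  letI : Algebra ℤ_[p] F := ((algebraMap ℚ_[p] F).comp (algebraMap ℤ_[p] ℚ_[p])).toAlgebra
  have : IsScalarTower ℤ_[p] ℚ_[p] F := IsScalarTower.of_algebraMap_eq (fun _ => rfl)
  rw [range_algebraMap_eq_integralClosure ℤ_[p] ℚ_[p] (B := B) hB,
    range_algebraMap_eq_integralClosure ℤ_[p] ℚ_[p] (B := B') hB']

end padic

section ringEquivOfRange

variable {R R' F : Type*} [CommRing R] [CommRing R'] [CommRing F]

/-- Two injective ring homs with the same range have isomorphic sources. -/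
noncomputable def ringEquivOfRangeEq (f : R →+* F) (g : R' →+* F) (hf : Function.Injective f)
    (hg : Function.Injective g) (h : f.range = g.range) : R ≃+* R' :=
  (RingEquiv.ofBijective f.rangeRestrict
    ⟨fun _ _ hxy => hf (congrArg Subtype.val hxy), f.rangeRestrict_surjective⟩).trans
  ((RingEquiv.subringCongr h).trans
    (RingEquiv.ofBijective g.rangeRestrict
      ⟨fun _ _ hxy => hg (congrArg Subtype.val hxy), g.rangeRestrict_surjective⟩).symm)

lemma ringEquivOfRangeEq_apply (f : R →+* F) (g : R' →+* F) (hf : Function.Injective f)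
    (hg : Function.Injective g) (h : f.range = g.range) (r : R) :
    g (ringEquivOfRangeEq f g hf hg h r) = f r := by
  set e₃ := RingEquiv.ofBijective g.rangeRestrict
      ⟨fun _ _ hxy => hg (congrArg Subtype.val hxy), g.rangeRestrict_surjective⟩ with he₃
  have h1 : ∀ y : g.range, g (e₃.symm y) = y := by
    intro y
    have := e₃.apply_symm_apply y
    exact congrArg Subtype.val this
  unfold ringEquivOfRangeEq
  simp only [RingEquiv.trans_apply]
  rw [h1]
  rfl

lemma map_maximalIdeal_of_ringEquiv {R S : Type*} [CommRing R] [CommRing S] [IsLocalRing R]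
    [IsLocalRing S] (e : R ≃+* S) :
    (maximalIdeal R).map (e : R →+* S) = maximalIdeal S := by
  rw [Ideal.map_comap_of_equiv]
  ext x
  rw [Ideal.mem_comap, mem_maximalIdeal, mem_maximalIdeal, mem_nonunits_iff, mem_nonunits_iff]
  simp

end ringEquivOfRange

section twoPresentations

open Fermat.Agent.Lib.CFT.Local.UnitsFiltration Fermat.Agent.Lib.CFT.Local.Unramified

variable (F : Type) [Field F]
  (A K B : Type) [CommRing A] [IsDomain A] [IsDiscreteValuationRing A]
  [Field K] [Algebra A K] [IsFractionRing A K]
  [Algebra K F] [Algebra A F] [IsScalarTower A K F]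
  [CommRing B] [IsDomain B] [IsDiscreteValuationRing B] [Algebra A B] [Algebra B F]
  [IsScalarTower A B F] [IsIntegralClosure B A F] [IsFractionRing B F]
  (A' K' B' : Type) [CommRing A'] [IsDomain A'] [IsDiscreteValuationRing A']
  [Field K'] [Algebra A' K'] [IsFractionRing A' K']
  [Algebra K' F] [Algebra A' F] [IsScalarTower A' K' F]
  [CommRing B'] [IsDomain B'] [IsDiscreteValuationRing B'] [Algebra A' B'] [Algebra B' F]
  [IsScalarTower A' B' F] [IsIntegralClosure B' A' F] [IsFractionRing B' F]

omit [IsDomain B] [IsDiscreteValuationRing B] [IsFractionRing B F] in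
/-- `A = B ∩ K` inside `F`. -/
theorem range_algebraMap_base :
    (algebraMap A F).range = (algebraMap B F).range ⊓ (algebraMap K F).range := by
  apply le_antisymm
  · rintro _ ⟨a, rfl⟩
    refine ⟨⟨algebraMap A B a, ?_⟩, ⟨algebraMap A K a, ?_⟩⟩
    · rw [← IsScalarTower.algebraMap_apply]
    · rw [← IsScalarTower.algebraMap_apply]
  · rintro x ⟨⟨b, hb⟩, ⟨k, hk⟩⟩
    have h1 : IsIntegral A x := (IsIntegralClosure.isIntegral_iff (A := B)).2 ⟨b, hb⟩
    rw [← hk] at h1
    have h2 : IsIntegral A k := (isIntegral_algebraMap_iff (algebraMap K F).injective).1 h1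
    obtain ⟨a, rfl⟩ := IsIntegrallyClosed.isIntegral_iff.1 h2
    exact ⟨a, by rw [← hk, ← IsScalarTower.algebraMap_apply]⟩

variable (hK : (algebraMap K F).range = (algebraMap K' F).range)
  (hB : (algebraMap B F).range = (algebraMap B' F).range)

include hK hB in
omit [IsDomain B] [IsDiscreteValuationRing B] [IsFractionRing B F]
  [IsDomain B'] [IsDiscreteValuationRing B'] [IsFractionRing B' F] in
theorem range_algebraMap_base_eq : (algebraMap A F).range = (algebraMap A' F).range := by
  rw [range_algebraMap_base F A K B, range_algebraMap_base F A' K' B', hK, hB]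

include K in
lemma algebraMap_base_injective : Function.Injective (algebraMap A F) := by
  rw [IsScalarTower.algebraMap_eq A K F]
  exact (algebraMap K F).injective.comp (IsFractionRing.injective A K)

/-- The canonical isomorphism between the top rings of two presentations. -/
noncomputable def presB : B ≃+* B' :=
  ringEquivOfRangeEq (algebraMap B F) (algebraMap B' F) (IsFractionRing.injective B F)
    (IsFractionRing.injective B' F) hB

lemma presB_apply (b : B) : algebraMap B' F (presB F B B' hB b) = algebraMap B F b :=
  ringEquivOfRangeEq_apply _ _ _ _ hB b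

/-- The canonical isomorphism between the base rings of two presentations. -/
noncomputable def presA : A ≃+* A' :=
  ringEquivOfRangeEq (algebraMap A F) (algebraMap A' F) (algebraMap_base_injective F A K)
    (algebraMap_base_injective F A' K') (range_algebraMap_base_eq F A K B A' K' B' hK hB)

lemma presA_apply (a : A) :
    algebraMap A' F (presA F A K B A' K' B' hK hB a) = algebraMap A F a :=
  ringEquivOfRangeEq_apply _ _ _ _ _ a

lemma presB_algebraMap (a : A) :
    presB F B B' hB (algebraMap A B a) = algebraMap A' B' (presA F A K B A' K' B' hK hB a) := by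
  apply IsFractionRing.injective B' F
  rw [presB_apply, ← IsScalarTower.algebraMap_apply, ← IsScalarTower.algebraMap_apply,
    presA_apply]

include hK hB in
/-- The residue fields of the bases of two presentations have the same cardinality. -/
theorem natCard_residueField_eq_of_range_eq :
    Nat.card (ResidueField A) = Nat.card (ResidueField A') :=
  Nat.card_congr (ResidueField.mapEquiv (presA F A K B A' K' B' hK hB)).toEquiv

include hK hB in
/-- Being unramified does not depend on the presentation. -/
theorem isUnram_of_range_eq (h : IsUnram A B) : IsUnram A' B' := by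
  unfold IsUnram at h ⊢
  rw [← map_maximalIdeal_of_ringEquiv (presA F A K B A' K' B' hK hB), Ideal.map_map,
    ← map_maximalIdeal_of_ringEquiv (presB F B B' hB), ← h, Ideal.map_map]
  congr 1
  ext a
  exact (presB_algebraMap F A K B A' K' B' hK hB a).symm

include hB in
/-- The normalised valuation does not depend on the presentation. -/
theorem ord_eq_of_range_eq (x : Fˣ) : ord B' F x = ord B F x := by
  have := ord_map (B := B) (L := F) (B' := B') (L' := F) (presB F B B' hB) (RingEquiv.refl F)
    (fun b => (presB_apply F B B' hB b).symm) x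
  rw [← this]
  congr 1

end twoPresentations

section mapCongr

open CategoryTheory

/-- `groupCohomology.map` only depends on the group hom and the underlying function. -/
lemma map_congr_hom {k : Type} [CommRing k] {G H : Type} [Group G] [Group H] {X : Rep k G}
    {Y : Rep k H} {f f' : H →* G} (hf : f = f') (φ : Rep.res f X ⟶ Y) (φ' : Rep.res f' X ⟶ Y)
    (h : ∀ a : X.V, φ.hom a = φ'.hom a) (n : ℕ) :
    groupCohomology.map f φ n = groupCohomology.map f' φ' n := by
  subst hf
  have : φ = φ' := by
    ext a
    exact h a
  rw [this]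

end mapCongr

section main

open Fermat.Agent.Lib.CFT.Local.UnitsFiltration Fermat.Agent.Lib.CFT.Local.Unramified
open Fermat.Agent.Lib.CFT.Global.LocalFieldAt CategoryTheory

attribute [local instance] Units.mulDistribMulActionRight

variable (D F : Type) [Group D] [Finite D] [Field F] [MulSemiringAction D F]
  (A K B : Type) [CommRing A] [IsDomain A] [IsDiscreteValuationRing A]
  [IsAdicComplete (maximalIdeal A) A] [Finite (ResidueField A)]
  [Field K] [Algebra A K] [IsFractionRing A K]
  [Algebra K F] [FiniteDimensional K F] [IsGalois K F]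
  [Algebra A F] [IsScalarTower A K F]
  [CommRing B] [IsDomain B] [IsDiscreteValuationRing B] [Algebra A B] [Algebra B F]
  [IsScalarTower A B F] [IsIntegralClosure B A F] [IsFractionRing B F]
  [HenselianLocalRing B] [IsLocalHom (algebraMap A B)]
  [IsGaloisGroup D K F]
  (A' K' B' : Type) [CommRing A'] [IsDomain A'] [IsDiscreteValuationRing A']
  [IsAdicComplete (maximalIdeal A') A'] [Finite (ResidueField A')]
  [Field K'] [Algebra A' K'] [IsFractionRing A' K']
  [Algebra K' F] [FiniteDimensional K' F] [IsGalois K' F]
  [Algebra A' F] [IsScalarTower A' K' F]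
  [CommRing B'] [IsDomain B'] [IsDiscreteValuationRing B'] [Algebra A' B'] [Algebra B' F]
  [IsScalarTower A' B' F] [IsIntegralClosure B' A' F] [IsFractionRing B' F]
  [HenselianLocalRing B'] [IsLocalHom (algebraMap A' B')]
  [IsGaloisGroup D K' F]

/-- The base field of a Galois group presentation is the fixed field. -/
theorem range_algebraMap_eq_fixed (x : F) :
    x ∈ (algebraMap K F).range ↔ ∀ d : D, d • x = x := by
  have hc : SMulCommClass D K F := IsGaloisGroup.commutes
  have hi : Algebra.IsInvariant K F D := IsGaloisGroup.isInvariant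
  constructor
  · rintro ⟨k, rfl⟩ d
    exact smul_algebraMap d k
  · intro hx
    exact hi.isInvariant x hx

include D in
theorem range_algebraMap_eq_of_isGaloisGroup :
    (algebraMap K F).range = (algebraMap K' F).range := by
  ext x
  rw [range_algebraMap_eq_fixed D F K, range_algebraMap_eq_fixed D F K']

/-- The comparison `Gal(F/K') → Gal(F/K)` through the abstract group `D`. -/
noncomputable def presGalHom : (F ≃ₐ[K'] F) →* (F ≃ₐ[K] F) :=
  (galEquiv D K F).toMonoidHom.comp (galEquiv D K' F).symm.toMonoidHom

lemma presGalHom_apply (σ' : F ≃ₐ[K'] F) (x : F) : presGalHom D F K K' σ' x = σ' x := by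
  obtain ⟨d, rfl⟩ := (galEquiv D K' F).surjective σ'
  simp only [presGalHom, MonoidHom.comp_apply, MulEquiv.coe_toMonoidHom,
    MulEquiv.symm_apply_apply]
  rfl

/-- **Presentation independence of the unramified invariant** (Galois form): the invariants of two
presentations of the same layer correspond under the identity of `Fˣ`. -/
theorem invUnr_presGalHom
    (hB : (algebraMap B F).range = (algebraMap B' F).range)
    (h : IsUnram A B) (h' : IsUnram A' B')
    (y : groupCohomology.H2 (Rep.ofAlgebraAutOnUnits K F)) :
    invUnr A' K' F B' h' (groupCohomology.map (presGalHom D F K K')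
      (unitsResHom (presGalHom D F K K') (RingHom.id F)
        (fun σ' x => presGalHom_apply D F K K' σ' x)) 2 y) = invUnr A K F B h y := by
  have hK := range_algebraMap_eq_of_isGaloisGroup D F K K'
  have key := invUnr_map A K F B A' K' F B' h h' (presGalHom D F K K') (RingHom.id F)
    (fun σ' x => presGalHom_apply D F K K' σ' x) (presB F B B' hB : B →+* B')
    (fun b => (presB_apply F B B' hB b).symm) 1
    (by rw [pow_one]; exact (natCard_residueField_eq_of_range_eq F A K B A' K' B' hK hB).symm)
    1 (fun x => by
      rw [one_mul]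
      exact ord_eq_of_range_eq F B B' hB x) y
  rw [key]
  simp

/-- **Presentation independence of the unramified invariant** (action form, the shape of
`LocalInvTheory.inv_unram`): for two presentations `(A, K, B)`, `(A', K', B')` of the layer
`F / F^D` whose top rings have the same image in `F`, the unramified invariants agree on
`H²(D, Fˣ)`. -/
theorem invUnr_unitsCohomologyIso_eq
    (hB : (algebraMap B F).range = (algebraMap B' F).range)
    (h : IsUnram A B) (h' : IsUnram A' B')
    (x : groupCohomology (Rep.ofMulDistribMulAction D Fˣ) 2) :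
    invUnr A K F B h ((unitsCohomologyIso D K F 2).hom x) =
      invUnr A' K' F B' h' ((unitsCohomologyIso D K' F 2).hom x) := by
  rw [← invUnr_presGalHom D F A K B A' K' B' hB h h']
  congr 1
  rw [unitsCohomologyIso_hom, unitsCohomologyIso_hom, ← ConcreteCategory.comp_apply,
    ← groupCohomology.map_comp]
  have hf : (galEquiv D K F).symm.toMonoidHom.comp (presGalHom D F K K') =
      (galEquiv D K' F).symm.toMonoidHom := by
    ext σ'
    simp [presGalHom]
  have key : ∀ (m m' : groupCohomology (Rep.ofMulDistribMulAction D Fˣ) 2 ⟶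
      groupCohomology (Rep.ofAlgebraAutOnUnits K' F) 2), m = m' →
      (ConcreteCategory.hom m) x = (ConcreteCategory.hom m') x := fun m m' hm => by rw [hm]
  apply key
  exact map_congr_hom hf _ _ (fun a => rfl) 2

include D K K' in
/-- Being unramified does not depend on the presentation (Galois group form). -/
theorem isUnram_of_range_eq_of_isGaloisGroup
    (hB : (algebraMap B F).range = (algebraMap B' F).range) (h : IsUnram A B) :
    IsUnram A' B' :=
  isUnram_of_range_eq F A K B A' K' B' (range_algebraMap_eq_of_isGaloisGroup D F K K') hB h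

section padic

variable (p : ℕ) [Fact p.Prime] [Algebra ℚ_[p] F]

include D K K' in
/-- `p`-adic form: if both top rings are integral over `ℤ_[p]`, unramifiedness transfers. -/
theorem isUnram_of_isIntegralElem_padic
    (hB : ∀ b : B, ((algebraMap ℚ_[p] F).comp (algebraMap ℤ_[p] ℚ_[p])).IsIntegralElem
      (algebraMap B F b))
    (hB' : ∀ b : B', ((algebraMap ℚ_[p] F).comp (algebraMap ℤ_[p] ℚ_[p])).IsIntegralElem
      (algebraMap B' F b))
    (h : IsUnram A B) : IsUnram A' B' :=
  isUnram_of_range_eq_of_isGaloisGroup D F A K B A' K' B'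
    (range_algebraMap_eq_of_isIntegralElem_padic p F B B' hB hB') h

/-- **Presentation independence, `p`-adic form** (exactly the hypotheses of
`LocalInvTheory.inv_unram` for both presentations). -/
theorem invUnr_unitsCohomologyIso_eq_padic
    (hB : ∀ b : B, ((algebraMap ℚ_[p] F).comp (algebraMap ℤ_[p] ℚ_[p])).IsIntegralElem
      (algebraMap B F b))
    (hB' : ∀ b : B', ((algebraMap ℚ_[p] F).comp (algebraMap ℤ_[p] ℚ_[p])).IsIntegralElem
      (algebraMap B' F b))
    (h : IsUnram A B) (h' : IsUnram A' B')
    (x : groupCohomology (Rep.ofMulDistribMulAction D Fˣ) 2) :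
    invUnr A K F B h ((unitsCohomologyIso D K F 2).hom x) =
      invUnr A' K' F B' h' ((unitsCohomologyIso D K' F 2).hom x) :=
  invUnr_unitsCohomologyIso_eq D F A K B A' K' B'
    (range_algebraMap_eq_of_isIntegralElem_padic p F B B' hB hB') h h' x

end padic

end main

end Fermat.Agent.Lib.CFT.Local.LocalBrauer.PresIndep
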