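/-
P-CFT, WP Local/LocalBrauer (helper59): the invariant of the cyclic classes `a ∪ δχ_s`
(helper33's `cyc2`), `inv_F (a ∪ δχ_s) = v(a) · χ_s(F)`.
-/
import Fermat.Agent.Lib.CFT.Local.LocalBrauer.Valued
import Fermat.Agent.Lib.CFT.Coh.CyclicFunct

set_option autoImplicit false
set_option linter.unusedSectionVars false

namespace Fermat.Agent.Lib.CFT.Local.LocalBrauer

open groupCohomology

attribute [local instance 1100] Rep.hV2
open Fermat.Agent.Lib.CFT.Coh.CyclicExplicit Fermat.Agent.Lib.CFT.Coh.CyclicFunct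

variable {G : Type} [Group G] [Fintype G] (A : Rep.{0} ℤ G) (v : A.V →+ ℤ)
  (hv : ∀ g a, v (A.ρ g a) = v a) (s : G) (hs : ∀ x, x ∈ Subgroup.zpowers s)

/-- the row sums of `cyc2`. -/
theorem sum_val_cyc2 (F : G) (a : A.V) :
    ∑ k : G, v (cyc2 A s hs a (F, k)) = (dlog s hs F : ℤ) * v a := by
  rw [sum_eq_sum_range s hs]
  have h1 : ∀ r ∈ Finset.range (Fintype.card G), v (cyc2 A s hs a (F, s ^ r)) =
      if Fintype.card G ≤ r + dlog s hs F then v a else 0 := by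
    intro r hr
    rw [cyc2_apply, dlog_pow s hs (Finset.mem_range.1 hr), add_comm]
    split_ifs
    · rfl
    · exact map_zero v
  rw [Finset.sum_congr rfl h1, sum_range_carry _ _ (dlog_lt s hs F).le, nsmul_eq_mul]

/-- **`inv_F (a ∪ δχ_s) = dlog_s(F) · v(a) / |G|`**. -/
theorem invAt_cyc2 (F : G) (a : A.ρ.invariants) :
    invAt A v hv F (H2π A (cyc2Cocycle A s hs a)) =
      ((((dlog s hs F : ℤ) * v a.1 : ℤ) : ℚ) / (Fintype.card G : ℚ) : ℚ) := by
  rw [invAt_H2π]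
  have h := sum_val_cyc2 A v s hs F a.1
  have h2 : (∑ k : G, v ((cyc2Cocycle A s hs a : cocycles₂ A) (F, k))) =
      (dlog s hs F : ℤ) * v a.1 := h
  rw [h2]

/-- for `s = F` (and `G` nontrivial): `inv_F (a ∪ δχ_F) = v(a) / |G|`. -/
theorem invAt_cyc2_self (h2 : 2 ≤ Fintype.card G) (a : A.ρ.invariants) :
    invAt A v hv s (H2π A (cyc2Cocycle A s hs a)) =
      (((v a.1 : ℤ) : ℚ) / (Fintype.card G : ℚ) : ℚ) := by
  rw [invAt_cyc2, dlog_self s hs h2]
  norm_num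

end Fermat.Agent.Lib.CFT.Local.LocalBrauer
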