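/-
P-CFT, WP Local/LocalBrauer part 3 (helper43): the arithmetic input of the comparison of
`H²(L/K)` with the unramified layer.

`K` a local field with residue field of cardinality `q`, `L/K` finite separable of degree `n`,
`M = L(μ_{q^n - 1})`.  Then `M/L` is unramified of degree `e = e(L/K)` (because
`q^n = q_L^e`), hence every element of `Kˣ` (whose `L`-valuation is divisible by `e`) is a norm
from `M` to `L`.
-/
import Mathlib
import Fermat.Agent.Lib.CFT.Local.UnramExists
import Fermat.Agent.Lib.CFT.Local.UnitsFiltration
import Fermat.Agent.Lib.CFT.Local.DVRVal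

set_option autoImplicit false
set_option linter.unusedSectionVars false

namespace Fermat.Agent.Lib.CFT.Local.LocalBrauer.CycloNorm

open IsLocalRing Module
open Fermat.Agent.Lib.CFT.Local Fermat.Agent.Lib.CFT.Local.Unramified
open Fermat.Agent.Lib.CFT.Local.UnitsFiltration

section ResDeg

variable (A B : Type*) [CommRing A] [IsDomain A] [IsDiscreteValuationRing A]
  [CommRing B] [IsDomain B] [IsDiscreteValuationRing B] [Algebra A B]
  [Module.Finite A B] [Module.IsTorsionFree A B] [IsLocalHom (algebraMap A B)]

/-- helper59's residue degree (inertia degree) is helper42's (degree of the residue fields). -/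
theorem resDeg_eq_resDegree : resDeg A B = resDegree A B := by
  unfold resDeg resDegree
  rw [Ideal.inertiaDeg_eq_of_isMaximal (maximalIdeal A) (maximalIdeal B)]
  rfl

end ResDeg

section OrdBase

variable (A K L B : Type*) [CommRing A] [IsDomain A] [IsDiscreteValuationRing A]
  [Field K] [Algebra A K] [IsFractionRing A K]
  [Field L] [Algebra K L] [FiniteDimensional K L] [Algebra A L] [IsScalarTower A K L]
  [CommRing B] [IsDomain B] [IsDiscreteValuationRing B] [Algebra A B]
  [Algebra B L] [IsScalarTower A B L] [IsIntegralClosure B A L] [IsFractionRing B L]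
  [Module.Finite A B] [Module.IsTorsionFree A B]

theorem dvrVal_eq (R F : Type*) [CommRing R] [IsDomain R] [IsDiscreteValuationRing R]
    [Field F] [Algebra R F] [IsFractionRing R F] :
    Fermat.Agent.Lib.CFT.Local.dvrVal R F = UnitsFiltration.dvrVal R F := by
  unfold Fermat.Agent.Lib.CFT.Local.dvrVal
  rw [← heightOneSpectrum_eq R (IsDiscreteValuationRing.maximalIdeal R)]

/-- The valuation of `L` restricted to `K` is `e` times the valuation of `K`. -/
theorem ord_map_algebraMap (x : Kˣ) :
    ord B L (Units.map (algebraMap K L : K →* L) x) = ramIdx A B * ord A K x := by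
  rw [ord_eq_iff]
  have h := dvrVal_algebraMap A K L B (x : K)
  rw [dvrVal_eq, dvrVal_eq, dvrVal_eq_exp_neg_ord (B := A) x, ← WithZero.exp_nsmul] at h
  rw [Units.coe_map, MonoidHom.coe_coe, h]
  congr 1
  simp

end OrdBase

section Main

variable (A K L B M C : Type) [CommRing A] [IsDomain A] [IsDiscreteValuationRing A]
  [IsAdicComplete (maximalIdeal A) A] [Finite (ResidueField A)]
  [Field K] [Algebra A K] [IsFractionRing A K]
  [Field L] [Algebra K L] [FiniteDimensional K L] [Algebra.IsSeparable K L]
  [Algebra A L] [IsScalarTower A K L]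
  [CommRing B] [IsDomain B] [IsDiscreteValuationRing B]
  [IsAdicComplete (maximalIdeal B) B] [Finite (ResidueField B)]
  [Algebra A B] [Algebra B L] [IsScalarTower A B L]
  [IsIntegralClosure B A L] [IsFractionRing B L]
  [Field M] [Algebra L M] [FiniteDimensional L M] [Algebra.IsSeparable L M]
  [Algebra B M] [IsScalarTower B L M]
  [CommRing C] [IsDomain C] [IsLocalRing C] [Algebra B C] [Algebra C M] [IsScalarTower B C M]
  [IsIntegralClosure C B M]

/-- `M = L(μ_{q^n-1})` is unramified of degree `e(L/K)` over `L`. -/
theorem isUnram_and_finrank (n : ℕ) (hn : finrank K L = n)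
    [IsCyclotomicExtension {Nat.card (ResidueField A) ^ n - 1} L M] :
    IsUnram B C ∧ finrank L M = ramIdx A B := by
  have hfin := ext_finite A K L B
  have htf := ext_isTorsionFree A K L B
  have hloc := ext_isLocalHom A K L B
  have hef : ramIdx A B * resDeg A B = n := by
    rw [ramIdx_mul_resDeg, ext_finrank A K L B, hn]
  have hq : Nat.card (ResidueField B) = Nat.card (ResidueField A) ^ resDeg A B := by
    rw [resDeg_eq_resDegree]
    exact natCard_residueField (R := A) (S := B)
  have hN : Nat.card (ResidueField A) ^ n - 1 = Nat.card (ResidueField B) ^ ramIdx A B - 1 := by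
    rw [hq, ← pow_mul, mul_comm, hef]
  have hcyc : IsCyclotomicExtension {Nat.card (ResidueField B) ^ ramIdx A B - 1} L M := by
    rw [← hN]
    infer_instance
  exact finrank_of_cyclotomic_of_complete B L M C (ramIdx A B) (ramIdx_pos A B).ne'

include B C in
/-- **Every element of `Kˣ` is a norm from `M = L(μ_{q^n-1})` to `L`.** -/
theorem exists_norm_eq_aux (n : ℕ) (hn : finrank K L = n)
    [IsCyclotomicExtension {Nat.card (ResidueField A) ^ n - 1} L M] (b : Kˣ) :
    ∃ t : Mˣ, Algebra.norm L (t : M) = algebraMap K L (b : K) := by
  have hfin := ext_finite A K L B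
  have htf := ext_isTorsionFree A K L B
  obtain ⟨hun, hdeg⟩ := isUnram_and_finrank A K L B M C n hn
  obtain ⟨ϖ, hϖ⟩ := IsDiscreteValuationRing.exists_irreducible B
  obtain ⟨u, hu⟩ := exists_eq_unitsIncl_mul_zpow (L := L) hϖ
    (Units.map (algebraMap K L : K →* L) b)
  rw [ord_map_algebraMap A K L B b] at hu
  obtain ⟨v, hv⟩ := LocalUnits.exists_norm_eq_of_isUnram B L M C hun u
  have hv0 : algebraMap C M (v : C) ≠ 0 := (v.isUnit.map (algebraMap C M)).ne_zero
  refine ⟨Units.mk0 _ hv0 * Units.map (algebraMap L M : L →* M) (unifUnit (L := L) hϖ ^ ord A K b),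
    ?_⟩
  have hb : algebraMap K L (b : K) = ((Units.map (algebraMap K L : K →* L) b : Lˣ) : L) := rfl
  rw [hb, hu, Units.val_mul, map_mul, Units.val_mk0, hv, Units.coe_map, MonoidHom.coe_coe,
    Algebra.norm_algebraMap, hdeg, Units.val_mul, coe_unitsIncl, ← Units.val_pow_eq_pow_val,
    ← zpow_natCast, ← zpow_mul, mul_comm, mul_comm (ord A K b)]
  exact mul_comm _ _

end Main

section Final

variable (A K L M : Type) [CommRing A] [IsDomain A] [IsDiscreteValuationRing A]
  [IsAdicComplete (maximalIdeal A) A] [Finite (ResidueField A)]
  [Field K] [Algebra A K] [IsFractionRing A K]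
  [Field L] [Algebra K L] [FiniteDimensional K L] [Algebra.IsSeparable K L]
  [Algebra A L] [IsScalarTower A K L]
  [Field M] [Algebra L M]

include A in
/-- **Every element of `Kˣ` is a norm from `M = L(μ_{q^n-1})` to `L`** (`n = [L : K]`, `q` the
cardinality of the residue field of `K`). -/
theorem exists_norm_eq (n : ℕ) (hn : finrank K L = n)
    [IsCyclotomicExtension {Nat.card (ResidueField A) ^ n - 1} L M] (b : Kˣ) :
    ∃ t : Mˣ, Algebra.norm L (t : M) = algebraMap K L (b : K) := by
  have hfdM : FiniteDimensional L M :=
    IsCyclotomicExtension.finiteDimensional {Nat.card (ResidueField A) ^ n - 1} L M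
  have hgalM : IsGalois L M :=
    IsCyclotomicExtension.isGalois {Nat.card (ResidueField A) ^ n - 1} L M
  have hdvr : IsDiscreteValuationRing (integralClosure A L) :=
    ext_isDiscreteValuationRing A K L (integralClosure A L)
  have hcomp : IsAdicComplete (maximalIdeal (integralClosure A L)) (integralClosure A L) :=
    ext_isAdicComplete A K L (integralClosure A L)
  have hfin := ext_finite A K L (integralClosure A L)
  have hlh := ext_isLocalHom A K L (integralClosure A L)
  have hres : Finite (ResidueField (integralClosure A L)) :=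
    IsLocalRing.ResidueField.finite_of_finite (R := A) (S := integralClosure A L) ‹_›
  have hfr : IsFractionRing (integralClosure A L) L :=
    ext_isFractionRing A K L (integralClosure A L)
  have : IsScalarTower (integralClosure A L) L M := inferInstance
  have hlocC : IsLocalRing (integralClosure (integralClosure A L) M) :=
    ext_isLocalRing (integralClosure A L) L M _
  exact exists_norm_eq_aux A K L (integralClosure A L) M
    (integralClosure (integralClosure A L) M) n hn b

end Final

end Fermat.Agent.Lib.CFT.Local.LocalBrauer.CycloNorm
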