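/-
P-CFT, WP Local/LocalBrauer part 3 (helper43): functoriality of `Hⁿ(Gal(E/K), Eˣ)` in the pair
`(K, E)`.

For a commutative square of fields
```
  E  →  E'
  ↑     ↑
  K  →  K'
```
(`E/K` normal) there is a homomorphism `Gal(E'/K') → Gal(E/K)` and an equivariant inclusion
`Eˣ → E'ˣ`, hence maps `sqMap : Hⁿ(Gal(E/K), Eˣ) ⟶ Hⁿ(Gal(E'/K'), E'ˣ)`.  For `K = K'` this is the
inflation, for `E = E'` the restriction.  The composition law `sqMap_comp` contains the transitivity
of inflation and restriction and their commutation.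
-/
import Mathlib
import Fermat.Agent.Lib.CFT.Local.LocalBrauer.TowerInfl

set_option autoImplicit false
set_option linter.unusedSectionVars false

namespace Fermat.Agent.Lib.CFT.Local.LocalBrauer.Square

open CategoryTheory Rep groupCohomology

section Def

variable (K K' E E' : Type) [Field K] [Field K'] [Field E] [Field E']
  [Algebra K K'] [Algebra K E] [Algebra K' E'] [Algebra E E'] [Algebra K E']
  [IsScalarTower K K' E'] [IsScalarTower K E E'] [Normal K E]

/-- The homomorphism `Gal(E'/K') → Gal(E/K)` of a square of fields. -/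
noncomputable def sqπ : Gal(E'/K') →* Gal(E/K) :=
  (AlgEquiv.restrictNormalHom E).comp (AlgEquiv.restrictScalarsHom K)

theorem sqπ_apply (σ : Gal(E'/K')) (x : E) :
    algebraMap E E' (sqπ K K' E E' σ x) = σ (algebraMap E E' x) :=
  AlgEquiv.restrictNormal_commutes (σ.restrictScalars K) E x

/-- The inclusion `Eˣ → E'ˣ` as a morphism of `Gal(E'/K')`-representations. -/
noncomputable def sqι :
    res (sqπ K K' E E') (Rep.ofAlgebraAutOnUnits K E) ⟶ Rep.ofAlgebraAutOnUnits K' E' :=
  ConcreteCategory.ofHom (C := Rep ℤ Gal(E'/K'))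
    (X := res (sqπ K K' E E') (Rep.ofAlgebraAutOnUnits K E)) (Y := Rep.ofAlgebraAutOnUnits K' E')
    (⟨Tower.unitsLin E E', fun σ => LinearMap.ext fun (x : Additive Eˣ) => by
      refine congrArg Additive.ofMul (Units.ext ?_)
      exact sqπ_apply K K' E E' σ ((x.toMul : Eˣ) : E)⟩ :
      (res (sqπ K K' E E') (Rep.ofAlgebraAutOnUnits K E)).ρ.IntertwiningMap
        (Rep.ofAlgebraAutOnUnits K' E').ρ)

theorem sqι_apply (x : Additive Eˣ) :
    (sqι K K' E E').hom x = Additive.ofMul (Tower.unitsMap E E' x.toMul) := rfl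

/-- The map `Hⁿ(Gal(E/K), Eˣ) ⟶ Hⁿ(Gal(E'/K'), E'ˣ)` of a square of fields. -/
noncomputable def sqMap (n : ℕ) :
    groupCohomology (Rep.ofAlgebraAutOnUnits K E) n ⟶
      groupCohomology (Rep.ofAlgebraAutOnUnits K' E') n :=
  map (sqπ K K' E E') (sqι K K' E E') n

end Def

section Comp

variable (K K' K'' E E' E'' : Type) [Field K] [Field K'] [Field K''] [Field E] [Field E']
  [Field E'']
  [Algebra K K'] [Algebra K E] [Algebra K' E'] [Algebra E E'] [Algebra K E']
  [IsScalarTower K K' E'] [IsScalarTower K E E'] [Normal K E]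
  [Algebra K' K''] [Algebra K'' E''] [Algebra E' E''] [Algebra K' E'']
  [IsScalarTower K' K'' E''] [IsScalarTower K' E' E''] [Normal K' E']
  [Algebra K K''] [Algebra E E''] [Algebra K E'']
  [IsScalarTower K K'' E''] [IsScalarTower K E E'']
  [IsScalarTower E E' E'']

theorem sqπ_comp :
    (sqπ K K' E E').comp (sqπ K' K'' E' E'') = sqπ K K'' E E'' := by
  ext σ x
  apply (algebraMap E E'').injective
  rw [MonoidHom.comp_apply, sqπ_apply, IsScalarTower.algebraMap_apply E E' E'', sqπ_apply,
    sqπ_apply, ← IsScalarTower.algebraMap_apply E E' E'']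

/-- **Composition law** for the maps of squares. -/
theorem sqMap_comp (n : ℕ) :
    sqMap K K' E E' n ≫ sqMap K' K'' E' E'' n = sqMap K K'' E E'' n := by
  unfold sqMap
  rw [← map_comp]
  refine map_congr (sqπ_comp K K' K'' E E' E'') ?_ n
  apply LinearMap.ext
  intro (x : Additive Eˣ)
  refine congrArg Additive.ofMul (Units.ext ?_)
  exact (IsScalarTower.algebraMap_apply E E' E'' ((x.toMul : Eˣ) : E)).symm

theorem sqMap_comp_apply (n : ℕ) (x : groupCohomology (Rep.ofAlgebraAutOnUnits K E) n) :
    sqMap K' K'' E' E'' n (sqMap K K' E E' n x) = sqMap K K'' E E'' n x := by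
  rw [← sqMap_comp K K' K'' E E' E'' n]
  rfl

end Comp

section Special

variable (K E M : Type) [Field K] [Field E] [Field M] [Algebra K E] [Algebra K M] [Algebra E M]
  [IsScalarTower K E M] [Normal K E]

theorem sqπ_eq_towerπ : sqπ K K E M = Tower.π K E M := by
  ext σ x
  apply (algebraMap E M).injective
  rw [sqπ_apply, Tower.π_apply]

/-- For `K = K'` the map of squares is the inflation of `TowerInfl.lean`. -/
theorem sqMap_eq_infl (n : ℕ) :
    sqMap K K E M n = map (Tower.π K E M) (Tower.ι K E M) n := by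
  unfold sqMap
  exact map_congr (sqπ_eq_towerπ K E M) rfl n

theorem sqπ_self : sqπ K K E E = MonoidHom.id _ := by
  ext σ x
  have h := sqπ_apply K K E E σ x
  simpa using h

/-- The map of the identity square is the identity. -/
theorem sqMap_self (n : ℕ) : sqMap K K E E n = 𝟙 _ := by
  unfold sqMap
  rw [← map_id]
  refine map_congr (sqπ_self K E) ?_ n
  apply LinearMap.ext
  intro (x : Additive Eˣ)
  refine congrArg Additive.ofMul (Units.ext ?_)
  rfl

theorem sqMap_self_apply (n : ℕ) (x : groupCohomology (Rep.ofAlgebraAutOnUnits K E) n) :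
    sqMap K K E E n x = x := by
  rw [sqMap_self]
  rfl

end Special

end Fermat.Agent.Lib.CFT.Local.LocalBrauer.Square
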